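import Fermat.Agent.CubicForms.Levels
import Fermat.Agent.WaringAsymptotic.Multiplicative

/-!
# Complete sums

Near `a / q` the sum over the box is `q ^ (-n) S (a, q)` times the sum at `β` up to
`O (q P ^ (n - 1) (1 + P ^ 3 |β|))`, by averaging over the translations by residues.
-/

set_option autoImplicit false

noncomputable section

namespace FA.CubicForms

open Finset FA.ThreePrimes FA.WaringAsymptotic
open scoped Real

variable {n : ℕ} (c : Fin n → Fin n → Fin n → ℤ)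

/-- The residues. -/
def residueBox (n q : ℕ) : Finset (Fin n → ℕ) := Fintype.piFinset fun _ => range q

/-- The complete sum `S (a, q)`. -/
def completeCubic (q : ℕ) (a : ℤ) : ℂ :=
  ∑ r ∈ residueBox n q, eAdd (((a * cubic c fun i => (r i : ℤ) : ℤ) : ℝ) / q)

theorem card_residueBox (q : ℕ) : (residueBox n q).card = q ^ n := by
  simp [residueBox, Fintype.card_piFinset]

theorem mem_residueBox {q : ℕ} {r : Fin n → ℕ} : r ∈ residueBox n q ↔ ∀ i, r i < q := by
  simp [residueBox, Fintype.mem_piFinset]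

theorem norm_completeCubic_le (q : ℕ) (a : ℤ) : ‖completeCubic c q a‖ ≤ (q : ℝ) ^ n := by
  refine (norm_sum_le _ _).trans (le_of_eq ?_)
  simp [norm_eAdd, card_residueBox]

theorem intCast_cubic {R : Type*} [CommRing R] (x : Fin n → ℤ) :
    ((cubic c x : ℤ) : R) = cubic (tmap (Int.castRingHom R) c) fun i => (x i : R) :=
  (cubic_map c x (Int.castRingHom R)).symm

theorem eAdd_cubic_congr {q : ℕ} (hq : 0 < q) (a : ℤ) {x y : Fin n → ℤ}
    (h : ∀ i, (x i : ZMod q) = (y i : ZMod q)) :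
    eAdd (((a * cubic c x : ℤ) : ℝ) / q) = eAdd (((a * cubic c y : ℤ) : ℝ) / q) := by
  refine eAdd_natCast_div_congr hq ?_
  rw [Int.cast_mul, Int.cast_mul, intCast_cubic, intCast_cubic, funext h]

/-- Translations permute the residues. -/
theorem sum_residueBox_shift {q : ℕ} (hq : 0 < q) (a : ℤ) (x : Fin n → ℤ) :
    ∑ r ∈ residueBox n q, eAdd (((a * cubic c (x + fun i => (r i : ℤ)) : ℤ) : ℝ) / q) =
      completeCubic c q a := by
  have : NeZero q := ⟨hq.ne'⟩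
  refine sum_nbij' (fun r i => ((x i : ZMod q) + r i).val) (fun r i => ((r i : ZMod q) - x i).val)
    (fun r _ => mem_residueBox.2 fun i => ZMod.val_lt _)
    (fun r _ => mem_residueBox.2 fun i => ZMod.val_lt _) (fun r hr => ?_) (fun r hr => ?_)
    fun r _ => eAdd_cubic_congr c hq a fun i => ?_
  · funext i
    simp only [ZMod.natCast_zmod_val, add_sub_cancel_left,
      ZMod.val_cast_of_lt (mem_residueBox.1 hr i)]
  · funext i
    simp only [ZMod.natCast_zmod_val, add_sub_cancel,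
      ZMod.val_cast_of_lt (mem_residueBox.1 hr i)]
  · simp only [Pi.add_apply, Int.cast_add, Int.cast_natCast, ZMod.natCast_zmod_val]

theorem pow_sub_pow_le {a b : ℝ} (hb : 0 ≤ b) (hab : b ≤ a) : ∀ m : ℕ,
    a ^ m - b ^ m ≤ m * (a - b) * a ^ (m - 1)
  | 0 => by simp
  | m + 1 => by
    have h := pow_sub_pow_le hb hab m
    have h1 : a * (a ^ m - b ^ m) ≤ m * (a - b) * a ^ m := by
      rcases Nat.eq_zero_or_pos m with rfl | hm
      · simp
      · refine (mul_le_mul_of_nonneg_left h (hb.trans hab)).trans (le_of_eq ?_)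
        obtain ⟨k, rfl⟩ : ∃ k, m = k + 1 := ⟨m - 1, by omega⟩
        rw [Nat.add_sub_cancel, pow_succ]
        ring
    have h2 : (a - b) * b ^ m ≤ (a - b) * a ^ m :=
      mul_le_mul_of_nonneg_left (pow_le_pow_left₀ hb hab m) (by linarith)
    rw [Nat.add_sub_cancel, pow_succ', pow_succ']
    push_cast
    linarith

theorem card_cbox (n R : ℕ) : (cbox n R).card = (2 * R + 1) ^ n := by
  rw [cbox, Fintype.card_piFinset, prod_const, card_univ, Fintype.card_fin, Int.card_Icc,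
    show ((R : ℕ) : ℤ) + 1 - -(R : ℤ) = ((2 * R + 1 : ℕ) : ℤ) by push_cast; ring, Int.toNat_natCast]

theorem norm_sum_shift_sub_le (f : (Fin n → ℤ) → ℂ) (hf : ∀ x, ‖f x‖ ≤ 1) {P q : ℕ} (hq : q ≤ P)
    {v : Fin n → ℤ} (hv : ∀ i, |v i| ≤ (q : ℤ)) :
    ‖∑ x ∈ cbox n P, f (x + v) - ∑ x ∈ cbox n P, f x‖ ≤
      4 * n * q * (3 * (P : ℝ)) ^ (n - 1) := by
  classical
  obtain ⟨A, hA⟩ : ∃ A, A = (cbox n P).image fun x => x + v := ⟨_, rfl⟩
  have hsum : ∑ x ∈ cbox n P, f (x + v) = ∑ x ∈ A, f x := by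
    rw [hA, sum_image fun x _ y _ e => add_right_cancel e]
  have h1 : cbox n (P - q) ⊆ cbox n P := fun x hx => mem_cbox.2 fun i => by
    have := mem_cbox.1 hx i
    omega
  have h2 : cbox n (P - q) ⊆ A := fun x hx => by
    rw [hA]
    refine mem_image.2 ⟨x - v, mem_cbox.2 fun i => ?_, sub_add_cancel x v⟩
    have a1 := mem_cbox.1 hx i
    have a2 := hv i
    have a3 := abs_sub (x i) (v i)
    rw [Nat.cast_sub hq] at a1
    show |x i - v i| ≤ _
    linarith
  have hAc : A.card = (cbox n P).card := hA ▸ card_image_of_injective _ (add_left_injective v)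
  have hbd : ∀ B : Finset (Fin n → ℤ), cbox n (P - q) ⊆ B → B.card = (cbox n P).card →
      ‖∑ x ∈ B, f x - ∑ x ∈ cbox n (P - q), f x‖ ≤ 2 * n * q * (3 * (P : ℝ)) ^ (n - 1) := by
    intro B hB hBc
    rw [← sum_sdiff_eq_sub hB]
    refine (norm_sum_le _ _).trans ((sum_le_card_nsmul _ _ 1 fun x _ => hf x).trans ?_)
    rw [nsmul_one, card_sdiff_of_subset hB, Nat.cast_sub (card_le_card hB), hBc, card_cbox,
      card_cbox]
    push_cast [Nat.cast_sub hq]
    have hq' : (q : ℝ) ≤ P := Nat.cast_le.2 hq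
    refine (pow_sub_pow_le (by linarith)
      (by linarith [(Nat.cast_nonneg q : (0 : ℝ) ≤ q)]) n).trans ?_
    rcases Nat.eq_zero_or_pos P with rfl | hP
    · simp [Nat.le_zero.1 hq]
    have hP' : (1 : ℝ) ≤ P := by exact_mod_cast hP
    rw [show (n : ℝ) * (2 * P + 1 - (2 * (P - q) + 1)) = 2 * n * q by ring]
    gcongr
    linarith
  rw [hsum, ← sub_sub_sub_cancel_right _ _ (∑ x ∈ cbox n (P - q), f x)]
  refine (norm_sub_le _ _).trans ((add_le_add (hbd A h2 hAc) (hbd _ h1 rfl)).trans (le_of_eq ?_))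
  ring

/-- **The main term near a fraction.** -/
theorem exists_major_approx : ∃ C : ℝ, 0 < C ∧ ∀ (P q : ℕ) (a : ℤ) (β : ℝ), 1 ≤ q → q ≤ P →
    ‖cubicSum c P ((a : ℝ) / q + β) - completeCubic c q a / (q : ℂ) ^ n * cubicSum c P β‖ ≤
      C * q * (P : ℝ) ^ (n - 1) * (1 + (P : ℝ) ^ 3 * |β|) := by
  refine ⟨(4 * n + 14 * π * coefSize c * 3 + 1) * 3 ^ n, by positivity, fun P q a β hq hqP => ?_⟩
  have hq0 : 0 < q := hq
  have hP : 1 ≤ P := hq.trans hqP
  have hqn : ((q : ℂ) ^ n) ≠ 0 := pow_ne_zero _ (Nat.cast_ne_zero.2 hq0.ne')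
  obtain ⟨f, hf⟩ : ∃ f : (Fin n → ℤ) → ℂ,
      f = fun y => eAdd (((a : ℝ) / q + β) * (cubic c y : ℤ)) := ⟨_, rfl⟩
  obtain ⟨V, hV⟩ : ∃ V, V = cubicSum c P β := ⟨_, rfl⟩
  have hsplit : ∀ (x : Fin n → ℤ), ∀ y : Fin n → ℤ, f y =
      eAdd (((a * cubic c y : ℤ) : ℝ) / q) * eAdd (β * (cubic c x : ℤ)) +
        eAdd (((a * cubic c y : ℤ) : ℝ) / q) *
          (eAdd (β * (cubic c y : ℤ)) - eAdd (β * (cubic c x : ℤ))) := fun x y => by
    rw [← mul_add, add_sub_cancel, ← eAdd_add, hf]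
    push_cast
    ring_nf
  have hΔ : ∀ x ∈ cbox n P, ∀ r ∈ residueBox n q,
      ‖eAdd (β * (cubic c (x + fun i => (r i : ℤ)) : ℤ)) - eAdd (β * (cubic c x : ℤ))‖ ≤
        14 * π * coefSize c * ((q : ℝ) * (P : ℝ) ^ 2 * |β|) := by
    intro x hx r hr
    obtain ⟨v, hv⟩ : ∃ v : Fin n → ℤ, v = fun i => (r i : ℤ) := ⟨_, rfl⟩
    rw [← hv]
    have hv' : ∀ i, |v i| ≤ (q : ℤ) := fun i => by
      rw [hv, Nat.abs_cast]
      exact_mod_cast (mem_residueBox.1 hr i).le
    have hz : |cubic c (x + v) - cubic c x| ≤ 7 * coefSize c * ((q : ℤ) * (P : ℤ) ^ 2) := by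
      have e : cubic c (x + v) - cubic c x = polar c x v + polar c v x + cubic c v := by
        rw [cubic_add]; ring
      have b1 := abs_polar_le c (mem_cbox.1 hx) hv'
      have b2 := abs_polar_le c hv' (mem_cbox.1 hx)
      have b3 := abs_cubic_le c hv'
      have hqq : (q : ℤ) ≤ P := Int.ofNat_le.2 hqP
      have hK : (0 : ℤ) ≤ coefSize c := Int.natCast_nonneg _
      have q1 : (q : ℤ) * q * P ≤ (q : ℤ) * (P : ℤ) ^ 2 := by
        rw [mul_assoc, sq]; gcongr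
      have q2 : (q : ℤ) * q * q ≤ (q : ℤ) * (P : ℤ) ^ 2 := by
        rw [mul_assoc, sq]; gcongr
      have q3 : (P : ℤ) * P * q = (q : ℤ) * (P : ℤ) ^ 2 := by ring
      rw [e]
      refine (abs_add_three _ _ _).trans ?_
      rw [q3] at b1
      have := mul_le_mul_of_nonneg_left q1 hK
      have := mul_le_mul_of_nonneg_left q2 hK
      linarith
    rw [show eAdd (β * (cubic c (x + v) : ℤ)) - eAdd (β * (cubic c x : ℤ)) =
      eAdd (β * (cubic c x : ℤ)) *
        (eAdd (β * ((cubic c (x + v) - cubic c x : ℤ) : ℝ)) - 1) by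
      rw [mul_sub, mul_one, ← eAdd_add]; push_cast; ring_nf, norm_mul, norm_eAdd, one_mul]
    refine (norm_eAdd_sub_one_le _).trans ?_
    rw [abs_mul]
    have hz' : |((cubic c (x + v) - cubic c x : ℤ) : ℝ)| ≤
        7 * (coefSize c : ℝ) * ((q : ℝ) * (P : ℝ) ^ 2) := by exact_mod_cast hz
    calc 2 * π * (|β| * |((cubic c (x + v) - cubic c x : ℤ) : ℝ)|)
        ≤ 2 * π * (|β| * (7 * (coefSize c : ℝ) * ((q : ℝ) * (P : ℝ) ^ 2))) := by gcongr
      _ = _ := by ring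
  have hmain : ‖∑ r ∈ residueBox n q, ∑ x ∈ cbox n P, f (x + fun i => (r i : ℤ)) -
      completeCubic c q a * V‖ ≤ (q : ℝ) ^ n * ((3 * (P : ℝ)) ^ n *
        (14 * π * coefSize c * ((q : ℝ) * (P : ℝ) ^ 2 * |β|))) := by
    rw [sum_comm, hV, cubicSum, mul_sum, ← sum_sub_distrib]
    refine (norm_sum_le _ _).trans ((sum_le_card_nsmul _ _ ((q : ℝ) ^ n *
      (14 * π * coefSize c * ((q : ℝ) * (P : ℝ) ^ 2 * |β|))) fun x hx => ?_).trans ?_)
    · rw [sum_congr rfl fun r _ => hsplit x (x + fun i => (r i : ℤ)), sum_add_distrib, ← sum_mul,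
        sum_residueBox_shift c hq0, add_sub_cancel_left]
      refine (norm_sum_le _ _).trans ((sum_le_card_nsmul _ _
        (14 * π * coefSize c * ((q : ℝ) * (P : ℝ) ^ 2 * |β|)) fun r hr => ?_).trans (le_of_eq ?_))
      · rw [norm_mul, norm_eAdd, one_mul]
        exact hΔ x hx r hr
      · rw [nsmul_eq_mul, card_residueBox, Nat.cast_pow]
    · rw [nsmul_eq_mul, card_cbox, Nat.cast_pow, mul_left_comm]
      gcongr
      push_cast
      linarith [(Nat.one_le_cast (α := ℝ)).2 hP]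
  have hshift : ‖(q : ℂ) ^ n * cubicSum c P ((a : ℝ) / q + β) -
      ∑ r ∈ residueBox n q, ∑ x ∈ cbox n P, f (x + fun i => (r i : ℤ))‖ ≤
      (q : ℝ) ^ n * (4 * n * q * (3 * (P : ℝ)) ^ (n - 1)) := by
    rw [show (q : ℂ) ^ n * cubicSum c P ((a : ℝ) / q + β) =
      ∑ r ∈ residueBox n q, ∑ x ∈ cbox n P, f x by
      rw [sum_const, card_residueBox, nsmul_eq_mul, Nat.cast_pow, cubicSum, hf], ← sum_sub_distrib]
    refine (norm_sum_le _ _).trans ((sum_le_card_nsmul _ _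
      (4 * n * q * (3 * (P : ℝ)) ^ (n - 1)) fun r hr => ?_).trans (le_of_eq ?_))
    · rw [norm_sub_rev]
      refine norm_sum_shift_sub_le f (fun y => by rw [hf, norm_eAdd]) hqP fun i => ?_
      rw [Nat.abs_cast]
      exact_mod_cast (mem_residueBox.1 hr i).le
    · rw [nsmul_eq_mul, card_residueBox, Nat.cast_pow]
  rw [← hV, show cubicSum c P ((a : ℝ) / q + β) - completeCubic c q a / (q : ℂ) ^ n * V =
    ((q : ℂ) ^ n * cubicSum c P ((a : ℝ) / q + β) - completeCubic c q a * V) / (q : ℂ) ^ n by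
      field_simp, norm_div, norm_pow, Complex.norm_natCast, div_le_iff₀ (by positivity)]
  refine (norm_sub_le_norm_sub_add_norm_sub _
    (∑ r ∈ residueBox n q, ∑ x ∈ cbox n P, f (x + fun i => (r i : ℤ))) _).trans
    ((add_le_add hshift hmain).trans ?_)
  rw [← mul_add, mul_comm ((q : ℝ) ^ n)]
  refine mul_le_mul_of_nonneg_right ?_ (by positivity)
  rcases Nat.eq_zero_or_pos n with hn | hn
  · subst hn
    simp [coefSize]
    positivity
  obtain ⟨m, rfl⟩ : ∃ m, n = m + 1 := ⟨n - 1, by omega⟩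
  rw [Nat.add_sub_cancel, mul_pow, mul_pow, pow_succ (P : ℝ) m]
  have hw : 0 ≤ (P : ℝ) ^ 3 * |β| := by positivity
  obtain ⟨X, hX⟩ : ∃ X, X = (q : ℝ) * (P : ℝ) ^ m := ⟨_, rfl⟩
  have hX0 : 0 ≤ X := hX ▸ by positivity
  calc 4 * ((m + 1 : ℕ) : ℝ) * q * (3 ^ m * (P : ℝ) ^ m) + 3 ^ (m + 1) * ((P : ℝ) ^ m * P) *
        (14 * π * coefSize c * ((q : ℝ) * (P : ℝ) ^ 2 * |β|))
      = X * (4 * ((m + 1 : ℕ) : ℝ) * 3 ^ m + 14 * π * coefSize c * 3 ^ (m + 1) *
          ((P : ℝ) ^ 3 * |β|)) := by rw [hX]; ring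
    _ ≤ X * ((4 * ((m + 1 : ℕ) : ℝ) + 14 * π * coefSize c * 3 + 1) * 3 ^ (m + 1) *
          (1 + (P : ℝ) ^ 3 * |β|)) := by
        refine mul_le_mul_of_nonneg_left ?_ hX0
        rw [pow_succ]
        have e3 : (0 : ℝ) ≤ 3 ^ m := by positivity
        have eK : (0 : ℝ) ≤ 14 * π * coefSize c := by positivity
        have em : (0 : ℝ) ≤ ((m + 1 : ℕ) : ℝ) := by positivity
        nlinarith [mul_nonneg (mul_nonneg e3 eK) hw, mul_nonneg e3 eK, mul_nonneg e3 em,
          mul_nonneg (mul_nonneg e3 em) hw, mul_nonneg e3 hw]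
    _ = _ := by rw [hX]; ring

theorem norm_cubicSum_sub_le (P : ℕ) (α β : ℝ) : ‖cubicSum c P α - cubicSum c P β‖ ≤
    2 * π * coefSize c * (P : ℝ) ^ 3 * ((2 * P + 1 : ℕ) : ℝ) ^ n * |α - β| := by
  rw [cubicSum, cubicSum, ← sum_sub_distrib]
  refine (norm_sum_le _ _).trans ((sum_le_card_nsmul _ _
    (2 * π * coefSize c * (P : ℝ) ^ 3 * |α - β|) fun x hx => ?_).trans (le_of_eq ?_))
  · rw [show eAdd (α * (cubic c x : ℤ)) - eAdd (β * (cubic c x : ℤ)) =
      eAdd (β * (cubic c x : ℤ)) * (eAdd ((α - β) * (cubic c x : ℤ)) - 1) by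
      rw [mul_sub, mul_one, ← eAdd_add]; ring_nf, norm_mul, norm_eAdd, one_mul]
    refine (norm_eAdd_sub_one_le _).trans ?_
    rw [abs_mul]
    have hz : |((cubic c x : ℤ) : ℝ)| ≤ (coefSize c : ℝ) * ((P : ℝ) * P * P) := by
      exact_mod_cast abs_cubic_le c (mem_cbox.1 hx)
    calc 2 * π * (|α - β| * |((cubic c x : ℤ) : ℝ)|)
        ≤ 2 * π * (|α - β| * ((coefSize c : ℝ) * ((P : ℝ) * P * P))) := by gcongr
      _ = _ := by ring
  · rw [nsmul_eq_mul, card_cbox, Nat.cast_pow]; ring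

end FA.CubicForms
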