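import Mathlib.RingTheory.MvPolynomial.Basic
import Mathlib.Algebra.MvPolynomial.PDeriv
import Mathlib.Algebra.MvPolynomial.Funext
import Mathlib.Algebra.Polynomial.Derivative
import Mathlib.Algebra.Polynomial.Roots
import Mathlib.LinearAlgebra.Matrix.Rank
import Mathlib.LinearAlgebra.Matrix.NonsingularInverse
import Mathlib.LinearAlgebra.FiniteDimensional.Lemmas

/-!
# Nonsingular zeros

There are at most `L ^ m` nonsingular common zeros of `m` polynomials of degree at most `D` in `m`
variables, `L` depending on `m` and `D` only. Each coordinate satisfies an algebraic equation with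
the polynomials; on a line through a zero its terms of least degree in the polynomials give an
equation in one variable for that coordinate.
-/

set_option autoImplicit false

noncomputable section

namespace FA.CubicForms

open Finset MvPolynomial

theorem exists_li_subfamily {K V α : Type*} [Field K] [AddCommGroup V] [Module K V]
    [FiniteDimensional K V] (v : α → V) {m : ℕ}
    (h : m ≤ Module.finrank K (Submodule.span K (Set.range v))) :
    ∃ f : Fin m → α, Function.Injective f ∧ LinearIndependent K (v ∘ f) := by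
  obtain ⟨κ, a, ha, hsp, hli⟩ := exists_linearIndependent' K v
  have : Finite κ := hli.finite
  have := Fintype.ofFinite κ
  rw [← hsp, finrank_span_eq_card hli] at h
  obtain ⟨e⟩ : Nonempty (Fin m ↪ κ) :=
    Function.Embedding.nonempty_of_card_le (by rwa [Fintype.card_fin])
  exact ⟨a ∘ e, ha.comp e.injective, hli.comp e e.injective⟩

/-- Rows making a matrix with trivial kernel square and nonsingular. -/
theorem exists_rows_det_ne_zero {K α : Type*} [Field K] [Finite α] {m : ℕ} (M : Matrix α (Fin m) K)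
    (h : ∀ v, M.mulVec v = 0 → v = 0) :
    ∃ f : Fin m → α, Function.Injective f ∧ (M.submatrix f id).det ≠ 0 := by
  have := Fintype.ofFinite α
  have hinj : Function.Injective M.mulVecLin :=
    (injective_iff_map_eq_zero _).2 fun v hv => h v hv
  have hr : M.rank = m := by
    rw [Matrix.rank, LinearMap.finrank_range_of_inj hinj, Module.finrank_fin_fun]
  rw [Matrix.rank_eq_finrank_span_row] at hr
  obtain ⟨f, hf, hli⟩ := exists_li_subfamily M.row hr.ge
  refine ⟨f, hf, ?_⟩
  have : IsUnit (M.submatrix f id) := Matrix.linearIndependent_rows_iff_isUnit.1 hli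
  exact ((Matrix.isUnit_iff_isUnit_det _).1 this).ne_zero

/-- Columns with trivial kernel. -/
theorem exists_cols_injective {α β : Type*} [Fintype α] [Fintype β] {m : ℕ} (M : Matrix α β ℚ)
    (h : m ≤ M.rank) : ∃ K : Fin m → β, Function.Injective K ∧
      ∀ v, (M.submatrix id K).mulVec v = 0 → v = 0 := by
  rw [Matrix.rank_eq_finrank_span_cols] at h
  obtain ⟨K, hK, hli⟩ := exists_li_subfamily M.col h
  refine ⟨K, hK, fun v hv => ?_⟩
  have hli' : LinearIndependent ℚ (M.submatrix id K).col := hli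
  exact Matrix.mulVec_injective_iff.2 hli' (hv.trans (Matrix.mulVec_zero _).symm)

/-- The derivative along `u` of the restriction to a line. -/
theorem eval_zero_derivative_line {σ : Type*} [Fintype σ] (s u : σ → ℚ) (G : MvPolynomial σ ℚ) :
    (aeval (fun i => Polynomial.C (s i) + Polynomial.C (u i) * Polynomial.X) G).eval 0 =
      eval s G ∧
    (Polynomial.derivative
      (aeval (fun i => Polynomial.C (s i) + Polynomial.C (u i) * Polynomial.X) G)).eval 0 =
      ∑ e, u e * eval s (pderiv e G) := by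
  classical
  induction G using MvPolynomial.induction_on with
  | C a => simp
  | add p q hp hq =>
    constructor
    · simp [hp.1, hq.1]
    · simp [hp.2, hq.2, mul_add, sum_add_distrib]
  | mul_X p i hp =>
    constructor
    · simp [hp.1]
    · rw [map_mul, aeval_X, Polynomial.derivative_mul, Polynomial.eval_add, Polynomial.eval_mul,
        Polynomial.eval_mul, hp.1, hp.2]
      simp only [Polynomial.eval_add, Polynomial.eval_mul, Polynomial.eval_C, Polynomial.eval_X,
        mul_zero, add_zero, map_add, Polynomial.derivative_C, Polynomial.derivative_C_mul,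
        Polynomial.derivative_X, mul_one, zero_add, pderiv_mul, pderiv_X, map_mul, eval_X,
        mul_add, sum_add_distrib, Pi.single_apply, mul_ite, apply_ite (eval s), map_zero,
        sum_ite_eq, mem_univ, if_true, mul_comm (eval s p) (u i)]
      congr 1
      rw [sum_mul]
      exact sum_congr rfl fun e _ => by ring

/-- The Jacobian matrix. -/
def jac {α σ : Type*} (G : α → MvPolynomial σ ℚ) (s : σ → ℚ) : Matrix α σ ℚ :=
  Matrix.of fun i e => eval s (pderiv e (G i))

/-- **A coordinate of the nonsingular zeros is algebraic of bounded degree.** -/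
theorem exists_coord_equation {m D L : ℕ} (hL : ((m + 1) * (D + 1) * L + 1) ^ m < (L + 1) ^ (m + 1))
    (G : Fin m → MvPolynomial (Fin m) ℚ) (hG : ∀ i, (G i).totalDegree ≤ D) (k : Fin m) :
    ∃ Q : Polynomial ℚ, Q ≠ 0 ∧ Q.natDegree ≤ L ∧
      ∀ s : Fin m → ℚ, (∀ i, eval s (G i) = 0) → (jac G s).det ≠ 0 → Q.eval (s k) = 0 := by
  classical
  obtain ⟨B, hB⟩ : ∃ B, B = (m + 1) * (D + 1) * L := ⟨_, rfl⟩
  obtain ⟨M, hM⟩ : ∃ M : (Fin m → Fin (L + 1)) × Fin (L + 1) → MvPolynomial (Fin m) ℚ,
      M = fun e => (∏ i, G i ^ (e.1 i : ℕ)) * X k ^ (e.2 : ℕ) := ⟨_, rfl⟩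
  have hdeg : ∀ e, (M e).totalDegree ≤ B := fun e => by
    rw [hM]
    refine (totalDegree_mul _ _).trans ((Nat.add_le_add ((totalDegree_finsetProd _ _).trans
      (sum_le_sum fun i _ => (totalDegree_pow _ _).trans
        (Nat.mul_le_mul (Nat.lt_succ_iff.1 (e.1 i).isLt) (hG i))))
      ((totalDegree_pow _ _).trans (Nat.mul_le_mul (Nat.lt_succ_iff.1 e.2.isLt)
        (totalDegree_X k).le))).trans ?_)
    rw [sum_const, card_univ, Fintype.card_fin, smul_eq_mul, hB]
    nlinarith
  obtain ⟨Φ, hΦ⟩ : ∃ Φ : ((Fin m → Fin (L + 1)) × Fin (L + 1) → ℚ) →ₗ[ℚ]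
      ((Fin m → Fin (B + 1)) → ℚ), ∀ g f, Φ g f =
        coeff (Finsupp.equivFunOnFinite.symm fun i => (f i : ℕ)) (∑ e, g e • M e) :=
    ⟨{ toFun := fun g f =>
        coeff (Finsupp.equivFunOnFinite.symm fun i => (f i : ℕ)) (∑ e, g e • M e)
       map_add' := fun g g' => by
        funext f; simp only [Pi.add_apply, add_smul, sum_add_distrib, coeff_add]
       map_smul' := fun a g => by
        funext f
        simp only [Pi.smul_apply, smul_eq_mul, mul_smul, ← smul_sum, coeff_smul, RingHom.id_apply]},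
      fun g f => rfl⟩
  obtain ⟨g, hgk, hg0⟩ := (Submodule.ne_bot_iff _).1 (LinearMap.ker_ne_bot_of_finrank_lt (f := Φ)
    (by
      rw [Module.finrank_fintype_fun_eq_card, Module.finrank_fintype_fun_eq_card, Fintype.card_prod,
        Fintype.card_fun, Fintype.card_fun, Fintype.card_fin, Fintype.card_fin, Fintype.card_fin,
        ← pow_succ]
      rwa [hB]))
  have hrel : ∑ e, g e • M e = 0 := by
    ext d
    rw [coeff_zero]
    by_cases hd : ∀ i, d i < B + 1
    · have := congrFun hgk fun i => (⟨d i, hd i⟩ : Fin (B + 1))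
      rw [hΦ] at this
      refine Eq.trans ?_ this
      congr 1
      ext i
      simp
    · push Not at hd
      obtain ⟨i, hi⟩ := hd
      refine coeff_eq_zero_of_totalDegree_lt (lt_of_le_of_lt ((totalDegree_finsetSum_le fun e _ =>
        (totalDegree_smul_le _ _).trans (hdeg e))) (lt_of_lt_of_le hi ?_))
      exact single_le_sum (fun j _ => Nat.zero_le (d j))
        (Finsupp.mem_support_iff.2 (by omega))
  obtain ⟨w, hw⟩ : ∃ w : (Fin m → Fin (L + 1)) × Fin (L + 1) → ℕ,
      w = fun e => ∑ i, (e.1 i : ℕ) := ⟨_, rfl⟩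
  obtain ⟨e₀, he₀, hmin⟩ := (univ.filter fun e => g e ≠ 0).exists_min_image w
    (by
      obtain ⟨e, he⟩ := Function.ne_iff.1 hg0
      exact ⟨e, mem_filter.2 ⟨mem_univ _, he⟩⟩)
  obtain ⟨j, hj⟩ : ∃ j, j = w e₀ := ⟨_, rfl⟩
  obtain ⟨Q, hQ⟩ : ∃ Q : Polynomial ℚ,
      Q = ∑ l : Fin (L + 1), Polynomial.C (g (e₀.1, l)) * Polynomial.X ^ (l : ℕ) := ⟨_, rfl⟩
  refine ⟨Q, fun h0 => (mem_filter.1 he₀).2 ?_, ?_, fun s hs hdet => ?_⟩
  · have := congrArg (fun P => Polynomial.coeff P (e₀.2 : ℕ)) h0
    simpa [hQ, Polynomial.finsetSum_coeff, Polynomial.coeff_C_mul_X_pow, Fin.val_inj] using this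
  · rw [hQ]
    exact Polynomial.natDegree_sum_le_of_forall_le _ _ fun l _ =>
      (Polynomial.natDegree_C_mul_X_pow_le _ _).trans (Nat.lt_succ_iff.1 l.isLt)
  obtain ⟨J, hJ⟩ : ∃ J, J = jac G s := ⟨_, rfl⟩
  have key : ∀ u : Fin m → ℚ,
      ∑ e ∈ univ.filter (fun e => w e = j),
        g e * ((∏ i, J.mulVec u i ^ (e.1 i : ℕ)) * s k ^ (e.2 : ℕ)) = 0 := by
    intro u
    obtain ⟨φ, hφ⟩ : ∃ φ : MvPolynomial (Fin m) ℚ →ₐ[ℚ] Polynomial ℚ,
        φ = aeval fun i => Polynomial.C (s i) + Polynomial.C (u i) * Polynomial.X := ⟨_, rfl⟩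
    have hq : ∀ i, ∃ q : Polynomial ℚ, φ (G i) = Polynomial.X * q ∧ q.eval 0 = J.mulVec u i := by
      intro i
      obtain ⟨h1, h2⟩ := eval_zero_derivative_line s u (G i)
      rw [← hφ] at h1 h2
      rw [hs i] at h1
      obtain ⟨q, hq⟩ : Polynomial.X ∣ φ (G i) := by
        rw [Polynomial.X_dvd_iff, Polynomial.coeff_zero_eq_eval_zero, h1]
      refine ⟨q, hq, ?_⟩
      rw [hq] at h2
      simp only [Polynomial.derivative_mul, Polynomial.derivative_X, one_mul, Polynomial.eval_add,
        Polynomial.eval_mul, Polynomial.eval_X, zero_mul, add_zero] at h2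
      rw [h2, hJ, Matrix.mulVec, dotProduct]
      exact sum_congr rfl fun e _ => by rw [jac, Matrix.of_apply, mul_comm]
    choose q hq hq0 using hq
    have h1 : φ (∑ e, g e • M e) = Polynomial.X ^ j * ∑ e, Polynomial.C (g e) *
        (Polynomial.X ^ (w e - j) * ((∏ i, q i ^ (e.1 i : ℕ)) * φ (X k) ^ (e.2 : ℕ))) := by
      rw [map_sum, mul_sum]
      refine sum_congr rfl fun e _ => ?_
      rw [map_smul, Polynomial.smul_eq_C_mul, hM]
      simp only [map_mul, map_prod, map_pow, hq, mul_pow, prod_mul_distrib, prod_pow_eq_pow_sum]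
      by_cases he : g e = 0
      · simp [he]
      have hje : j ≤ w e := hj ▸ hmin e (mem_filter.2 ⟨mem_univ _, he⟩)
      rw [show (∑ i, (e.1 i : ℕ)) = j + (w e - j) by simp only [hw] at hje ⊢; omega, pow_add]
      ring
    rw [hrel, map_zero, eq_comm, mul_eq_zero] at h1
    have h2 := congrArg (Polynomial.eval 0) (h1.resolve_left (pow_ne_zero j Polynomial.X_ne_zero))
    rw [Polynomial.eval_finsetSum, Polynomial.eval_zero] at h2
    rw [sum_filter]
    refine Eq.trans (sum_congr rfl fun e _ => ?_) h2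
    simp only [Polynomial.eval_mul, Polynomial.eval_C, Polynomial.eval_pow, Polynomial.eval_X,
      Polynomial.eval_prod, hq0, hφ, aeval_X, Polynomial.eval_add, mul_zero, add_zero]
    by_cases he : g e = 0
    · simp [he]
    have hje : j ≤ w e := hj ▸ hmin e (mem_filter.2 ⟨mem_univ _, he⟩)
    split_ifs with h
    · rw [h, Nat.sub_self, pow_zero, one_mul]
    · rw [zero_pow (by omega), zero_mul, mul_zero]
  have hsurj : Function.Surjective J.mulVec := by
    rw [Matrix.mulVec_surjective_iff_isUnit, Matrix.isUnit_iff_isUnit_det, isUnit_iff_ne_zero, hJ]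
    exact hdet
  obtain ⟨P, hP⟩ : ∃ P : MvPolynomial (Fin m) ℚ, P = ∑ e ∈ univ.filter (fun e => w e = j),
      monomial (Finsupp.equivFunOnFinite.symm fun i => (e.1 i : ℕ))
        (g e * s k ^ (e.2 : ℕ)) := ⟨_, rfl⟩
  have hP0 : P = 0 := MvPolynomial.funext fun y => by
    obtain ⟨u, rfl⟩ := hsurj y
    rw [map_zero, hP, map_sum, ← key u]
    refine sum_congr rfl fun e _ => ?_
    rw [eval_monomial, Finsupp.prod_fintype _ _ fun i => pow_zero _]
    simp only [Finsupp.equivFunOnFinite_symm_apply_apply]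
    ring
  have h3 := congrArg (coeff (Finsupp.equivFunOnFinite.symm fun i => (e₀.1 i : ℕ))) hP0
  rw [hP, coeff_sum, coeff_zero, sum_filter] at h3
  rw [hQ, Polynomial.eval_finsetSum]
  refine Eq.trans ?_ h3
  rw [Fintype.sum_prod_type, sum_eq_single e₀.1 (fun a _ ha => ?_) fun h => absurd (mem_univ _) h]
  · refine sum_congr rfl fun l _ => ?_
    rw [if_pos (by rw [hj, hw]), coeff_monomial, if_pos rfl]
    simp
  · refine sum_eq_zero fun l _ => ?_
    rw [coeff_monomial]
    refine ite_eq_right_iff.2 fun _ => if_neg ?_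
    intro e
    refine ha (funext fun i => Fin.ext ?_)
    simpa using DFunLike.congr_fun e i

/-- **At most `L ^ m` nonsingular zeros.** -/
theorem exists_isolated_bound (m D : ℕ) : ∃ L : ℕ,
    ∀ G : Fin m → MvPolynomial (Fin m) ℚ, (∀ i, (G i).totalDegree ≤ D) →
      ∀ S : Finset (Fin m → ℚ), (∀ s ∈ S, (∀ i, eval s (G i) = 0) ∧ (jac G s).det ≠ 0) →
        S.card ≤ L ^ m := by
  classical
  obtain ⟨L, hL⟩ : ∃ L, L = ((m + 1) * (D + 1) + 1) ^ m := ⟨_, rfl⟩
  have hL1 : 1 ≤ L := hL ▸ Nat.one_le_pow _ _ (Nat.succ_pos _)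
  have hlt : ((m + 1) * (D + 1) * L + 1) ^ m < (L + 1) ^ (m + 1) := by
    calc ((m + 1) * (D + 1) * L + 1) ^ m ≤ (((m + 1) * (D + 1) + 1) * (L + 1)) ^ m :=
          Nat.pow_le_pow_left (by nlinarith) _
      _ = L * (L + 1) ^ m := by rw [mul_pow, hL]
      _ < (L + 1) * (L + 1) ^ m :=
          Nat.mul_lt_mul_of_pos_right (Nat.lt_succ_self L) (pow_pos (Nat.succ_pos L) m)
      _ = _ := (pow_succ' _ _).symm
  refine ⟨L, fun G hG S hS => ?_⟩
  choose Q hQ0 hQd hQr using fun k => exists_coord_equation hlt G hG k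
  calc S.card ≤ (Fintype.piFinset fun k => (Q k).roots.toFinset).card := by
        refine card_le_card fun s hs => Fintype.mem_piFinset.2 fun k => ?_
        rw [Multiset.mem_toFinset, Polynomial.mem_roots (hQ0 k)]
        exact hQr k s (hS s hs).1 (hS s hs).2
    _ = ∏ k, (Q k).roots.toFinset.card := Fintype.card_piFinset _
    _ ≤ ∏ _k : Fin m, L := prod_le_prod' fun k _ =>
        (Multiset.toFinset_card_le _).trans ((Polynomial.card_roots' _).trans (hQd k))
    _ = L ^ m := by rw [prod_const, card_univ, Fintype.card_fin]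

end FA.CubicForms
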