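import Fermat.Agent.CubicForms.Weyl
import Mathlib.Algebra.Order.Chebyshev

/-!
# The exponential sum at one fraction and on average

At `a / q + β` the sum is `O (P ^ (n + ε) / Φ ^ 2)` for `n ≥ 16` variables, with
`Φ = max (q, q P ^ 3 |β|)`, as no pair of size `R`, `R ^ 2` a small multiple of `Φ`, counts unless
annihilated. Summed over the fractions with denominators near `Q` it gains more: with
`R ^ 2 = Q ^ (1 + e)` a counted pair has `B (h, g)` in the span of two small vectors, which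
confines `g` to a subspace.
-/

set_option autoImplicit false

noncomputable section

namespace FA.CubicForms

open Finset FA.ThreePrimes

variable {n : ℕ} (c : Fin n → Fin n → Fin n → ℤ)

/-- The sum of the absolute coefficients. -/
def coefSize : ℕ := ∑ i, ∑ j, ∑ k, (c i j k).natAbs

theorem abs_tri_le {x y z : Fin n → ℤ} {A B Z : ℤ} (hx : ∀ i, |x i| ≤ A) (hy : ∀ i, |y i| ≤ B)
    (hz : ∀ i, |z i| ≤ Z) : |tri c x y z| ≤ 6 * coefSize c * (A * B * Z) := by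
  have hm : ∀ (u v w : Fin n → ℤ) (a b d : ℤ), (∀ i, |u i| ≤ a) → (∀ i, |v i| ≤ b) →
      (∀ i, |w i| ≤ d) → ∀ i j k, |u i * v j * w k| ≤ a * b * d :=
    fun u v w a b d hu hv hw i j k => by
    rw [abs_mul, abs_mul]
    have := (abs_nonneg (u i)).trans (hu i)
    have := (abs_nonneg (v j)).trans (hv j)
    exact mul_le_mul (mul_le_mul (hu i) (hv j) (abs_nonneg _) (by assumption)) (hw k)
      (abs_nonneg _) (by positivity)
  rw [tri, coefSize]
  push_cast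
  simp only [mul_sum, sum_mul]
  refine (abs_sum_le_sum_abs _ _).trans (sum_le_sum fun i _ => (abs_sum_le_sum_abs _ _).trans
    (sum_le_sum fun j _ => (abs_sum_le_sum_abs _ _).trans (sum_le_sum fun k _ => ?_)))
  rw [abs_mul, show 6 * |c i j k| * (A * B * Z) = |c i j k| * (6 * (A * B * Z)) by ring]
  refine mul_le_mul_of_nonneg_left ?_ (abs_nonneg _)
  have h1 := abs_le.1 (hm x y z A B Z hx hy hz i j k)
  have h2 := abs_le.1 (hm x z y A Z B hx hz hy i j k)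
  have h3 := abs_le.1 (hm y x z B A Z hy hx hz i j k)
  have h4 := abs_le.1 (hm y z x B Z A hy hz hx i j k)
  have h5 := abs_le.1 (hm z x y Z A B hz hx hy i j k)
  have h6 := abs_le.1 (hm z y x Z B A hz hy hx i j k)
  rw [abs_le]
  constructor <;> linarith

theorem abs_polar_le {x y : Fin n → ℤ} {A B : ℤ} (hx : ∀ i, |x i| ≤ A) (hy : ∀ i, |y i| ≤ B) :
    |polar c x y| ≤ 3 * coefSize c * (A * A * B) := by
  have h := abs_tri_le c hx hx hy
  rw [tri_self_left, abs_mul, abs_two] at h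
  linarith

theorem abs_cubic_le {x : Fin n → ℤ} {A : ℤ} (hx : ∀ i, |x i| ≤ A) :
    |cubic c x| ≤ coefSize c * (A * A * A) := by
  have h := abs_tri_le c hx hx hx
  rw [tri_self, abs_mul, show |(6 : ℤ)| = 6 from rfl] at h
  linarith

theorem abs_tri_single_le {R : ℕ} {h g : Fin n → ℤ} (hh : h ∈ cbox n R) (hg : g ∈ cbox n R)
    (j : Fin n) : |tri c h g (Pi.single j 1)| ≤ 6 * coefSize c * (R : ℤ) ^ 2 := by
  refine (abs_tri_le c (mem_cbox.1 hh) (mem_cbox.1 hg) (Z := 1) fun i => ?_).trans (le_of_eq ?_)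
  · rw [Pi.single_apply]
    split_ifs <;> simp
  · ring

theorem cubicSum_congr (P : ℕ) {α β : ℝ} {z : ℤ} (h : α = β + z) :
    cubicSum c P α = cubicSum c P β := by
  refine sum_congr rfl fun x _ => ?_
  rw [h, add_mul, show (z : ℝ) * ((cubic c x : ℤ) : ℝ) = ((z * cubic c x : ℤ) : ℝ) by
      push_cast; rfl,
    eAdd_add_intCast]

theorem norm_cubicSum_le (P : ℕ) (α : ℝ) : ‖cubicSum c P α‖ ≤ ((2 * P + 1 : ℕ) : ℝ) ^ n := by
  refine (norm_sum_le _ _).trans (le_of_eq ?_)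
  simp only [norm_eAdd, sum_const, nsmul_eq_mul, mul_one]
  rw [cbox, Fintype.card_piFinset, prod_const, card_univ, Fintype.card_fin, Int.card_Icc,
    show ((P : ℕ) : ℤ) + 1 - -(P : ℤ) = ((2 * P + 1 : ℕ) : ℤ) by push_cast; ring, Int.toNat_natCast,
    Nat.cast_pow]

theorem dvd_of_nearDist_lt {q : ℕ} (hq : 0 < q) {m : ℤ} (h : nearDist ((m : ℝ) / q) < 1 / q) :
    (q : ℤ) ∣ m := by
  refine ⟨round ((m : ℝ) / q), ?_⟩
  have hq' : (0 : ℝ) < q := Nat.cast_pos.2 hq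
  rw [nearDist, div_sub' hq'.ne', abs_div, abs_of_pos hq',
    div_lt_div_iff_of_pos_right hq'] at h
  have : |m - (q : ℤ) * round ((m : ℝ) / q)| < 1 := by exact_mod_cast h
  linarith [Int.abs_lt_one_iff.1 this]

variable {c}

/-- **At one fraction.** -/
theorem exists_pointwise (hc : ∀ x : Fin n → ℤ, cubic c x = 0 → x = 0) (hn : 16 ≤ n) :
    ∃ C : ℝ, 0 < C ∧ ∀ (P q : ℕ) (a : ℤ) (β Φ : ℝ), 1 ≤ P → 1 ≤ q → IsCoprime a (q : ℤ) →
      Φ = max (q : ℝ) ((q : ℝ) * (P : ℝ) ^ 3 * |β|) → Φ ^ 2 ≤ (P : ℝ) ^ 3 →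
      ‖cubicSum c P ((a : ℝ) / q + β)‖ * Φ ^ 2 ≤ C * (1 + Real.log P) ^ n * (P : ℝ) ^ n := by
  obtain ⟨C₁, hC₁, hweyl⟩ := exists_weyl_shrink c
  obtain ⟨C₀, hzero⟩ := exists_zeroPairs_le hc
  obtain ⟨K, hK⟩ : ∃ K : ℝ, K = 2 * (6 * (coefSize c : ℝ) + 1) := ⟨_, rfl⟩
  have hK0 : 2 ≤ K := by rw [hK]; linarith [(Nat.cast_nonneg (coefSize c) : (0 : ℝ) ≤ coefSize c)]
  refine ⟨3 ^ n * (2 * K) ^ 2 + (C₁ * C₀ * (8 * K) ^ 8 + 1), by positivity,
    fun P q a β Φ hP hq hco hΦ hΦP => ?_⟩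
  have hP0 : (1 : ℝ) ≤ P := by exact_mod_cast hP
  have hq0 : (1 : ℝ) ≤ q := by exact_mod_cast hq
  have hqΦ : (q : ℝ) ≤ Φ := hΦ ▸ le_max_left _ _
  have hβΦ : (q : ℝ) * (P : ℝ) ^ 3 * |β| ≤ Φ := hΦ ▸ le_max_right _ _
  have hL : (1 : ℝ) ≤ 1 + Real.log P := by linarith [Real.log_nonneg hP0]
  have hLn : (1 : ℝ) ≤ (1 + Real.log P) ^ n := one_le_pow₀ hL
  obtain ⟨R, hR⟩ : ∃ R, R = ⌊Real.sqrt (Φ / (2 * K))⌋₊ := ⟨_, rfl⟩
  obtain ⟨S, hS⟩ : ∃ S, S = ‖cubicSum c P ((a : ℝ) / q + β)‖ := ⟨_, rfl⟩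
  have hS0 : 0 ≤ S := hS ▸ norm_nonneg _
  rw [← hS]
  have hR2 : (R : ℝ) ^ 2 ≤ Φ / (2 * K) := by
    refine le_trans (pow_le_pow_left₀ (Nat.cast_nonneg _)
      (hR ▸ Nat.floor_le (Real.sqrt_nonneg _)) 2)
      (le_of_eq (Real.sq_sqrt (div_nonneg (by linarith) (by linarith))))
  have hR3 : Φ / (2 * K) < ((R : ℝ) + 1) ^ 2 := by
    refine lt_of_eq_of_lt (Real.sq_sqrt (div_nonneg (by linarith) (by linarith))).symm
      (pow_lt_pow_left₀ (hR ▸ Nat.lt_floor_add_one _) (Real.sqrt_nonneg _) two_ne_zero)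
  rcases Nat.eq_zero_or_pos R with h0 | hR1
  · rw [h0, Nat.cast_zero, zero_add, one_pow, div_lt_one (by linarith)] at hR3
    calc S * Φ ^ 2 ≤ (3 * (P : ℝ)) ^ n * (2 * K) ^ 2 := by
          refine mul_le_mul (hS ▸ (norm_cubicSum_le c P _).trans (pow_le_pow_left₀
            (Nat.cast_nonneg _) (by push_cast; linarith) n))
            (pow_le_pow_left₀ (by linarith) hR3.le 2) (by positivity) (by positivity)
      _ = 3 ^ n * (2 * K) ^ 2 * 1 * (P : ℝ) ^ n := by ring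
      _ ≤ _ := by gcongr; exact le_add_of_nonneg_right (by positivity)
  have hR1' : (1 : ℝ) ≤ R := by exact_mod_cast hR1
  have hRΦ : (R : ℝ) ^ 2 * (2 * K) ≤ Φ := by rwa [le_div_iff₀ (by linarith)] at hR2
  have hRP : R ≤ P := by
    have h1 : Φ ≤ (P : ℝ) ^ 2 :=
      (pow_le_pow_iff_left₀ (by linarith) (by positivity) two_ne_zero).1
        (hΦP.trans (by rw [← pow_mul]; exact pow_le_pow_right₀ hP0 (by norm_num)))
    have h2 : (R : ℝ) ^ 2 ≤ (P : ℝ) ^ 2 := by nlinarith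
    exact_mod_cast (pow_le_pow_iff_left₀ (Nat.cast_nonneg R) (Nat.cast_nonneg P) two_ne_zero).1 h2
  have hsub : weylPairs c ((a : ℝ) / q + β) R ((R : ℝ) ^ 2 / (P : ℝ) ^ 3) ⊆ zeroPairs c R := by
    intro z hz
    obtain ⟨hz1, hz2⟩ := mem_filter.1 hz
    refine mem_filter.2 ⟨hz1, fun j => ?_⟩
    obtain ⟨B, hB⟩ : ∃ B, B = tri c z.1 z.2 (Pi.single j 1) := ⟨_, rfl⟩
    have hd := hz2 j
    rw [← hB] at hd ⊢
    have hBR : |(B : ℝ)| ≤ 6 * (coefSize c : ℝ) * (R : ℝ) ^ 2 := by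
      have := abs_tri_single_le c (mem_product.1 hz1).1 (mem_product.1 hz1).2 j
      rw [← hB] at this
      exact_mod_cast this
    have hBK : 2 * |(B : ℝ)| + 2 * (R : ℝ) ^ 2 ≤ K * (R : ℝ) ^ 2 := by
      rw [hK]; linarith
    have hP3 : (0 : ℝ) < (P : ℝ) ^ 3 := by positivity
    obtain ⟨w, hw⟩ : ∃ w : ℝ, w = |β| * |(B : ℝ)| := ⟨_, rfl⟩
    have hw1 : (q : ℝ) * (P : ℝ) ^ 3 * w ≤ Φ * |(B : ℝ)| := by
      rw [hw, ← mul_assoc]; exact mul_le_mul_of_nonneg_right hβΦ (abs_nonneg _)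
    have hw2 : (q : ℝ) * w ≤ 1 / 4 := by
      have := mul_le_mul_of_nonneg_left hBK (show (0 : ℝ) ≤ Φ by linarith)
      nlinarith
    have hη : (q : ℝ) * ((R : ℝ) ^ 2 / (P : ℝ) ^ 3) ≤ 1 / 4 := by
      rw [← mul_div_assoc, div_le_iff₀ hP3]
      nlinarith
    have hdist : nearDist (((a * B : ℤ) : ℝ) / q) < 1 / q := by
      refine lt_of_le_of_lt (nearDist_sub_le _ (((a : ℝ) / q + β) * (B : ℝ))) ?_
      rw [show ((a * B : ℤ) : ℝ) / q - ((a : ℝ) / q + β) * (B : ℝ) = -(β * (B : ℝ)) by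
        push_cast; ring, abs_neg, abs_mul, ← hw, lt_div_iff₀ (by linarith), add_mul]
      have := mul_le_mul_of_nonneg_left hd (show (0 : ℝ) ≤ q by linarith)
      linarith
    have hdvd : (q : ℤ) ∣ B := hco.symm.dvd_of_dvd_mul_left (dvd_of_nearDist_lt (by omega) hdist)
    refine Int.eq_zero_of_abs_lt_dvd hdvd ?_
    suffices |(B : ℝ)| < (q : ℝ) by exact_mod_cast this
    rcases max_cases (q : ℝ) ((q : ℝ) * (P : ℝ) ^ 3 * |β|) with ⟨h1, -⟩ | ⟨h1, -⟩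
    · rw [← hΦ] at h1
      nlinarith
    · rw [← hΦ] at h1
      obtain ⟨m, hm⟩ := hdvd
      have hwd : w ≤ (R : ℝ) ^ 2 / (P : ℝ) ^ 3 := by
        refine le_of_eq_of_le ?_ hd
        rw [hw, ← abs_mul, show ((a : ℝ) / q + β) * (B : ℝ) = β * (B : ℝ) + ((a * m : ℤ) : ℝ) by
          rw [hm]; push_cast; field_simp; ring, nearDist_add_intCast, nearDist_eq_abs]
        rw [abs_mul, ← hw]
        nlinarith [mul_le_mul_of_nonneg_right hq0 (show 0 ≤ w by rw [hw]; positivity)]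
      rw [le_div_iff₀ hP3] at hwd
      by_contra hcon
      rw [not_lt] at hcon
      have h3 : Φ ≤ (R : ℝ) ^ 2 := by
        rw [h1]
        refine le_trans ?_ hwd
        rw [hw, show (q : ℝ) * (P : ℝ) ^ 3 * |β| = |β| * q * (P : ℝ) ^ 3 by ring]
        gcongr
      nlinarith
  have hmain : S ^ 4 * (R : ℝ) ^ (2 * n) ≤
      C₁ * (P : ℝ) ^ (4 * n) * (1 + Real.log P) ^ n * (C₀ * (R : ℝ) ^ n) := by
    refine (hS ▸ hweyl P R _ hR1 hRP).trans ?_
    refine mul_le_mul_of_nonneg_left ?_ (by positivity)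
    exact_mod_cast (card_le_card hsub).trans (hzero R hR1)
  have h16 : (Φ / (8 * K)) ^ 8 ≤ (R : ℝ) ^ n := by
    refine le_trans (pow_le_pow_left₀ (div_nonneg (by linarith) (by linarith)) ?_ 8)
      (le_trans (le_of_eq (pow_mul _ _ _).symm) (pow_le_pow_right₀ hR1' (show 2 * 8 ≤ n by omega)))
    rw [div_le_iff₀ (by linarith)]
    rw [div_lt_iff₀ (by linarith)] at hR3
    nlinarith [mul_le_mul_of_nonneg_right
      (show ((R : ℝ) + 1) ^ 2 ≤ 4 * (R : ℝ) ^ 2 by nlinarith) (show (0 : ℝ) ≤ 2 * K by linarith)]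
  have h4 : (S * Φ ^ 2) ^ 4 ≤ ((C₁ * C₀ * (8 * K) ^ 8 + 1) * (1 + Real.log P) ^ n *
      (P : ℝ) ^ n) ^ 4 := by
    rw [two_mul, pow_add, ← mul_assoc] at hmain
    have hRn : (0 : ℝ) < (R : ℝ) ^ n := by positivity
    have h5 : S ^ 4 * (R : ℝ) ^ n ≤
        C₁ * C₀ * (P : ℝ) ^ (4 * n) * (1 + Real.log P) ^ n :=
      le_of_mul_le_mul_right (hmain.trans (le_of_eq (by ring))) hRn
    rw [div_pow, div_le_iff₀ (by positivity)] at h16
    calc (S * Φ ^ 2) ^ 4 = S ^ 4 * Φ ^ 8 := by ring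
      _ ≤ S ^ 4 * ((R : ℝ) ^ n * (8 * K) ^ 8) := by gcongr
      _ ≤ C₁ * C₀ * (P : ℝ) ^ (4 * n) * (1 + Real.log P) ^ n * (8 * K) ^ 8 := by
          rw [← mul_assoc]; gcongr
      _ = (C₁ * C₀ * (8 * K) ^ 8) * (1 + Real.log P) ^ n * ((P : ℝ) ^ n) ^ 4 := by ring
      _ ≤ (C₁ * C₀ * (8 * K) ^ 8 + 1) ^ 4 * ((1 + Real.log P) ^ n) ^ 4 * ((P : ℝ) ^ n) ^ 4 := by
          refine mul_le_mul_of_nonneg_right (mul_le_mul ?_ (le_self_pow₀ hLn four_ne_zero)
            (by positivity) (by positivity)) (by positivity)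
          exact (le_add_of_nonneg_right zero_le_one).trans
            (le_self_pow₀ (le_add_of_nonneg_left (by positivity)) four_ne_zero)
      _ = _ := by ring
  refine ((pow_le_pow_iff_left₀ (by positivity) (by positivity) four_ne_zero).1 h4).trans ?_
  exact mul_le_mul_of_nonneg_right (mul_le_mul_of_nonneg_right
    (le_add_of_nonneg_left (by positivity)) (by positivity)) (by positivity)

/-- The pairs of a range of denominators. -/
def dyadicFractions (Q : ℕ) : Finset (ℕ × ℕ) :=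
  (Ico Q (2 * Q) ×ˢ range (2 * Q)).filter fun t => t.2 < t.1 ∧ t.1.Coprime t.2

variable (c) in
/-- The pairs with `a B` within `K` of a multiple of `q`. -/
def fractionPairs (t : ℕ × ℕ) (R K : ℕ) : Finset ((Fin n → ℤ) × (Fin n → ℤ)) :=
  (cbox n R ×ˢ cbox n R).filter fun z =>
    ∀ j, ∃ k ∈ Icc (-(K : ℤ)) K, (t.1 : ℤ) ∣ tri c z.1 z.2 (Pi.single j 1) * t.2 - k

theorem card_dyadicFractions_le (Q : ℕ) : (dyadicFractions Q).card ≤ 4 * Q ^ 2 := by
  refine (card_filter_le _ _).trans (le_of_eq_of_le (card_product _ _) ?_)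
  rw [Nat.card_Ico, card_range]
  calc (2 * Q - Q) * (2 * Q) ≤ 2 * Q * (2 * Q) := Nat.mul_le_mul_right _ (Nat.sub_le _ _)
    _ = 4 * Q ^ 2 := by ring

theorem finrank_comap_le (H : Matrix (Fin n) (Fin n) ℚ) (U : Submodule ℚ (Fin n → ℚ)) :
    Module.finrank ℚ (U.comap H.mulVecLin) ≤ n - H.rank + Module.finrank ℚ U := by
  have h1 := LinearMap.finrank_range_add_finrank_ker
    (H.mulVecLin.comp (U.comap H.mulVecLin).subtype)
  have h2 : Module.finrank ℚ (LinearMap.range (H.mulVecLin.comp (U.comap H.mulVecLin).subtype)) ≤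
      Module.finrank ℚ U := Submodule.finrank_mono (by rintro _ ⟨v, rfl⟩; exact v.2)
  have h3 : Module.finrank ℚ (LinearMap.ker (H.mulVecLin.comp (U.comap H.mulVecLin).subtype)) ≤
      Module.finrank ℚ (LinearMap.ker H.mulVecLin) := by
    refine LinearMap.finrank_le_finrank_of_injective
      (f := ((U.comap H.mulVecLin).subtype.comp
        (LinearMap.ker (H.mulVecLin.comp (U.comap H.mulVecLin).subtype)).subtype).codRestrict
          (LinearMap.ker H.mulVecLin) fun v => v.2) fun v w e => ?_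
    exact Subtype.ext (Subtype.ext
      (congrArg (fun u : LinearMap.ker H.mulVecLin => (u : Fin n → ℚ)) e :))
  have h4 := LinearMap.finrank_range_add_finrank_ker H.mulVecLin
  rw [Module.finrank_fin_fun, ← Matrix.rank] at h4
  omega

/-- **The pairs counted on average.** -/
theorem exists_sum_fractionPairs_le (hc : ∀ x : Fin n → ℤ, cubic c x = 0 → x = 0) :
    ∃ C : ℕ, ∀ R Q K Lb : ℕ, 1 ≤ R → 1 ≤ Q →
      6 * coefSize c * R ^ 2 + 2 * Q * K ≤ Q * Lb →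
      ∑ t ∈ dyadicFractions Q, (fractionPairs c t R K).card ≤
        C * R ^ n * (Q ^ 2 + ((2 * K + 1) * (2 * Lb + 1)) ^ n * (R ^ 2 + Q * R)) := by
  classical
  obtain ⟨C₀, hzero⟩ := exists_zeroPairs_le hc
  obtain ⟨C₁, hrank⟩ := exists_sum_rank_le hc
  refine ⟨4 * C₀ + 9 * C₁, fun R Q K Lb hR hQ hKL => ?_⟩
  obtain ⟨v, hv⟩ : ∃ v : (Fin n → ℤ) × (Fin n → ℤ) → Fin n → ℤ,
      v = fun z j => tri c z.1 z.2 (Pi.single j 1) := ⟨_, rfl⟩
  obtain ⟨box, hbox⟩ : ∃ box, box = cbox n R ×ˢ cbox n R := ⟨_, rfl⟩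
  obtain ⟨T, hT⟩ : ∃ T, T = dyadicFractions Q := ⟨_, rfl⟩
  obtain ⟨inv, hinv⟩ : ∃ inv : ℕ × ℕ → ℕ, inv = fun t => ((t.2 : ZMod t.1)⁻¹).val := ⟨_, rfl⟩
  have hb : ∀ t ∈ T, inv t < t.1 ∧ (t.1 : ℤ) ∣ (t.2 : ℤ) * inv t - 1 ∧
      (Q ≤ t.1 ∧ t.1 < 2 * Q) ∧ t.2 < t.1 := by
    intro t ht
    rw [hT, dyadicFractions, mem_filter, mem_product, mem_Ico] at ht
    have : NeZero t.1 := ⟨by omega⟩
    refine ⟨hinv ▸ ZMod.val_lt _, ?_, ht.1.1, ht.2.1⟩
    rw [← ZMod.intCast_zmod_eq_zero_iff_dvd, hinv]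
    push_cast
    rw [ZMod.natCast_zmod_val, ZMod.coe_mul_inv_eq_one _ ht.2.2.symm, sub_self]
  obtain ⟨KL, hKLdef⟩ : ∃ KL, KL = cbox n K ×ˢ cbox n Lb := ⟨_, rfl⟩
  obtain ⟨U, hU⟩ : ∃ U : (Fin n → ℤ) × (Fin n → ℤ) → Submodule ℚ (Fin n → ℚ), U = fun kl =>
      Submodule.span ℚ (Set.range ![fun i => (kl.1 i : ℚ), fun i => (kl.2 i : ℚ)]) := ⟨_, rfl⟩
  obtain ⟨m, hm⟩ : ∃ m : (Fin n → ℤ) × (Fin n → ℤ) → ℕ, m = fun kl =>
      if Module.finrank ℚ (U kl) ≤ 1 then 2 * Q else 1 := ⟨_, rfl⟩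
  have hcount : ∀ z ∈ box, v z ≠ 0 →
      (T.filter fun t => z ∈ fractionPairs c t R K).card ≤
        ∑ kl ∈ KL, if (fun i => (v z i : ℚ)) ∈ U kl then m kl else 0 := by
    intro z hz hz0
    rw [← sum_filter]
    refine le_trans (card_le_card (t := (KL.filter fun kl => (fun i => (v z i : ℚ)) ∈ U kl).biUnion
      fun kl => T.filter fun t => ∀ j, v z j = (inv t : ℤ) * kl.1 j + (t.1 : ℤ) * kl.2 j) ?_)
      (card_biUnion_le.trans (sum_le_sum fun kl _ => ?_))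
    · intro t ht
      obtain ⟨htT, htz⟩ := mem_filter.1 ht
      obtain ⟨hb1, hb2, hb3, -⟩ := hb t htT
      choose k hk hkd using (mem_filter.1 htz).2
      have hl : ∀ j, ∃ l : ℤ, v z j = (inv t : ℤ) * k j + (t.1 : ℤ) * l := fun j => by
        have e : (t.1 : ℤ) ∣ v z j - (inv t : ℤ) * k j := by
          rw [show v z j - (inv t : ℤ) * k j =
            (inv t : ℤ) * (v z j * (t.2 : ℤ) - k j) - ((t.2 : ℤ) * inv t - 1) * v z j by ring]
          exact dvd_sub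
            ((show (t.1 : ℤ) ∣ v z j * (t.2 : ℤ) - k j by simpa only [hv] using hkd j).mul_left _)
            (hb2.mul_right _)
        obtain ⟨l, hl⟩ := e
        exact ⟨l, by linarith⟩
      choose l hl using hl
      have hlb : ∀ j, |l j| ≤ (Lb : ℤ) := fun j => by
        have h1 : |v z j| ≤ 6 * coefSize c * (R : ℤ) ^ 2 :=
          hv ▸ abs_tri_single_le c (mem_product.1 (hbox ▸ hz)).1 (mem_product.1 (hbox ▸ hz)).2 j
        have h2 : |(inv t : ℤ) * k j| ≤ 2 * (Q : ℤ) * K := by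
          rw [abs_mul, Nat.abs_cast]
          exact mul_le_mul (by exact_mod_cast (show inv t ≤ 2 * Q by omega))
            (abs_le.2 (mem_Icc.1 (hk j))) (abs_nonneg _) (by positivity)
        have h3 : (t.1 : ℤ) * |l j| ≤ (Q : ℤ) * Lb := by
          rw [← Nat.abs_cast t.1, ← abs_mul,
            show (t.1 : ℤ) * l j = v z j - (inv t : ℤ) * k j by linarith [hl j]]
          refine (abs_sub _ _).trans (le_trans (add_le_add h1 h2) ?_)
          exact_mod_cast hKL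
        refine le_of_mul_le_mul_left (le_trans ?_ h3) (show (0 : ℤ) < Q by exact_mod_cast hQ)
        exact mul_le_mul_of_nonneg_right (by exact_mod_cast hb3.1) (abs_nonneg _)
      refine mem_biUnion.2 ⟨(k, l), mem_filter.2 ⟨?_, ?_⟩, mem_filter.2 ⟨htT, hl⟩⟩
      · rw [hKLdef]
        exact mem_product.2 ⟨mem_cbox.2 fun j => abs_le.2 (mem_Icc.1 (hk j)), mem_cbox.2 hlb⟩
      · rw [hU, show (fun i => (v z i : ℚ)) = (inv t : ℚ) • (fun i => (k i : ℚ)) +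
          (t.1 : ℚ) • fun i => (l i : ℚ) from funext fun i => by rw [hl i]; push_cast; rfl]
        exact add_mem (Submodule.smul_mem _ _ (Submodule.subset_span ⟨0, rfl⟩))
          (Submodule.smul_mem _ _ (Submodule.subset_span ⟨1, rfl⟩))
    · have hfix : ∀ t ∈ T, ∀ t' ∈ T, t.1 = t'.1 → inv t = inv t' → t = t' := by
        intro t ht t' ht' e1 e2
        obtain ⟨-, a2, -, a4⟩ := hb t ht
        obtain ⟨-, b2, -, b4⟩ := hb t' ht'
        rw [← e1, ← e2] at b2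
        rw [← e1] at b4
        have h1 : (t.1 : ℤ) ∣ (t.2 : ℤ) - t'.2 := by
          rw [show (t.2 : ℤ) - t'.2 = (t'.2 : ℤ) * ((t.2 : ℤ) * inv t - 1) -
            (t.2 : ℤ) * ((t'.2 : ℤ) * inv t - 1) by ring]
          exact dvd_sub (a2.mul_left _) (b2.mul_left _)
        have h2 := Int.eq_zero_of_abs_lt_dvd h1 (by rw [abs_lt]; omega)
        exact Prod.ext e1 (by omega)
      by_cases hd : Module.finrank ℚ (U kl) ≤ 1
      · rw [hm]
        simp only [if_pos hd]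
        by_cases hk : kl.1 = 0
        · refine (card_le_card_of_injOn (fun t => t.2) (t := range (2 * Q)) (fun t ht => ?_)
            fun t ht t' ht' e => ?_).trans (card_range _).le
          · obtain ⟨-, -, h1, h2⟩ := hb t (mem_filter.1 ht).1
            exact mem_coe.2 (mem_range.2 (show t.2 < 2 * Q by omega))
          obtain ⟨j, hj⟩ := Function.ne_iff.1 hz0
          have a1 := (mem_filter.1 ht).2 j
          have a2 := (mem_filter.1 ht').2 j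
          rw [hk, Pi.zero_apply, mul_zero, zero_add] at a1 a2
          refine Prod.ext ?_ e
          have hl0 : kl.2 j ≠ 0 := fun h0 => hj (by rw [a1, h0, mul_zero]; rfl)
          exact_mod_cast mul_right_cancel₀ hl0 (a1.symm.trans a2)
        · refine (card_le_card_of_injOn (fun t => t.1) (t := range (2 * Q)) (fun t ht => ?_)
            fun t ht t' ht' e => ?_).trans (card_range _).le
          · obtain ⟨-, -, h1, -⟩ := hb t (mem_filter.1 ht).1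
            exact mem_coe.2 (mem_range.2 h1.2)
          obtain ⟨j, hj⟩ := Function.ne_iff.1 hk
          have a1 := (mem_filter.1 ht).2 j
          have a2 := (mem_filter.1 ht').2 j
          refine hfix t (mem_filter.1 ht).1 t' (mem_filter.1 ht').1 e ?_
          simp only at e
          rw [← e] at a2
          exact_mod_cast mul_right_cancel₀ hj (add_right_cancel (a1.symm.trans a2))
      · rw [hm]
        simp only [if_neg hd]
        refine card_le_one.2 fun t ht t' ht' => ?_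
        have hli : LinearIndependent ℚ ![fun i => (kl.1 i : ℚ), fun i => (kl.2 i : ℚ)] := by
          rw [linearIndependent_iff_card_le_finrank_span, Fintype.card_fin, Set.finrank]
          rw [hU] at hd
          exact Nat.lt_of_not_le hd
        have h1 := LinearIndependent.pair_iff.1 hli ((inv t : ℚ) - inv t') ((t.1 : ℚ) - t'.1)
          (funext fun i => by
            have a1 := congrArg (fun x : ℤ => (x : ℚ)) ((mem_filter.1 ht).2 i)
            have a2 := congrArg (fun x : ℤ => (x : ℚ)) ((mem_filter.1 ht').2 i)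
            push_cast at a1 a2
            simp only [Pi.add_apply, Pi.smul_apply, smul_eq_mul, Pi.zero_apply]
            linear_combination a2 - a1)
        exact hfix t (mem_filter.1 ht).1 t' (mem_filter.1 ht').1
          (by exact_mod_cast sub_eq_zero.1 h1.2) (by exact_mod_cast sub_eq_zero.1 h1.1)
  have hg : ∀ kl ∈ KL, ∀ h ∈ cbox n R,
      ∑ g ∈ cbox n R, (if (fun i => (v (h, g) i : ℚ)) ∈ U kl then m kl else 0) ≤
        9 * (R ^ 2 + Q * R) * (3 * R) ^ (n - (hessian c fun i => (h i : ℚ)).rank) := by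
    intro kl _ h _
    obtain ⟨H, hH⟩ : ∃ H, H = hessian c fun i => (h i : ℚ) := ⟨_, rfl⟩
    rw [← hH, ← sum_filter, sum_const, smul_eq_mul]
    have hUd : Module.finrank ℚ (U kl) ≤ 2 := by
      rw [hU]
      exact (finrank_range_le_card _).trans (Fintype.card_fin 2).le
    have h1 : ((cbox n R).filter fun g => (fun i => (v (h, g) i : ℚ)) ∈ U kl).card ≤
        (3 * R) ^ (n - H.rank + Module.finrank ℚ (U kl)) := by
      refine (card_cbox_submodule_le ((U kl).comap H.mulVecLin) R _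
        (fun g hg => (mem_filter.1 hg).1)
        fun g hg => ?_).trans ((Nat.pow_le_pow_left (by omega) _).trans
          (Nat.pow_le_pow_right (by omega) (finrank_comap_le H (U kl))))
      rw [Submodule.mem_comap, Matrix.mulVecLin_apply, show H.mulVec (fun i => (g i : ℚ)) =
        fun i => (v (h, g) i : ℚ) from funext fun i => by rw [hH, hessian_mulVec_intCast, hv]]
      exact (mem_filter.1 hg).2
    refine (Nat.mul_le_mul_right _ h1).trans ?_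
    rw [pow_add, mul_assoc, mul_comm ((3 * R) ^ (n - H.rank))]
    refine Nat.mul_le_mul_right _ ?_
    rw [hm]
    simp only
    split_ifs with hd
    · refine (Nat.mul_le_mul_right _ (Nat.pow_le_pow_right (show 0 < 3 * R by omega) hd)).trans ?_
      nlinarith
    · refine (Nat.mul_le_mul_right _ (Nat.pow_le_pow_right (show 0 < 3 * R by omega) hUd)).trans ?_
      nlinarith
  have hKLc : KL.card = ((2 * K + 1) * (2 * Lb + 1)) ^ n := by
    rw [hKLdef, card_product, cbox, cbox, Fintype.card_piFinset, Fintype.card_piFinset, prod_const,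
      prod_const, card_univ, Fintype.card_fin, Int.card_Icc, Int.card_Icc, mul_pow]
    congr 2 <;> omega
  calc ∑ t ∈ dyadicFractions Q, (fractionPairs c t R K).card
      = ∑ z ∈ box, (T.filter fun t => z ∈ fractionPairs c t R K).card := by
        simp only [card_filter, fractionPairs, hbox, hT]
        rw [sum_comm]
        refine sum_congr rfl fun z hz => sum_congr rfl fun t _ => ?_
        simp [hz]
    _ ≤ ∑ z ∈ box, ((if v z = 0 then T.card else 0) +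
          ∑ kl ∈ KL, if (fun i => (v z i : ℚ)) ∈ U kl then m kl else 0) := sum_le_sum fun z hz => by
        by_cases h0 : v z = 0
        · rw [if_pos h0]
          exact (card_filter_le _ _).trans (Nat.le_add_right _ _)
        · rw [if_neg h0, zero_add]
          exact hcount z hz h0
    _ ≤ (zeroPairs c R).card * (4 * Q ^ 2) +
          ∑ kl ∈ KL, ∑ h ∈ cbox n R,
            9 * (R ^ 2 + Q * R) * (3 * R) ^ (n - (hessian c fun i => (h i : ℚ)).rank) := by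
        rw [sum_add_distrib, ← sum_filter, sum_const, smul_eq_mul]
        refine Nat.add_le_add (Nat.mul_le_mul (le_of_eq ?_) (hT ▸ card_dyadicFractions_le Q)) ?_
        · rw [zeroPairs, hbox, hv]
          simp [funext_iff]
        · rw [sum_comm]
          refine sum_le_sum fun kl hkl => ?_
          rw [hbox, sum_product]
          exact sum_le_sum fun h hh => hg kl hkl h hh
    _ ≤ C₀ * R ^ n * (4 * Q ^ 2) +
          KL.card * (9 * (R ^ 2 + Q * R) * (C₁ * R ^ n)) := by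
        rw [sum_const, smul_eq_mul]
        gcongr
        · exact hzero R hR
        · rw [← mul_sum]
          exact Nat.mul_le_mul_left _ (hrank R hR)
    _ ≤ _ := by
        rw [hKLc]
        obtain ⟨X, hX⟩ : ∃ X, X = ((2 * K + 1) * (2 * Lb + 1)) ^ n * (R ^ 2 + Q * R) := ⟨_, rfl⟩
        have e : ((2 * K + 1) * (2 * Lb + 1)) ^ n * (9 * (R ^ 2 + Q * R) * (C₁ * R ^ n)) =
            9 * C₁ * R ^ n * X := by rw [hX]; ring
        rw [e, ← hX]
        nlinarith [Nat.zero_le (C₁ * R ^ n * Q ^ 2), Nat.zero_le (C₀ * R ^ n * X)]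

/-- **On average.** -/
theorem exists_average (hc : ∀ x : Fin n → ℤ, cubic c x = 0 → x = 0) (hn : 16 ≤ n) {e : ℝ}
    (he : e = 1 / (16 * (n : ℝ))) : ∃ C : ℝ, 0 < C ∧
    ∀ (P Q N₀ : ℕ) (S : Finset ℕ) (φ : ℕ → ℕ × ℕ) (β : ℕ → ℝ), 1 ≤ P → 1 ≤ Q →
      (Q : ℝ) ^ 2 ≤ (P : ℝ) ^ 3 → (∀ x ∈ S, φ x ∈ dyadicFractions Q) →
      (∀ x ∈ S, (P : ℝ) ^ 3 * |β x| ≤ (Q : ℝ) ^ e) →
      (∀ t, (S.filter fun x => φ x = t).card ≤ N₀) →
      ∑ x ∈ S, ‖cubicSum c P (((φ x).2 : ℝ) / (φ x).1 + β x)‖ ≤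
        C * N₀ * (1 + Real.log P) ^ n * (P : ℝ) ^ n * (Q : ℝ) ^ (-(2 * e)) := by
  classical
  obtain ⟨C₁, hC₁, hweyl⟩ := exists_weyl_shrink c
  obtain ⟨C₂, hpairs⟩ := exists_sum_fractionPairs_le hc
  obtain ⟨K₀, hK₀⟩ : ∃ K₀ : ℝ, K₀ = 6 * (coefSize c : ℝ) + 1 := ⟨_, rfl⟩
  have hK₀1 : 1 ≤ K₀ := by
    rw [hK₀]; linarith [(Nat.cast_nonneg (coefSize c) : (0 : ℝ) ≤ coefSize c)]
  obtain ⟨D, hD⟩ : ∃ D : ℝ, D = C₁ * C₂ * (1 + 2 * (200 * K₀ ^ 2) ^ n) := ⟨_, rfl⟩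
  refine ⟨4 ^ 3 * D * 4 ^ 8 + 1, by rw [hD]; positivity,
    fun P Q N₀ S φ β hP hQ hQP hφ hβ hfib => ?_⟩
  have hn0 : (16 : ℝ) ≤ n := by exact_mod_cast hn
  have he0 : 0 < e := he ▸ by positivity
  have he1 : e ≤ 1 / 256 := by rw [he, div_le_div_iff₀ (by positivity) (by norm_num)]; linarith
  have hP0 : (1 : ℝ) ≤ P := by exact_mod_cast hP
  have hQ0 : (1 : ℝ) ≤ Q := by exact_mod_cast hQ
  have hQ' : (0 : ℝ) < Q := by linarith
  have hLn : (1 : ℝ) ≤ (1 + Real.log P) ^ n :=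
    one_le_pow₀ (by linarith [Real.log_nonneg hP0])
  obtain ⟨R, hR⟩ : ∃ R, R = ⌊(Q : ℝ) ^ ((1 + e) / 2)⌋₊ := ⟨_, rfl⟩
  have hsqrt : ((Q : ℝ) ^ ((1 + e) / 2)) ^ 2 = (Q : ℝ) ^ (1 + e) := by
    rw [← Real.rpow_natCast _ 2, ← Real.rpow_mul hQ'.le]
    congr 1
    push_cast
    ring
  have hR1 : 1 ≤ R := hR ▸ Nat.le_floor (by simpa using Real.one_le_rpow hQ0 (by linarith))
  have hR2 : (R : ℝ) ^ 2 ≤ (Q : ℝ) ^ (1 + e) :=
    le_of_le_of_eq (pow_le_pow_left₀ (Nat.cast_nonneg _)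
      (hR ▸ Nat.floor_le (by positivity)) 2) hsqrt
  have hR3 : (Q : ℝ) ^ (1 + e) ≤ 4 * (R : ℝ) ^ 2 := by
    rw [← hsqrt, show 4 * (R : ℝ) ^ 2 = (2 * (R : ℝ)) ^ 2 by ring]
    refine pow_le_pow_left₀ (by positivity) (le_of_lt (lt_of_lt_of_le
      (hR ▸ Nat.lt_floor_add_one _) ?_)) 2
    have : (1 : ℝ) ≤ R := by exact_mod_cast hR1
    linarith
  have hRP : R ≤ P := by
    have h1 : (R : ℝ) ^ 2 ≤ (P : ℝ) ^ 2 := by
      refine hR2.trans ?_
      calc (Q : ℝ) ^ (1 + e) = ((Q : ℝ) ^ 2) ^ ((1 + e) / 2) := by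
            rw [← Real.rpow_natCast (Q : ℝ) 2, ← Real.rpow_mul hQ'.le]; congr 1; push_cast; ring
        _ ≤ ((P : ℝ) ^ 3) ^ ((1 + e) / 2) := Real.rpow_le_rpow (by positivity) hQP (by positivity)
        _ = (P : ℝ) ^ (3 * ((1 + e) / 2)) := by
            rw [← Real.rpow_natCast (P : ℝ) 3, ← Real.rpow_mul (by linarith)]; norm_num
        _ ≤ (P : ℝ) ^ (2 : ℝ) := Real.rpow_le_rpow_of_exponent_le hP0 (by linarith)
        _ = _ := Real.rpow_two _
    exact_mod_cast (pow_le_pow_iff_left₀ (Nat.cast_nonneg R) (Nat.cast_nonneg P) two_ne_zero).1 h1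
  have hQe : (1 : ℝ) ≤ (Q : ℝ) ^ e := Real.one_le_rpow hQ0 he0.le
  have hQ2e : (1 : ℝ) ≤ (Q : ℝ) ^ (2 * e) := Real.one_le_rpow hQ0 (by positivity)
  obtain ⟨K, hK⟩ : ∃ K, K = ⌈2 * K₀ * (Q : ℝ) ^ (2 * e)⌉₊ := ⟨_, rfl⟩
  obtain ⟨Lb, hLb⟩ : ∃ Lb, Lb = ⌈K₀ * (Q : ℝ) ^ (2 * e)⌉₊ + 2 * K := ⟨_, rfl⟩
  have hK1 : 2 * K₀ * (Q : ℝ) ^ (2 * e) ≤ K := hK ▸ Nat.le_ceil _
  have hK2 : (K : ℝ) < 2 * K₀ * (Q : ℝ) ^ (2 * e) + 1 := hK ▸ Nat.ceil_lt_add_one (by positivity)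
  have hKK : 1 ≤ K₀ * (Q : ℝ) ^ (2 * e) := one_le_mul_of_one_le_of_one_le hK₀1 hQ2e
  have hee : (Q : ℝ) ^ e ≤ (Q : ℝ) ^ (2 * e) :=
    Real.rpow_le_rpow_of_exponent_le hQ0 (by linarith)
  have hKL : 6 * coefSize c * R ^ 2 + 2 * Q * K ≤ Q * Lb := by
    suffices (6 * (coefSize c : ℝ)) * (R : ℝ) ^ 2 + 2 * (Q : ℝ) * K ≤ (Q : ℝ) * Lb by
      exact_mod_cast this
    rw [hLb]
    push_cast
    rw [mul_add, show 2 * (Q : ℝ) * K = Q * (2 * K) by ring, add_le_add_iff_right]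
    calc (6 * (coefSize c : ℝ)) * (R : ℝ) ^ 2 ≤ K₀ * ((Q : ℝ) * (Q : ℝ) ^ (2 * e)) := by
          refine mul_le_mul (by linarith) (hR2.trans ?_) (by positivity) (by linarith)
          rw [Real.rpow_add hQ', Real.rpow_one]
          gcongr
      _ = (Q : ℝ) * (K₀ * (Q : ℝ) ^ (2 * e)) := by ring
      _ ≤ _ := mul_le_mul_of_nonneg_left (Nat.le_ceil _) hQ'.le
  have hsub : ∀ x ∈ S, weylPairs c (((φ x).2 : ℝ) / (φ x).1 + β x) R
      ((R : ℝ) ^ 2 / (P : ℝ) ^ 3) ⊆ fractionPairs c (φ x) R K := by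
    intro x hx z hz
    obtain ⟨hz1, hz2⟩ := mem_filter.1 hz
    have ht := hφ x hx
    rw [dyadicFractions, mem_filter, mem_product, mem_Ico] at ht
    refine mem_filter.2 ⟨hz1, fun j => ?_⟩
    obtain ⟨B, hB⟩ : ∃ B, B = tri c z.1 z.2 (Pi.single j 1) := ⟨_, rfl⟩
    have hd := hz2 j
    rw [← hB] at hd ⊢
    have hq : (0 : ℝ) < (φ x).1 := Nat.cast_pos.2 (by omega)
    obtain ⟨k, hk⟩ : ∃ k : ℤ, k = B * (φ x).2 -
      (φ x).1 * round (((B * (φ x).2 : ℤ) : ℝ) / (φ x).1) := ⟨_, rfl⟩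
    refine ⟨k, mem_Icc.2 (abs_le.1 ?_),
      ⟨round (((B * (φ x).2 : ℤ) : ℝ) / (φ x).1), by rw [hk]; ring⟩⟩
    suffices |(k : ℝ)| ≤ K by exact_mod_cast this
    have e1 : |(k : ℝ)| = (φ x).1 * nearDist (((B * (φ x).2 : ℤ) : ℝ) / (φ x).1) := by
      rw [nearDist, ← abs_of_pos hq, ← abs_mul, abs_of_pos hq, hk]
      congr 1
      push_cast
      field_simp
    rw [e1]
    refine le_trans (mul_le_mul (show ((φ x).1 : ℝ) ≤ 2 * Q by exact_mod_cast ht.1.1.2.le)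
      (nearDist_sub_le _ ((((φ x).2 : ℝ) / (φ x).1 + β x) * (B : ℝ))) (nearDist_nonneg _)
      (by positivity)) ?_
    rw [show ((B * (φ x).2 : ℤ) : ℝ) / (φ x).1 - ((((φ x).2 : ℝ) / (φ x).1 + β x) * (B : ℝ)) =
      -(β x * (B : ℝ)) by push_cast; ring, abs_neg, abs_mul]
    have hBR : |(B : ℝ)| ≤ 6 * (coefSize c : ℝ) * (R : ℝ) ^ 2 := by
      have := abs_tri_single_le c (mem_product.1 hz1).1 (mem_product.1 hz1).2 j
      rw [← hB] at this
      exact_mod_cast this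
    have hP3 : (0 : ℝ) < (P : ℝ) ^ 3 := by positivity
    have hsum : nearDist ((((φ x).2 : ℝ) / (φ x).1 + β x) * (B : ℝ)) + |β x| * |(B : ℝ)| ≤
        K₀ * ((R : ℝ) ^ 2 * (Q : ℝ) ^ e) / (P : ℝ) ^ 3 := by
      rw [le_div_iff₀ hP3, add_mul]
      have h1 := mul_le_mul_of_nonneg_right hd hP3.le
      rw [div_mul_cancel₀ _ hP3.ne'] at h1
      have h2 : |β x| * |(B : ℝ)| * (P : ℝ) ^ 3 ≤
          (Q : ℝ) ^ e * (6 * (coefSize c : ℝ) * (R : ℝ) ^ 2) := by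
        rw [show |β x| * |(B : ℝ)| * (P : ℝ) ^ 3 = (P : ℝ) ^ 3 * |β x| * |(B : ℝ)| by ring]
        exact mul_le_mul (hβ x hx) hBR (abs_nonneg _) (by positivity)
      rw [hK₀]
      nlinarith
    refine (mul_le_mul_of_nonneg_left hsum (by positivity)).trans (le_trans ?_ hK1)
    rw [← mul_div_assoc, div_le_iff₀ hP3]
    calc 2 * (Q : ℝ) * (K₀ * ((R : ℝ) ^ 2 * (Q : ℝ) ^ e))
        ≤ 2 * (Q : ℝ) * (K₀ * ((Q : ℝ) ^ (1 + e) * (Q : ℝ) ^ e)) := by gcongr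
      _ = 2 * K₀ * (Q : ℝ) ^ (2 * e) * (Q : ℝ) ^ 2 := by
          rw [← Real.rpow_add hQ', show 1 + e + e = 2 * e + 1 by ring, Real.rpow_add hQ',
            Real.rpow_one]
          ring
      _ ≤ _ := by gcongr
  have hW : ((∑ t ∈ dyadicFractions Q, (fractionPairs c t R K).card : ℕ) : ℝ) ≤
      C₂ * (1 + 2 * (200 * K₀ ^ 2) ^ n) * (R : ℝ) ^ n * (Q : ℝ) ^ 2 := by
    refine (Nat.cast_le.2 (hpairs R Q K Lb hR1 hQ hKL)).trans ?_
    have hkl : ((2 * (K : ℝ) + 1) * (2 * (Lb : ℝ) + 1)) ^ n ≤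
        (200 * K₀ ^ 2) ^ n * (Q : ℝ) ^ ((1 : ℝ) / 4) := by
      have h1 : (2 * (K : ℝ) + 1) * (2 * (Lb : ℝ) + 1) ≤
          200 * K₀ ^ 2 * (Q : ℝ) ^ (4 * e) := by
        rw [show (Q : ℝ) ^ (4 * e) = (Q : ℝ) ^ (2 * e) * (Q : ℝ) ^ (2 * e) by
          rw [← Real.rpow_add hQ']; ring_nf]
        have h2 : (Lb : ℝ) ≤ 8 * (K₀ * (Q : ℝ) ^ (2 * e)) := by
          rw [hLb]
          have := Nat.ceil_lt_add_one (show 0 ≤ K₀ * (Q : ℝ) ^ (2 * e) by positivity)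
          push_cast
          linarith
        calc (2 * (K : ℝ) + 1) * (2 * (Lb : ℝ) + 1)
            ≤ (5 * (K₀ * (Q : ℝ) ^ (2 * e)) + 2 * (K₀ * (Q : ℝ) ^ (2 * e))) *
                (17 * (K₀ * (Q : ℝ) ^ (2 * e))) :=
              mul_le_mul (by linarith) (by linarith) (by positivity) (by positivity)
          _ ≤ _ := by nlinarith
      refine (pow_le_pow_left₀ (by positivity) h1 n).trans (le_of_eq ?_)
      rw [mul_pow, ← Real.rpow_natCast ((Q : ℝ) ^ (4 * e)) n, ← Real.rpow_mul hQ'.le]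
      congr 2
      rw [he]
      field_simp
      ring
    have hRR : (R : ℝ) ^ 2 + (Q : ℝ) * R ≤ 2 * (Q : ℝ) ^ ((7 : ℝ) / 4) := by
      have a1 : (R : ℝ) ^ 2 ≤ (Q : ℝ) ^ ((7 : ℝ) / 4) :=
        hR2.trans (Real.rpow_le_rpow_of_exponent_le hQ0 (by linarith))
      have a2 : (Q : ℝ) * R ≤ (Q : ℝ) ^ ((7 : ℝ) / 4) := by
        calc (Q : ℝ) * R ≤ (Q : ℝ) * (Q : ℝ) ^ ((1 + e) / 2) :=
              mul_le_mul_of_nonneg_left (hR ▸ Nat.floor_le (by positivity)) hQ'.le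
          _ = (Q : ℝ) ^ (1 + (1 + e) / 2) := by rw [Real.rpow_add hQ', Real.rpow_one]
          _ ≤ _ := Real.rpow_le_rpow_of_exponent_le hQ0 (by linarith)
      linarith
    push_cast
    have h3 := mul_le_mul hkl hRR (by positivity) (by positivity)
    rw [show (200 * K₀ ^ 2) ^ n * (Q : ℝ) ^ ((1 : ℝ) / 4) * (2 * (Q : ℝ) ^ ((7 : ℝ) / 4)) =
      2 * (200 * K₀ ^ 2) ^ n * ((Q : ℝ) ^ ((1 : ℝ) / 4) * (Q : ℝ) ^ ((7 : ℝ) / 4)) by ring,
      ← Real.rpow_add hQ', show (1 : ℝ) / 4 + 7 / 4 = 2 by norm_num, Real.rpow_two] at h3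
    have h4 := mul_le_mul_of_nonneg_left h3 (show 0 ≤ (C₂ : ℝ) * (R : ℝ) ^ n by positivity)
    linarith
  obtain ⟨f, hf⟩ : ∃ f, f = fun x => ‖cubicSum c P (((φ x).2 : ℝ) / (φ x).1 + β x)‖ := ⟨_, rfl⟩
  have h4 : ∑ x ∈ S, f x ^ 4 * (R : ℝ) ^ n ≤
      D * N₀ * (P : ℝ) ^ (4 * n) * (1 + Real.log P) ^ n * (Q : ℝ) ^ 2 := by
    have hRn : (0 : ℝ) < (R : ℝ) ^ n := by positivity
    refine le_of_mul_le_mul_right ?_ hRn
    rw [sum_mul]
    calc ∑ x ∈ S, f x ^ 4 * (R : ℝ) ^ n * (R : ℝ) ^ n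
        ≤ ∑ x ∈ S, C₁ * (P : ℝ) ^ (4 * n) * (1 + Real.log P) ^ n *
            (fractionPairs c (φ x) R K).card := sum_le_sum fun x hx => by
          rw [mul_assoc, ← pow_add, ← two_mul, hf]
          exact (hweyl P R _ hR1 hRP).trans (mul_le_mul_of_nonneg_left
            (Nat.cast_le.2 (card_le_card (hsub x hx))) (by positivity))
      _ ≤ C₁ * (P : ℝ) ^ (4 * n) * (1 + Real.log P) ^ n *
            (N₀ * ((∑ t ∈ dyadicFractions Q, (fractionPairs c t R K).card : ℕ) : ℝ)) := by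
          rw [← mul_sum, ← Nat.cast_sum, ← Nat.cast_mul]
          refine mul_le_mul_of_nonneg_left (Nat.cast_le.2 ?_) (by positivity)
          rw [← sum_fiberwise_of_maps_to hφ, mul_sum]
          refine sum_le_sum fun t _ => ?_
          rw [sum_congr rfl fun x hx => by rw [(mem_filter.1 hx).2], sum_const, smul_eq_mul]
          exact Nat.mul_le_mul_right _ (hfib t)
      _ ≤ C₁ * (P : ℝ) ^ (4 * n) * (1 + Real.log P) ^ n *
            (N₀ * (C₂ * (1 + 2 * (200 * K₀ ^ 2) ^ n) * (R : ℝ) ^ n * (Q : ℝ) ^ 2)) := by gcongr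
      _ = _ := by rw [hD]; ring
  have hcard : (S.card : ℝ) ≤ 4 * N₀ * (Q : ℝ) ^ 2 := by
    have := (card_le_mul_card_image_of_maps_to hφ N₀ fun t _ => hfib t).trans
      (Nat.mul_le_mul_left N₀ (card_dyadicFractions_le Q))
    calc (S.card : ℝ) ≤ ((N₀ * (4 * Q ^ 2) : ℕ) : ℝ) := Nat.cast_le.2 this
      _ = _ := by push_cast; ring
  have h16 : (Q : ℝ) ^ (8 + 8 * e) ≤ 4 ^ 8 * (R : ℝ) ^ n := by
    calc (Q : ℝ) ^ (8 + 8 * e) = ((Q : ℝ) ^ (1 + e)) ^ 8 := by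
          rw [← Real.rpow_natCast _ 8, ← Real.rpow_mul hQ'.le]; congr 1; push_cast; ring
      _ ≤ (4 * (R : ℝ) ^ 2) ^ 8 := pow_le_pow_left₀ (by positivity) hR3 8
      _ = 4 ^ 8 * (R : ℝ) ^ 16 := by ring
      _ ≤ _ := mul_le_mul_of_nonneg_left
          (pow_le_pow_right₀ (by exact_mod_cast hR1) hn) (by norm_num)
  have hf0 : ∀ x ∈ S, 0 ≤ f x := fun x _ => by rw [hf]; exact norm_nonneg _
  have hkey : (∑ x ∈ S, f x) ^ 4 * (Q : ℝ) ^ (8 + 8 * e) ≤ ((4 ^ 3 * D * 4 ^ 8 + 1) * N₀ *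
      (1 + Real.log P) ^ n * (P : ℝ) ^ n) ^ 4 * (Q : ℝ) ^ 8 := by
    have h5 := pow_sum_le_card_mul_sum_pow hf0 3
    calc (∑ x ∈ S, f x) ^ 4 * (Q : ℝ) ^ (8 + 8 * e)
        ≤ (S.card : ℝ) ^ 3 * (∑ x ∈ S, f x ^ 4) * (4 ^ 8 * (R : ℝ) ^ n) :=
          mul_le_mul h5 h16 (by positivity) (by positivity)
      _ = 4 ^ 8 * (S.card : ℝ) ^ 3 * ∑ x ∈ S, f x ^ 4 * (R : ℝ) ^ n := by rw [← sum_mul]; ring
      _ ≤ 4 ^ 8 * (4 * N₀ * (Q : ℝ) ^ 2) ^ 3 *
            (D * N₀ * (P : ℝ) ^ (4 * n) * (1 + Real.log P) ^ n * (Q : ℝ) ^ 2) := by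
          gcongr
      _ = 4 ^ 3 * D * 4 ^ 8 * (1 + Real.log P) ^ n *
            ((N₀ : ℝ) ^ 4 * ((P : ℝ) ^ n) ^ 4 * (Q : ℝ) ^ 8) := by ring
      _ ≤ (4 ^ 3 * D * 4 ^ 8 + 1) ^ 4 * ((1 + Real.log P) ^ n) ^ 4 *
            ((N₀ : ℝ) ^ 4 * ((P : ℝ) ^ n) ^ 4 * (Q : ℝ) ^ 8) := by
          have hD0 : 0 ≤ D := by rw [hD]; positivity
          refine mul_le_mul_of_nonneg_right (mul_le_mul ?_ (le_self_pow₀ hLn four_ne_zero)
            (by positivity) (by positivity)) (by positivity)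
          exact (le_add_of_nonneg_right zero_le_one).trans
            (le_self_pow₀ (le_add_of_nonneg_left (by positivity)) four_ne_zero)
      _ = _ := by ring
  have hneg : ((Q : ℝ) ^ (-(2 * e))) ^ 4 * (Q : ℝ) ^ (8 + 8 * e) = (Q : ℝ) ^ 8 := by
    rw [← Real.rpow_natCast ((Q : ℝ) ^ _) 4, ← Real.rpow_mul hQ'.le, ← Real.rpow_add hQ',
      ← Real.rpow_natCast (Q : ℝ) 8]
    congr 1
    push_cast
    ring
  rw [← hneg, ← mul_assoc, ← mul_pow] at hkey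
  have hD0 : 0 ≤ D := by rw [hD]; positivity
  have := (pow_le_pow_iff_left₀ (sum_nonneg hf0) (by positivity) four_ne_zero).1
    (le_of_mul_le_mul_right hkey (by positivity))
  rw [hf] at this
  exact this

end FA.CubicForms
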