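import Fermat.Agent.CubicForms.Local
import Mathlib.Data.ZMod.Units
import Mathlib.RingTheory.Int.Basic

/-!
# Lifting

A point which lifts gives, for one constant `E`, at least `p ^ ((J - E) n)` zeros times `p ^ (-J)`
modulo `p ^ J` for every `J`, and primitive zeros modulo every power of `p`.
-/

set_option autoImplicit false

noncomputable section

namespace FA.CubicForms

open Finset

variable {ι : Type*} [Fintype ι] {c : ι → ι → ι → ℤ} {p : ℕ}

/-- The number of zeros modulo `q`. -/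
def zeroCount (c : ι → ι → ι → ℤ) (q : ℕ) : ℕ :=
  Nat.card {x : ι → ZMod q // cubic (tmap (Int.castRingHom (ZMod q)) c) x = 0}

/-- **The lifting.** -/
theorem LiftablePoint.exists_lift (hp : p.Prime) (h : LiftablePoint c p) :
    ∃ E : ℕ, 1 ≤ E ∧
      (∀ J, (p ^ (J - E)) ^ Fintype.card ι ≤ zeroCount c (p ^ J) * p ^ J) ∧
      ∀ J, ∃ x : ι → ℤ, (∃ i, ¬(p : ℤ) ^ E ∣ x i) ∧ (p : ℤ) ^ J ∣ cubic c x := by
  classical
  obtain ⟨Λ, D, S, u, w, hidx, hlev, hu, hw, hCu, hDu⟩ := h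
  have hp0 : (p : ℤ) ≠ 0 := Int.natCast_ne_zero.2 hp.ne_zero
  have hmem : ∀ z : ι → ℤ, ((p : ℤ) ^ D) • z ∈ Λ := fun z => by
    have := Λ.nsmul_index_mem z
    rwa [hidx, ← natCast_zsmul, Nat.cast_pow] at this
  have hlift : ∀ (J : ℕ) (z : ι → ℤ), ∃ t : ℤ,
      (p : ℤ) ^ J ∣ cubic c (u + ((p : ℤ) ^ (D + 1)) • z + ((p : ℤ) * t) • w) := by
    intro J z
    obtain ⟨v, hv⟩ : ∃ v, v = ((p : ℤ) ^ D) • z := ⟨_, rfl⟩
    have hvm : v ∈ Λ := hv ▸ hmem z
    obtain ⟨U, hU⟩ : ∃ U, U = u + (p : ℤ) • v := ⟨_, rfl⟩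
    have hUm : U ∈ Λ := hU ▸ add_mem hu (Λ.zsmul_mem hvm _)
    rw [show u + ((p : ℤ) ^ (D + 1)) • z = U by rw [hU, hv, smul_smul, pow_succ']]
    obtain ⟨A, hA⟩ : (p : ℤ) ^ (S + 1) ∣ cubic c U := by
      rw [hU, cubic_add, polar_smul_right, polar_smul_left, cubic_smul]
      obtain ⟨b1, hb1⟩ := hlev.polar_dvd u hu v hvm
      obtain ⟨b2, hb2⟩ := hlev.polar_dvd v hvm u hu
      obtain ⟨b3, hb3⟩ := hlev.cubic_dvd v hvm
      obtain ⟨b0, hb0⟩ := hCu
      exact ⟨b0 + b1 + p * b2 + p ^ 2 * b3, by rw [hb0, hb1, hb2, hb3, pow_succ]; ring⟩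
    obtain ⟨a, ha⟩ := hlev.polar_dvd U hUm w hw
    obtain ⟨B, hB⟩ := hlev.polar_dvd w hw U hUm
    obtain ⟨C, hC⟩ := hlev.cubic_dvd w hw
    have hpa : ¬(p : ℤ) ∣ a := by
      rintro ⟨a', rfl⟩
      refine hDu ?_
      obtain ⟨b1, hb1⟩ := hlev.polar_dvd v hvm w hw
      obtain ⟨b2, hb2⟩ := hlev.tri_dvd u hu v hvm w hw
      rw [hU, polar_add_left, polar_smul_left, tri_smul_mid, hb1, hb2] at ha
      exact ⟨a' - p * b1 - b2, by rw [pow_succ]; linear_combination ha⟩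
    have : NeZero (p ^ J) := ⟨pow_ne_zero _ hp.ne_zero⟩
    obtain ⟨φ, hφ⟩ : ∃ φ : ZMod (p ^ J) → ZMod (p ^ J), φ = fun t =>
      (A : ZMod (p ^ J)) + a * t + p * B * t ^ 2 + p ^ 2 * C * t ^ 3 := ⟨_, rfl⟩
    have hinj : Function.Injective φ := fun t s e => by
      simp only [hφ] at e
      obtain ⟨m, hm⟩ : ∃ m, m = (B : ZMod (p ^ J)) * (t + s) + p * C * (t ^ 2 + t * s + s ^ 2) :=
        ⟨_, rfl⟩
      have hu' : IsUnit ((a : ZMod (p ^ J)) + p * m) := by
        rw [show (a : ZMod (p ^ J)) + p * m =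
          ((a + p * (m.val : ℤ) : ℤ) : ZMod (p ^ J)) by
            push_cast; rw [ZMod.natCast_zmod_val], ZMod.coe_int_isUnit_iff_isCoprime]
        push_cast
        refine ((Nat.prime_iff_prime_int.1 hp).coprime_iff_not_dvd.2 fun hd => hpa ?_).pow_left
        simpa using dvd_sub hd (dvd_mul_right (p : ℤ) (m.val : ℤ))
      have h0 : ((a : ZMod (p ^ J)) + p * m) * (t - s) = 0 := by
        rw [hm]; linear_combination e
      exact sub_eq_zero.1 (hu'.mul_right_eq_zero.1 h0)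
    obtain ⟨t, ht⟩ := Finite.injective_iff_surjective.1 hinj 0
    refine ⟨(t.val : ℤ), ?_⟩
    rw [cubic_add, polar_smul_right, polar_smul_left, cubic_smul, hA, ha, hB, hC,
      show (p : ℤ) ^ (S + 1) * A + (p : ℤ) * t.val * ((p : ℤ) ^ S * a) +
        ((p : ℤ) * t.val) ^ 2 * ((p : ℤ) ^ S * B) + ((p : ℤ) * t.val) ^ 3 * ((p : ℤ) ^ S * C) =
        (p : ℤ) ^ (S + 1) * (A + a * t.val + p * B * (t.val : ℤ) ^ 2 +
          p ^ 2 * C * (t.val : ℤ) ^ 3) by rw [pow_succ]; ring]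
    refine dvd_mul_of_dvd_right ?_ _
    rw [← Int.natCast_pow p J, ← ZMod.intCast_zmod_eq_zero_iff_dvd]
    push_cast
    rw [ZMod.natCast_zmod_val]
    simpa [hφ] using ht
  choose τ hτ using hlift
  refine ⟨D + 1, Nat.le_add_left 1 D, fun J => ?_, fun J => ⟨_, ?_, hτ J 0⟩⟩
  · have : NeZero (p ^ J) := ⟨pow_ne_zero _ hp.ne_zero⟩
    obtain ⟨lift, hl⟩ : ∃ lift : (ι → Fin (p ^ (J - (D + 1)))) → ι → ℤ,
        lift = fun z i => ((z i : ℕ) : ℤ) := ⟨_, rfl⟩
    obtain ⟨g, hg⟩ : ∃ g : (ι → Fin (p ^ (J - (D + 1)))) → ι → ℤ, g = fun z =>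
        u + ((p : ℤ) ^ (D + 1)) • lift z + ((p : ℤ) * τ J (lift z)) • w := ⟨_, rfl⟩
    have h1 := Nat.card_le_card_of_injective
      (fun z => ((⟨fun i => (g z i : ZMod (p ^ J)), by
        have := cubic_map c (g z) (Int.castRingHom (ZMod (p ^ J)))
        simp only [eq_intCast] at this ⊢
        rw [show (fun i => (g z i : ZMod (p ^ J))) = fun i => ((g z i : ℤ) : ZMod (p ^ J)) from rfl]
        refine this.trans ?_
        rw [ZMod.intCast_zmod_eq_zero_iff_dvd, Nat.cast_pow, hg]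
        exact hτ J (lift z)⟩ :
          {x : ι → ZMod (p ^ J) // cubic (tmap (Int.castRingHom (ZMod (p ^ J))) c) x = 0}),
        ((τ J (lift z) : ℤ) : ZMod (p ^ J)))) fun z z' e => ?_
    · rwa [Nat.card_fun, Nat.card_fin, Nat.card_eq_fintype_card, Nat.card_prod, Nat.card_zmod]
        at h1
    simp only [Prod.mk.injEq, Subtype.mk.injEq] at e
    obtain ⟨e1, e2⟩ := e
    funext i
    have e3 := congrFun e1 i
    simp only [hg, hl, Pi.add_apply, Pi.smul_apply, smul_eq_mul] at e3 e2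
    push_cast at e3
    rw [e2, add_left_inj, add_right_inj] at e3
    have e4 : ((p ^ (D + 1) * (z i : ℕ) : ℕ) : ZMod (p ^ J)) =
        ((p ^ (D + 1) * (z' i : ℕ) : ℕ) : ZMod (p ^ J)) := by push_cast; exact e3
    have hb : ∀ y : Fin (p ^ (J - (D + 1))), D + 1 ≤ J → p ^ (D + 1) * (y : ℕ) < p ^ J :=
      fun y hJ => by
      calc p ^ (D + 1) * (y : ℕ) < p ^ (D + 1) * p ^ (J - (D + 1)) :=
            Nat.mul_lt_mul_of_pos_left y.isLt (pow_pos hp.pos _)
        _ = p ^ J := by rw [← pow_add, Nat.add_sub_cancel' hJ]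
    rcases le_or_gt (D + 1) J with hJ | hJ
    · rw [ZMod.natCast_eq_natCast_iff', Nat.mod_eq_of_lt (hb _ hJ), Nat.mod_eq_of_lt (hb _ hJ)]
        at e4
      exact Fin.ext (Nat.eq_of_mul_eq_mul_left (pow_pos hp.pos _) e4)
    · refine Fin.ext ?_
      have h2 := (z i).isLt
      have h3 := (z' i).isLt
      simp only [Nat.sub_eq_zero_of_le hJ.le, pow_zero, Nat.lt_one_iff] at h2 h3
      omega
  · by_contra hall
    push Not at hall
    choose z hz using hall
    refine hDu ?_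
    obtain ⟨u', hu'm, hu'⟩ : ∃ u' ∈ Λ, u = (p : ℤ) • u' := by
      refine ⟨((p : ℤ) ^ D) • z - τ J 0 • w,
        sub_mem (hmem z) (Λ.zsmul_mem hw _), funext fun i => ?_⟩
      have := hz i
      simp only [Pi.add_apply, Pi.smul_apply, Pi.zero_apply, smul_eq_mul, mul_zero, add_zero,
        Pi.sub_apply] at this ⊢
      rw [pow_succ] at this
      linear_combination this
    rw [hu', polar_smul_left]
    calc (p : ℤ) ^ (S + 1) ∣ (p : ℤ) ^ (2 + S) := pow_dvd_pow _ (by omega)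
      _ ∣ _ := by rw [pow_add]; exact mul_dvd_mul_left _ (hlev.polar_dvd u' hu'm w hw)

/-- A bounded common factor can be removed. -/
theorem exists_primitive_of_bounded (hp : p.Prime) : ∀ E : ℕ,
    (∀ J, ∃ x : ι → ℤ, (∃ i, ¬(p : ℤ) ^ (E + 1) ∣ x i) ∧ (p : ℤ) ^ J ∣ cubic c x) →
      ∀ J, ∃ x : ι → ℤ, (∃ i, ¬(p : ℤ) ∣ x i) ∧ (p : ℤ) ^ J ∣ cubic c x
  | 0, h => fun J => by simpa using h J
  | E + 1, h => by
    refine exists_primitive_of_bounded hp E fun J => ?_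
    obtain ⟨y, ⟨i, hi⟩, hd⟩ := h (3 + J)
    by_cases hy : ∃ i, ¬(p : ℤ) ∣ y i
    · obtain ⟨l, hl⟩ := hy
      exact ⟨y, ⟨l, fun hd' => hl ((dvd_pow_self _ E.succ_ne_zero).trans hd')⟩,
        (pow_dvd_pow _ (Nat.le_add_left J 3)).trans hd⟩
    push Not at hy
    choose z hz using hy
    refine ⟨z, ⟨i, fun hd' => hi ?_⟩, ?_⟩
    · rw [hz i, pow_succ']
      exact mul_dvd_mul_left _ hd'
    · rw [show y = (p : ℤ) • z from funext hz, cubic_smul, pow_add] at hd
      exact (mul_dvd_mul_iff_left (pow_ne_zero 3 (Int.natCast_ne_zero.2 hp.ne_zero))).1 hd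

/-- Without integer zeros the values bound the powers of `p` dividing them. -/
theorem powerBound_of_no_zero (hc : ∀ x : ι → ℤ, cubic c x = 0 → x = 0) :
    PowerBound c p (∑ i, ∑ j, ∑ k, (c i j k).natAbs) := by
  intro X S v hv hX hd
  have h1 := Int.natAbs_dvd_natAbs.2 hd
  rw [Int.natAbs_pow, Int.natAbs_natCast] at h1
  refine (Nat.le_of_dvd (Int.natAbs_pos.2 fun h => hv (hc v h)) h1).trans ?_
  simp only [cubic, sum_mul]
  refine (Int.natAbs_sum_le _ _).trans (sum_le_sum fun i _ => (Int.natAbs_sum_le _ _).trans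
    (sum_le_sum fun j _ => (Int.natAbs_sum_le _ _).trans (sum_le_sum fun k _ => ?_)))
  simp only [Int.natAbs_mul]
  refine Nat.mul_le_mul_left _ ?_
  rw [show X ^ 3 = X * X * X by ring]
  exact Nat.mul_le_mul (Nat.mul_le_mul (hX i) (hX j)) (hX k)

/-- Without primitive zeros modulo `p ^ E` the values bound the powers of `p` dividing them. -/
theorem powerBound_of_no_primitive (hp : p.Prime) {E : ℕ}
    (h : ∀ x : ι → ℤ, (∃ i, ¬(p : ℤ) ∣ x i) → ¬(p : ℤ) ^ E ∣ cubic c x) :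
    PowerBound c p (p ^ E) := by
  intro X S
  induction S using Nat.strong_induction_on generalizing X with
  | _ S ih =>
    intro v hv hX hd
    obtain ⟨i₀, hi₀⟩ := Function.ne_iff.1 hv
    have hX0 : 0 < X := (Int.natAbs_pos.2 hi₀).trans_le (hX i₀)
    by_cases hy : ∃ i, ¬(p : ℤ) ∣ v i
    · have hSE : S < E := not_le.1 fun hle => h v hy ((pow_dvd_pow _ hle).trans hd)
      exact (Nat.pow_le_pow_right hp.pos hSE.le).trans
        (Nat.le_mul_of_pos_right _ (pow_pos hX0 3))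
    push Not at hy
    choose z hz using hy
    have hbd : ∀ i, p * (z i).natAbs ≤ X := fun i => by
      have := hX i
      rwa [hz i, Int.natAbs_mul, Int.natAbs_natCast] at this
    have hpX : p ≤ X := by
      refine (Nat.le_mul_of_pos_right p (Int.natAbs_pos.2 fun h0 => hi₀ ?_)).trans (hbd i₀)
      rw [hz i₀, h0, mul_zero]; rfl
    rcases le_or_gt 3 S with h3 | h3
    · have hz0 : z ≠ 0 := fun h0 => hi₀ (by rw [hz i₀, h0]; simp)
      rw [show v = (p : ℤ) • z from funext hz, cubic_smul,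
        show S = 3 + (S - 3) by omega, pow_add] at hd
      have := ih (S - 3) (by omega) (X / p) z hz0
        (fun i => (Nat.le_div_iff_mul_le hp.pos).2 (by rw [mul_comm]; exact hbd i))
        ((mul_dvd_mul_iff_left (pow_ne_zero 3 (Int.natCast_ne_zero.2 hp.ne_zero))).1 hd)
      calc p ^ S = p ^ 3 * p ^ (S - 3) := by rw [← pow_add]; congr 1; omega
        _ ≤ p ^ 3 * (p ^ E * (X / p) ^ 3) := Nat.mul_le_mul_left _ this
        _ = p ^ E * (X / p * p) ^ 3 := by ring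
        _ ≤ p ^ E * X ^ 3 := by gcongr; exact Nat.div_mul_le_self X p
    · exact ((Nat.pow_le_pow_right hp.pos h3.le).trans (Nat.pow_le_pow_left hpX 3)).trans
        (Nat.le_mul_of_pos_left _ (pow_pos hp.pos E))

/-- **Enough zeros modulo prime powers, when there is no integer zero.** -/
theorem exists_zeroCount_ge (hp : p.Prime) (hn : 10 ≤ Fintype.card ι)
    (hc : ∀ x : ι → ℤ, cubic c x = 0 → x = 0) :
    ∃ E : ℕ, ∀ J, (p ^ (J - E)) ^ Fintype.card ι ≤ zeroCount c (p ^ J) * p ^ J :=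
  have ⟨E, _, h, _⟩ := (exists_liftablePoint hp hn (powerBound_of_no_zero hc)).exists_lift hp
  ⟨E, h⟩

/-- **Primitive zeros, given a bound on the powers of `p`.** -/
theorem exists_primitive_of_powerBound {K : ℕ} (hp : p.Prime) (hn : 10 ≤ Fintype.card ι)
    (hK : PowerBound c p K) (J : ℕ) :
    ∃ x : ι → ℤ, (∃ i, ¬(p : ℤ) ∣ x i) ∧ (p : ℤ) ^ J ∣ cubic c x := by
  obtain ⟨E, hE, -, h⟩ := (exists_liftablePoint hp hn hK).exists_lift hp
  exact exists_primitive_of_bounded hp (E - 1) (by rwa [Nat.sub_add_cancel hE]) J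

end FA.CubicForms
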