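import Fermat.Agent.CubicForms.Tensor
import Mathlib.FieldTheory.ChevalleyWarning
import Mathlib.GroupTheory.Index
import Mathlib.LinearAlgebra.Dimension.Finite
import Mathlib.FieldTheory.Finiteness
import Mathlib.Algebra.Module.ZMod
import Mathlib.Algebra.Field.ZMod
import Mathlib.LinearAlgebra.Basis.VectorSpace

/-!
# Zeros modulo prime powers

For a cubic form in at least ten variables with a bound `p ^ S ≤ K X ^ 3` on the powers of `p`
dividing its nonzero values in the box of size `X`, some lattice of `p`-power index has a point `u`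
and a vector `w` with `p ^ (S + 1) ∣ cubic u` but not `polar u w`, all values being divisible by
`p ^ S` there. Otherwise the points with value divisible by `p ^ (S + 1)` form a sublattice of index
at most `p ^ 3` by Chevalley and Warning, and this can be repeated for ever. Such a point lifts to
`p ^ (J (n - 1))` zeros modulo `p ^ J`, up to a constant, with a bounded common factor.
-/

set_option autoImplicit false

noncomputable section

namespace FA.CubicForms

open Finset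

variable {ι : Type*} [Fintype ι] (c : ι → ι → ι → ℤ) (p : ℕ)

/-- The bound on the powers of `p` dividing the nonzero values in a box. -/
def PowerBound (K : ℕ) : Prop :=
  ∀ (X S : ℕ) (v : ι → ℤ), v ≠ 0 → (∀ i, (v i).natAbs ≤ X) → (p : ℤ) ^ S ∣ cubic c v →
    p ^ S ≤ K * X ^ 3

/-- `cubic`, `polar` and `tri` are divisible by `p ^ S` on `Λ`. -/
structure LatticeLevel (S : ℕ) (Λ : AddSubgroup (ι → ℤ)) : Prop where
  cubic_dvd : ∀ x ∈ Λ, (p : ℤ) ^ S ∣ cubic c x
  polar_dvd : ∀ x ∈ Λ, ∀ y ∈ Λ, (p : ℤ) ^ S ∣ polar c x y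
  tri_dvd : ∀ x ∈ Λ, ∀ y ∈ Λ, ∀ z ∈ Λ, (p : ℤ) ^ S ∣ tri c x y z

variable {c p}

/-- Divisibility passes to combinations with coefficients in any ring. -/
theorem LatticeLevel.dvd_sum {S : ℕ} {Λ : AddSubgroup (ι → ℤ)} (h : LatticeLevel c p S Λ)
    {R κ : Type*} [CommRing R] (r : κ → R) {w : κ → ι → ℤ} (hw : ∀ a, w a ∈ Λ) (s : Finset κ) :
    ((p ^ S : ℕ) : R) ∣
      cubic (tmap (Int.castRingHom R) c) (∑ a ∈ s, r a • fun i => (w a i : R)) := by
  classical
  have hP : ∀ z : ℤ, (p : ℤ) ^ S ∣ z → ((p ^ S : ℕ) : R) ∣ (z : R) := fun z hz => by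
    simpa using map_dvd (Int.castRingHom R) hz
  obtain ⟨T, hT⟩ : ∃ T, T = tmap (Int.castRingHom R) c := ⟨_, rfl⟩
  have hC : ∀ x ∈ Λ, ((p ^ S : ℕ) : R) ∣ cubic T (fun i => (x i : R)) := fun x hx => by
    rw [hT, show (fun i => (x i : R)) = fun i => Int.castRingHom R (x i) from rfl, cubic_map]
    exact hP _ (h.cubic_dvd x hx)
  have hD : ∀ x ∈ Λ, ∀ y ∈ Λ, ((p ^ S : ℕ) : R) ∣ polar T (fun i => (x i : R))
      (fun i => (y i : R)) := fun x hx y hy => by
    rw [hT, show (fun i => (x i : R)) = fun i => Int.castRingHom R (x i) from rfl,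
      show (fun i => (y i : R)) = fun i => Int.castRingHom R (y i) from rfl, polar_map]
    exact hP _ (h.polar_dvd x hx y hy)
  have hE : ∀ x ∈ Λ, ∀ y ∈ Λ, ∀ z ∈ Λ, ((p ^ S : ℕ) : R) ∣ tri T (fun i => (x i : R))
      (fun i => (y i : R)) (fun i => (z i : R)) :=
    fun x hx y hy z hz => by
    rw [hT, show (fun i => (x i : R)) = fun i => Int.castRingHom R (x i) from rfl,
      show (fun i => (y i : R)) = fun i => Int.castRingHom R (y i) from rfl,
      show (fun i => (z i : R)) = fun i => Int.castRingHom R (z i) from rfl, tri_map]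
    exact hP _ (h.tri_dvd x hx y hy z hz)
  rw [← hT]
  obtain ⟨F, hF⟩ : ∃ F : κ → ι → R, F = fun a i => (w a i : R) := ⟨_, rfl⟩
  have hF' : ∀ a, (fun i => (w a i : R)) = F a := fun a => by rw [hF]
  suffices H : ((p ^ S : ℕ) : R) ∣ cubic T (∑ a ∈ s, r a • F a) ∧
      ∀ v ∈ Λ, ((p ^ S : ℕ) : R) ∣ polar T (∑ a ∈ s, r a • F a) (fun i => (v i : R)) ∧
        ((p ^ S : ℕ) : R) ∣ polar T (fun i => (v i : R)) (∑ a ∈ s, r a • F a) ∧
        ∀ v' ∈ Λ, ((p ^ S : ℕ) : R) ∣
          tri T (∑ a ∈ s, r a • F a) (fun i => (v i : R)) (fun i => (v' i : R)) by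
    simpa only [hF'] using H.1
  induction s using Finset.induction_on with
  | empty =>
    simp [cubic_zero, polar_zero_left, polar_zero_right, tri_zero_left]
  | insert a s ha ih =>
    rw [sum_insert ha, add_comm]
    obtain ⟨i1, i2⟩ := ih
    simp only [← hF'] at i1 i2 ⊢
    refine ⟨?_, fun v hv => ⟨?_, ?_, fun v' hv' => ?_⟩⟩
    · rw [cubic_add, polar_smul_right, polar_smul_left, cubic_smul]
      exact dvd_add (dvd_add (dvd_add i1 ((i2 _ (hw a)).1.mul_left _))
        ((i2 _ (hw a)).2.1.mul_left _)) ((hC _ (hw a)).mul_left _)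
    · rw [polar_add_left, polar_smul_left, tri_smul_mid]
      exact dvd_add (dvd_add (i2 v hv).1 ((hD _ (hw a) v hv).mul_left _))
        (((i2 _ (hw a)).2.2 v hv).mul_left _)
    · rw [polar_add_right, polar_smul_right]
      exact dvd_add (i2 v hv).2.1 ((hD v hv _ (hw a)).mul_left _)
    · rw [tri_add_left, tri_smul_left]
      exact dvd_add ((i2 v hv).2.2 v' hv') ((hE _ (hw a) v hv v' hv').mul_left _)

/-- **Four vectors have a combination with value divisible by one more power of `p`.** -/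
theorem LatticeLevel.exists_combination {S : ℕ} {Λ : AddSubgroup (ι → ℤ)}
    (h : LatticeLevel c p S Λ) [hp : Fact p.Prime] (w : Fin 4 → ι → ℤ) (hw : ∀ a, w a ∈ Λ) :
    ∃ x : Fin 4 → ZMod p, x ≠ 0 ∧
      (p : ℤ) ^ (S + 1) ∣ cubic c (∑ a, ((x a).val : ℤ) • w a) := by
  classical
  obtain ⟨g, hg⟩ := h.dvd_sum (R := MvPolynomial (Fin 4) ℤ) MvPolynomial.X hw univ
  have hdeg : g.totalDegree ≤ 3 := by
    have hps : ((p ^ S : ℕ) : ℤ) ≠ 0 := by exact_mod_cast pow_ne_zero S hp.out.ne_zero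
    have hx : ∀ i, ((∑ a, (MvPolynomial.X a : MvPolynomial (Fin 4) ℤ) •
        fun i => (w a i : MvPolynomial (Fin 4) ℤ)) i).totalDegree ≤ 1 := fun i => by
      rw [Finset.sum_apply]
      refine MvPolynomial.totalDegree_finsetSum_le fun a _ => ?_
      rw [Pi.smul_apply, smul_eq_mul, ← map_intCast (MvPolynomial.C : ℤ →+* _)]
      refine (MvPolynomial.totalDegree_mul _ _).trans ?_
      rw [MvPolynomial.totalDegree_C, MvPolynomial.totalDegree_X]
    have h1 : (((p ^ S : ℕ) : MvPolynomial (Fin 4) ℤ) * g).totalDegree ≤ 3 := by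
      rw [← hg, cubic]
      refine MvPolynomial.totalDegree_finsetSum_le fun i _ =>
        MvPolynomial.totalDegree_finsetSum_le fun j _ =>
          MvPolynomial.totalDegree_finsetSum_le fun k _ => ?_
      refine (MvPolynomial.totalDegree_mul _ _).trans ?_
      rw [tmap, eq_intCast, ← map_intCast (MvPolynomial.C : ℤ →+* MvPolynomial (Fin 4) ℤ),
        MvPolynomial.totalDegree_C, zero_add]
      refine (MvPolynomial.totalDegree_mul _ _).trans ?_
      exact (Nat.add_le_add ((MvPolynomial.totalDegree_mul _ _).trans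
        (Nat.add_le_add (hx i) (hx j))) (hx k)).trans (by norm_num)
    rw [← map_natCast (MvPolynomial.C : ℤ →+* MvPolynomial (Fin 4) ℤ)] at h1
    refine le_trans (Finset.sup_mono ?_) h1
    intro m hm
    rw [MvPolynomial.mem_support_iff, MvPolynomial.coeff_C_mul]
    exact mul_ne_zero hps (MvPolynomial.mem_support_iff.1 hm)
  have heval : ∀ t : Fin 4 → ℤ, ((p ^ S : ℕ) : ℤ) * MvPolynomial.eval t g =
      cubic c (∑ a, t a • w a) := fun t => by
    rw [← map_natCast (MvPolynomial.eval t), ← map_mul, ← hg,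
      ← cubic_map _ _ (MvPolynomial.eval t)]
    congr 1
    · funext i j k; simp [tmap]
    · funext i
      simp [Finset.sum_apply]
  obtain ⟨f, hf⟩ : ∃ f, f = MvPolynomial.map (Int.castRingHom (ZMod p)) g := ⟨_, rfl⟩
  have hlift : ∀ x : Fin 4 → ZMod p, MvPolynomial.eval x f =
      ((MvPolynomial.eval (fun a => ((x a).val : ℤ)) g : ℤ) : ZMod p) := fun x => by
    rw [hf, MvPolynomial.eval_map, ← eq_intCast (Int.castRingHom (ZMod p)),
      MvPolynomial.eval₂_comp]
    congr 1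
    funext a
    simp
  have hfd : f.totalDegree < Fintype.card (Fin 4) := by
    rw [Fintype.card_fin, hf]
    exact lt_of_le_of_lt ((Finset.sup_mono
      (MvPolynomial.support_map_subset _ _)).trans hdeg) (by norm_num)
  have hdvd := char_dvd_card_solutions p hfd
  have h0 : MvPolynomial.eval (0 : Fin 4 → ZMod p) f = 0 := by
    have := heval fun a => (((0 : Fin 4 → ZMod p) a).val : ℤ)
    simp [cubic_zero, hp.out.ne_zero] at this
    rw [hlift]
    simp [this]
  obtain ⟨⟨x, hx⟩, hx0⟩ := Fintype.exists_ne_of_one_lt_card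
    (lt_of_lt_of_le hp.out.one_lt (Nat.le_of_dvd (Fintype.card_pos_iff.2 ⟨⟨0, h0⟩⟩) hdvd))
    ⟨0, h0⟩
  refine ⟨x, fun e => hx0 (Subtype.ext e), ?_⟩
  rw [hlift, ZMod.intCast_zmod_eq_zero_iff_dvd] at hx
  have := mul_dvd_mul_left ((p ^ S : ℕ) : ℤ) hx
  rw [heval] at this
  push_cast at this
  rwa [pow_succ]

theorem exists_natCard_eq {A : Type*} [AddCommGroup A] {p : ℕ} [Fact p.Prime] [Module (ZMod p) A]
    (h : Module.rank (ZMod p) A ≤ (3 : ℕ)) : ∃ m ≤ 3, Nat.card A = p ^ m := by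
  have : Module.Finite (ZMod p) A :=
    IsNoetherian.iff_fg.1 (IsNoetherian.iff_rank_lt_aleph0.2
      (h.trans_lt Cardinal.natCast_lt_aleph0))
  refine ⟨_, Module.finrank_le_of_rank_le h, ?_⟩
  rw [Module.natCard_eq_pow_finrank (K := ZMod p), Nat.card_zmod]

/-- A lattice of index `p ^ D` on which level `S` holds, with `3 D + k ≤ n S`. -/
def LatticeState (c : ι → ι → ι → ℤ) (p k : ℕ) : Prop :=
  ∃ (Λ : AddSubgroup (ι → ℤ)) (D S : ℕ), Λ.index = p ^ D ∧ LatticeLevel c p S Λ ∧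
    3 * D + k ≤ Fintype.card ι * S

/-- A point which lifts. -/
def LiftablePoint (c : ι → ι → ι → ℤ) (p : ℕ) : Prop :=
  ∃ (Λ : AddSubgroup (ι → ℤ)) (D S : ℕ) (u w : ι → ℤ), Λ.index = p ^ D ∧ LatticeLevel c p S Λ ∧
    u ∈ Λ ∧ w ∈ Λ ∧ (p : ℤ) ^ (S + 1) ∣ cubic c u ∧ ¬(p : ℤ) ^ (S + 1) ∣ polar c u w

theorem LatticeState.pow_le {k K : ℕ} (hp : p.Prime) (hK : PowerBound c p K)
    (h : LatticeState c p k) : p ^ k ≤ K ^ Fintype.card ι := by
  classical
  obtain ⟨Λ, D, S, hidx, hlev, hle⟩ := h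
  have hp0 := hp.pos
  rcases Nat.eq_zero_or_pos (Fintype.card ι) with hn | hn
  · rw [hn] at hle ⊢
    simp only [zero_mul, nonpos_iff_eq_zero, add_eq_zero] at hle
    simp [hle.2]
  have hex : ∃ Y, p ^ D < (Y + 1) ^ Fintype.card ι :=
    ⟨p ^ D, (Nat.lt_succ_self _).trans_le (Nat.le_self_pow hn.ne' _)⟩
  obtain ⟨X, hX⟩ : ∃ X, X = Nat.find hex := ⟨_, rfl⟩
  have hX1 : p ^ D < (X + 1) ^ Fintype.card ι := hX ▸ Nat.find_spec hex
  have hX2 : X ^ Fintype.card ι ≤ p ^ D := by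
    rcases Nat.eq_zero_or_pos X with h0 | h0
    · rw [h0, zero_pow hn.ne']
      exact Nat.zero_le _
    · have := Nat.find_min hex (show X - 1 < Nat.find hex by rw [← hX]; omega)
      rwa [not_lt, Nat.sub_add_cancel h0] at this
  have : Finite ((ι → ℤ) ⧸ Λ) := Nat.finite_of_card_ne_zero (by
    rw [← AddSubgroup.index_eq_card, hidx]; exact pow_ne_zero _ hp.ne_zero)
  obtain ⟨a, b, hab, hne⟩ : ∃ a b : ι → Fin (X + 1),
      (QuotientAddGroup.mk (fun i => ((a i : ℕ) : ℤ)) : (ι → ℤ) ⧸ Λ) =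
        QuotientAddGroup.mk (fun i => ((b i : ℕ) : ℤ)) ∧ a ≠ b := by
    by_contra hcon
    push Not at hcon
    have := Nat.card_le_card_of_injective _ (fun a b e => hcon a b e)
    rw [Nat.card_fun, Nat.card_fin, Nat.card_eq_fintype_card, ← AddSubgroup.index_eq_card,
      hidx] at this
    omega
  rw [QuotientAddGroup.eq] at hab
  obtain ⟨v, hv⟩ : ∃ v, v = -(fun i => ((a i : ℕ) : ℤ)) + fun i => ((b i : ℕ) : ℤ) := ⟨_, rfl⟩
  rw [← hv] at hab
  have hv0 : v ≠ 0 := fun h0 => hne <| funext fun i => Fin.ext <| by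
    have := congrFun h0 i
    rw [hv] at this
    simp only [Pi.add_apply, Pi.neg_apply, Pi.zero_apply] at this
    omega
  have hb := hK X S v hv0 (fun i => by
    rw [hv]
    simp only [Pi.add_apply, Pi.neg_apply]
    have := (a i).isLt
    have := (b i).isLt
    omega) (hlev.cubic_dvd v hab)
  refine le_of_mul_le_mul_left ?_ (pow_pos hp0 (3 * D))
  calc p ^ (3 * D) * p ^ k = p ^ (3 * D + k) := (pow_add _ _ _).symm
    _ ≤ p ^ (Fintype.card ι * S) := Nat.pow_le_pow_right hp0 hle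
    _ = (p ^ S) ^ Fintype.card ι := by rw [← pow_mul, mul_comm]
    _ ≤ (K * X ^ 3) ^ Fintype.card ι := Nat.pow_le_pow_left hb _
    _ = K ^ Fintype.card ι * (X ^ Fintype.card ι) ^ 3 := by
      rw [mul_pow, ← pow_mul, ← pow_mul, mul_comm 3]
    _ ≤ K ^ Fintype.card ι * (p ^ D) ^ 3 := by gcongr
    _ = p ^ (3 * D) * K ^ Fintype.card ι := by rw [← pow_mul, mul_comm, mul_comm D]

/-- **The singular step.** -/
theorem LatticeState.succ {k : ℕ} (hp : p.Prime) (hn : 10 ≤ Fintype.card ι)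
    (hsing : ¬LiftablePoint c p) (h : LatticeState c p k) : LatticeState c p (k + 1) := by
  classical
  obtain ⟨Λ, D, S, hidx, hlev, hle⟩ := h
  have : Fact p.Prime := ⟨hp⟩
  have hpol : ∀ u ∈ Λ, (p : ℤ) ^ (S + 1) ∣ cubic c u →
      ∀ w ∈ Λ, (p : ℤ) ^ (S + 1) ∣ polar c u w :=
    fun u hu hd w hw => not_not.1 fun hn' => hsing ⟨Λ, D, S, u, w, hidx, hlev, hu, hw, hd, hn'⟩
  obtain ⟨V, hV⟩ : ∃ V : AddSubgroup (ι → ℤ), ∀ x,
      x ∈ V ↔ x ∈ Λ ∧ (p : ℤ) ^ (S + 1) ∣ cubic c x := by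
    refine ⟨⟨⟨⟨{x | x ∈ Λ ∧ (p : ℤ) ^ (S + 1) ∣ cubic c x}, fun {x y} hx hy => ?_⟩,
      ⟨zero_mem Λ, by simp [cubic_zero]⟩⟩, fun {x} hx => ?_⟩, fun x => Iff.rfl⟩
    · refine ⟨add_mem hx.1 hy.1, ?_⟩
      rw [cubic_add]
      exact dvd_add (dvd_add (dvd_add hx.2 (hpol x hx.1 hx.2 y hy.1)) (hpol y hy.1 hy.2 x hx.1))
        hy.2
    · refine ⟨neg_mem hx.1, ?_⟩
      rw [cubic_neg]
      exact dvd_neg.2 hx.2
  have hlev' : LatticeLevel c p (S + 1) V := by
    refine ⟨fun x hx => ((hV x).1 hx).2,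
      fun x hx y hy => hpol x ((hV x).1 hx).1 ((hV x).1 hx).2 y ((hV y).1 hy).1,
      fun x hx y hy z hz => ?_⟩
    have h1 := hpol _ ((hV _).1 (add_mem hx hy)).1 ((hV _).1 (add_mem hx hy)).2 z ((hV z).1 hz).1
    rw [polar_add_left, dvd_add_right] at h1
    · exact h1
    exact dvd_add (hpol x ((hV x).1 hx).1 ((hV x).1 hx).2 z ((hV z).1 hz).1)
      (hpol y ((hV y).1 hy).1 ((hV y).1 hy).2 z ((hV z).1 hz).1)
  obtain ⟨W, hW⟩ : ∃ W, W = V.addSubgroupOf Λ := ⟨_, rfl⟩
  have hmul : ∀ x : Λ ⧸ W, p • x = 0 := fun x => by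
    obtain ⟨y, rfl⟩ := QuotientAddGroup.mk_surjective x
    rw [← QuotientAddGroup.mk_nsmul, QuotientAddGroup.eq_zero_iff, hW,
      AddSubgroup.mem_addSubgroupOf, hV]
    refine ⟨(p • y).2, ?_⟩
    rw [AddSubgroupClass.coe_nsmul, show p • (y : ι → ℤ) = (p : ℤ) • (y : ι → ℤ) from
      (natCast_zsmul (y : ι → ℤ) p).symm, cubic_smul]
    calc (p : ℤ) ^ (S + 1) ∣ (p : ℤ) ^ (3 + S) := pow_dvd_pow _ (by omega)
      _ ∣ _ := by rw [pow_add]; exact mul_dvd_mul_left _ (hlev.cubic_dvd _ y.2)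
  let : Module (ZMod p) (Λ ⧸ W) := AddCommGroup.zmodModule hmul
  have hrank : Module.rank (ZMod p) (Λ ⧸ W) ≤ (3 : ℕ) := by
    refine rank_le fun s hs => ?_
    by_contra hcard
    obtain ⟨t, hts, ht⟩ := exists_subset_card_eq (show 4 ≤ s.card by omega)
    obtain ⟨e⟩ : Nonempty (Fin 4 ≃ t) := ⟨(finCongr ht.symm).trans t.equivFin.symm⟩
    have hli : LinearIndependent (ZMod p) fun a => ((e a : t) : Λ ⧸ W) :=
      hs.comp (fun a => ⟨(e a : Λ ⧸ W), hts (e a).2⟩) fun a b hab => e.injective <|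
        Subtype.ext (Subtype.mk.injEq .. ▸ hab)
    choose w hw using fun a => QuotientAddGroup.mk_surjective ((e a : t) : Λ ⧸ W)
    obtain ⟨x, hx0, hx⟩ :=
      hlev.exists_combination (fun a => ((w a : Λ) : ι → ℤ)) fun a => (w a).2
    refine hx0 (funext fun a => ?_)
    refine Fintype.linearIndependent_iff.1 hli x ?_ a
    have hmem : (∑ a, (x a).val • w a) ∈ W := by
      rw [hW, AddSubgroup.mem_addSubgroupOf, hV]
      refine ⟨SetLike.coe_mem _, ?_⟩
      simpa [AddSubgroup.val_finsetSum, natCast_zsmul] using hx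
    rw [← QuotientAddGroup.eq_zero_iff, QuotientAddGroup.mk_sum] at hmem
    rw [← hmem]
    refine sum_congr rfl fun b _ => ?_
    rw [QuotientAddGroup.mk_nsmul, hw, ← Nat.cast_smul_eq_nsmul (ZMod p), ZMod.natCast_zmod_val]
  obtain ⟨m, hm, hcard⟩ := exists_natCard_eq hrank
  refine ⟨V, D + m, S + 1, ?_, hlev', ?_⟩
  · rw [← AddSubgroup.relIndex_mul_index (show V ≤ Λ from fun x hx => ((hV x).1 hx).1),
      AddSubgroup.relIndex, ← hW, AddSubgroup.index_eq_card, hcard, hidx, ← pow_add, add_comm]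
  · rw [mul_add (Fintype.card ι), mul_one]
    omega

/-- **A point which lifts exists.** -/
theorem exists_liftablePoint {K : ℕ} (hp : p.Prime) (hn : 10 ≤ Fintype.card ι)
    (hK : PowerBound c p K) : LiftablePoint c p := by
  by_contra hsing
  have h : ∀ k, LatticeState c p k := fun k => by
    induction k with
    | zero =>
      exact ⟨⊤, 0, 0, by simp, ⟨by simp, by simp, by simp⟩, by simp⟩
    | succ k ih => exact ih.succ hp hn hsing
  exact absurd ((h (K ^ Fintype.card ι)).pow_le hp hK) (not_le.2 (Nat.lt_pow_self hp.one_lt))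

end FA.CubicForms
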