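import Fermat.Agent.CubicForms.Major

/-!
# Davenport's theorem

A cubic form with rational coefficients in at least sixteen variables has a nonzero integer zero:
without one, the sum over the grid `h / P ^ 4` of the exponential sums is `P ^ 4`, but the major
arcs give a multiple of `P ^ (n + 1)` and the minor arcs are smaller.
-/

set_option autoImplicit false

noncomputable section

namespace FA.CubicForms

open Finset FA.ThreePrimes FA.WaringAsymptotic Filter Topology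

variable {n : ℕ}

theorem arcPoint_lt {M : ℕ} (hM : 0 < M) (z : Σ _ : ℕ, ℕ) (o : ℤ) : arcPoint M z o < M := by
  rw [arcPoint, Int.toNat_lt (Int.emod_nonneg _ (Int.natCast_ne_zero.2 hM.ne'))]
  exact Int.emod_lt_of_pos _ (Int.natCast_pos.2 hM)

theorem sum_grid_cubicSum (c : Fin n → Fin n → Fin n → ℤ)
    (hc : ∀ x : Fin n → ℤ, cubic c x = 0 → x = 0) {P : ℕ} (hP : coefSize c < P) :
    ∑ h ∈ range (P ^ 4), cubicSum c P ((h : ℝ) / ((P ^ 4 : ℕ) : ℝ)) = ((P ^ 4 : ℕ) : ℂ) := by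
  simp only [cubicSum]
  rw [sum_comm]
  rw [sum_congr rfl (g := fun x : Fin n → ℤ => if x = 0 then ((P ^ 4 : ℕ) : ℂ) else 0)
      fun x hx => ?_,
    sum_ite_eq', if_pos (mem_cbox.2 fun i => by simp)]
  rw [sum_congr rfl fun (h : ℕ) _ => show eAdd ((h : ℝ) / ((P ^ 4 : ℕ) : ℝ) * (cubic c x : ℤ)) =
    eAdd (((cubic c x : ℤ) : ℝ) * h / ((P ^ 4 : ℕ) : ℝ)) by ring_nf,
    sum_eAdd_grid (pow_pos (by omega) 4)]
  refine if_congr ⟨fun hd => hc x (Int.eq_zero_of_abs_lt_dvd hd ?_), fun h => ?_⟩ rfl rfl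
  · refine (abs_cubic_le c (mem_cbox.1 hx)).trans_lt ?_
    push_cast
    calc (coefSize c : ℤ) * ((P : ℤ) * P * P) < (P : ℤ) * ((P : ℤ) * P * P) :=
          mul_lt_mul_of_pos_right (Int.ofNat_lt.2 hP) (by
            have : (0 : ℤ) < P := Int.natCast_pos.2 (by omega)
            positivity)
      _ = _ := by ring
  · rw [h, cubic_zero]; exact dvd_zero _

/-- **Cubic forms in at least sixteen variables.** -/
theorem exists_cubic_zero (hn : 16 ≤ n) (c : Fin n → Fin n → Fin n → ℤ) :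
    ∃ x : Fin n → ℤ, x ≠ 0 ∧ cubic c x = 0 := by
  classical
  by_contra hcon
  have hc : ∀ x : Fin n → ℤ, cubic c x = 0 → x = 0 := fun x hx =>
    by_contra fun h0 => hcon ⟨x, h0, hx⟩
  obtain ⟨e, he⟩ : ∃ e : ℝ, e = 1 / (16 * (n : ℝ)) := ⟨_, rfl⟩
  have hn0 : (16 : ℝ) ≤ n := by exact_mod_cast hn
  have he0 : 0 < e := he ▸ by positivity
  have he1 : e ≤ 1 / 256 := by rw [he, div_le_div_iff₀ (by positivity) (by norm_num)]; linarith
  obtain ⟨σ, hσ⟩ : ∃ σ, σ = (∑' q, seriesTerm c q).re := ⟨_, rfl⟩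
  have hσ0 : 0 < σ := hσ ▸ series_re_pos hc hn
  obtain ⟨C₆, hC₆, -, htail⟩ := exists_series_tail hc hn he
  obtain ⟨C₃, hC₃, hminor⟩ := exists_minor_bound hc hn he
  obtain ⟨C₄, hC₄, hmajor⟩ := exists_major_sum (c := c)
  obtain ⟨η, C₅, hη, hC₅, K, hint⟩ := exists_arcIntegral_ge hc hn
  obtain ⟨L₀, hL₀, hlog⟩ := exists_log_le (δ := e / (16 * ((n : ℝ) + 2))) (by positivity)
  obtain ⟨B, hB⟩ : ∃ B : ℝ, B = 2 * L₀ ^ (n + 2) * (C₆ / σ + C₅ / η + 1) + 1 := ⟨_, rfl⟩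
  obtain ⟨A, hA⟩ : ∃ A : ℝ, A = C₃ * (2 * L₀ ^ (n + 2)) + C₄ + 1 := ⟨_, rfl⟩
  have hA0 : 0 < A := hA ▸ by positivity
  have hB0 : 0 < B := hB ▸ by positivity
  obtain ⟨κ, hκ⟩ : ∃ κ : ℝ, κ = min (1 / (2 * B)) (σ * η / (8 * A)) := ⟨_, rfl⟩
  have hκ0 : 0 < κ := hκ ▸ lt_min (by positivity) (by positivity)
  obtain ⟨P, hPκ, hPbig⟩ := ((((tendsto_rpow_neg_atTop (show 0 < e / 16 by positivity)).comp
    tendsto_natCast_atTop_atTop).eventually (eventually_le_nhds hκ0)).and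
    (eventually_ge_atTop (coefSize c + K * K + 8))).exists
  simp only [Function.comp] at hPκ
  have hP0 : (1 : ℝ) ≤ P := by exact_mod_cast (show 1 ≤ P by omega)
  have hP' : (0 : ℝ) < P := by linarith
  obtain ⟨W, hW⟩ : ∃ W, W = ⌊(P : ℝ) ^ ((1 : ℝ) / 8)⌋₊ := ⟨_, rfl⟩
  have hW1 : 1 ≤ W := hW ▸ Nat.le_floor (by simpa using Real.one_le_rpow hP0 (by norm_num))
  have hW0 : (1 : ℝ) ≤ W := by exact_mod_cast hW1
  have hWle : (W : ℝ) ≤ (P : ℝ) ^ ((1 : ℝ) / 8) := hW ▸ Nat.floor_le (by positivity)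
  have hWge : (P : ℝ) ^ ((1 : ℝ) / 8) ≤ 2 * W := by
    have h1 := Nat.lt_floor_add_one ((P : ℝ) ^ ((1 : ℝ) / 8))
    rw [← hW] at h1
    linarith
  have hW8 : W ^ 8 ≤ P := by
    have : (W : ℝ) ^ 8 ≤ P := by
      refine (pow_le_pow_left₀ (Nat.cast_nonneg _) hWle 8).trans (le_of_eq ?_)
      rw [← Real.rpow_natCast _ 8, ← Real.rpow_mul hP'.le]
      norm_num
    exact_mod_cast this
  have hW4 : W ^ 4 ≤ P := (Nat.pow_le_pow_right hW1 (by norm_num)).trans hW8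
  have hW2 : W ^ 2 ≤ P := (Nat.pow_le_pow_right hW1 (by norm_num)).trans hW8
  have hKW : K * W ≤ P := by
    have h1 : (K * W) ^ 2 ≤ P ^ 2 := by
      rw [mul_pow, sq P]
      exact Nat.mul_le_mul (by rw [sq]; omega) hW2
    exact (Nat.pow_le_pow_iff_left two_ne_zero).1 h1
  obtain ⟨ε, hε⟩ : ∃ ε : ℝ, ε = (P : ℝ) ^ (-(e / 16)) := ⟨_, rfl⟩
  rw [← hε] at hPκ
  have hε0 : 0 < ε := hε ▸ by positivity
  have hL : (1 + Real.log P) ^ (n + 2) ≤ L₀ ^ (n + 2) * (P : ℝ) ^ (e / 16) := by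
    refine (pow_le_pow_left₀ (by linarith [Real.log_nonneg hP0]) (hlog _ hP0) _).trans (le_of_eq ?_)
    rw [mul_pow, ← Real.rpow_natCast ((P : ℝ) ^ _) (n + 2), ← Real.rpow_mul hP'.le]
    congr 2
    push_cast
    field_simp
  have hL1 : (1 : ℝ) ≤ 1 + Real.log P := by linarith [Real.log_nonneg hP0]
  have hWe : (W : ℝ) ^ (-e) ≤ 2 * (P : ℝ) ^ (-(e / 8)) := by
    have h1 : ((P : ℝ) ^ ((1 : ℝ) / 8) / 2) ^ (e) ≤ (W : ℝ) ^ e :=
      Real.rpow_le_rpow (by positivity) (by linarith) he0.le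
    rw [Real.div_rpow (by positivity) two_pos.le, ← Real.rpow_mul hP'.le,
      show (1 : ℝ) / 8 * e = e / 8 by ring] at h1
    rw [Real.rpow_neg (by linarith), Real.rpow_neg hP'.le, ← div_eq_mul_inv,
      inv_le_iff_one_le_mul₀ (by positivity)]
    rw [div_le_iff₀ (by positivity)] at h1
    have h2 : (2 : ℝ) ^ e ≤ 2 := by
      calc (2 : ℝ) ^ e ≤ (2 : ℝ) ^ (1 : ℝ) :=
            Real.rpow_le_rpow_of_exponent_le one_le_two (by linarith)
        _ = 2 := Real.rpow_one 2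
    rw [div_mul_eq_mul_div, one_le_div (by positivity)]
    nlinarith [show 0 < (W : ℝ) ^ e by positivity]
  have hsplit : (P : ℝ) ^ (e / 16) * (P : ℝ) ^ (-(e / 8)) = ε := by
    rw [hε, ← Real.rpow_add hP']; ring_nf
  have hLW : (1 + Real.log P) ^ (n + 2) * (W : ℝ) ^ (-e) ≤ 2 * L₀ ^ (n + 2) * ε := by
    calc (1 + Real.log P) ^ (n + 2) * (W : ℝ) ^ (-e)
        ≤ (L₀ ^ (n + 2) * (P : ℝ) ^ (e / 16)) * (2 * (P : ℝ) ^ (-(e / 8))) := by gcongr
      _ = _ := by rw [← hsplit]; ring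
  have hW6 : (W : ℝ) ^ (-e) ≤ 2 * L₀ ^ (n + 2) * ε :=
    le_trans (le_mul_of_one_le_left (by positivity) (one_le_pow₀ hL1)) hLW
  have hLW5 : (1 + Real.log P) ^ (n + 1) / W ≤ 2 * L₀ ^ (n + 2) * ε := by
    refine le_trans ?_ hLW
    rw [div_eq_mul_inv, ← Real.rpow_neg_one]
    exact mul_le_mul (pow_le_pow_right₀ hL1 (by omega))
      (Real.rpow_le_rpow_of_exponent_le hW0 (by linarith)) (by positivity) (by positivity)
  have hW5 : (W : ℝ) ^ 5 ≤ (P : ℝ) * ε := by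
    calc (W : ℝ) ^ 5 ≤ ((P : ℝ) ^ ((1 : ℝ) / 8)) ^ 5 :=
          pow_le_pow_left₀ (Nat.cast_nonneg _) hWle 5
      _ = (P : ℝ) ^ ((5 : ℝ) / 8) := by
          rw [← Real.rpow_natCast _ 5, ← Real.rpow_mul hP'.le]; norm_num
      _ ≤ (P : ℝ) ^ (1 + -(e / 16)) := Real.rpow_le_rpow_of_exponent_le hP0 (by linarith)
      _ = _ := by rw [Real.rpow_add hP', Real.rpow_one, hε]
  obtain ⟨X, hX⟩ : ∃ X, X = (P : ℝ) ^ (n + 1) := ⟨_, rfl⟩
  have hX0 : 0 < X := hX ▸ by positivity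
  have hP4 : ((P ^ 4 : ℕ) : ℝ) ≤ X * ε := by
    push_cast
    rw [hX, hε, ← Real.rpow_natCast (P : ℝ) (n + 1), ← Real.rpow_add hP',
      ← Real.rpow_natCast (P : ℝ) 4]
    refine Real.rpow_le_rpow_of_exponent_le hP0 ?_
    push_cast
    linarith
  have hκ1 : B * ε ≤ 1 / 2 := by
    have := mul_le_mul_of_nonneg_left (hPκ.trans (hκ ▸ min_le_left _ _)) hB0.le
    rw [show B * (1 / (2 * B)) = 1 / 2 by field_simp] at this
    exact this
  have hκ2 : A * ε ≤ σ * η / 8 := by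
    have := mul_le_mul_of_nonneg_left (hPκ.trans (hκ ▸ min_le_right _ _)) hA0.le
    rw [show A * (σ * η / (8 * A)) = σ * η / 8 by field_simp] at this
    exact this
  have hrat : 2 * L₀ ^ (n + 2) * (C₆ / σ) * ε ≤ 1 / 2 ∧
      2 * L₀ ^ (n + 2) * (C₅ / η) * ε ≤ 1 / 2 := by
    have h0 : 0 ≤ 2 * L₀ ^ (n + 2) * ε := by positivity
    have h6 : 0 ≤ C₆ / σ := by positivity
    have h5 : 0 ≤ C₅ / η := by positivity
    rw [hB] at hκ1
    constructor <;> nlinarith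
  have hC6σ : C₆ * (W : ℝ) ^ (-e) ≤ σ / 2 := by
    calc C₆ * (W : ℝ) ^ (-e) ≤ C₆ * (2 * L₀ ^ (n + 2) * ε) := by gcongr
      _ = σ * (2 * L₀ ^ (n + 2) * (C₆ / σ) * ε) := by field_simp
      _ ≤ σ * (1 / 2) := mul_le_mul_of_nonneg_left hrat.1 hσ0.le
      _ = _ := by ring
  have hC5η : C₅ * (1 + Real.log P) ^ (n + 1) * X / W ≤ η / 2 * X := by
    calc C₅ * (1 + Real.log P) ^ (n + 1) * X / W
        = C₅ * ((1 + Real.log P) ^ (n + 1) / W) * X := by ring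
      _ ≤ C₅ * (2 * L₀ ^ (n + 2) * ε) * X := by gcongr
      _ = η * (2 * L₀ ^ (n + 2) * (C₅ / η) * ε) * X := by field_simp
      _ ≤ η * (1 / 2) * X := by gcongr; exact hrat.2
      _ = _ := by ring
  -- the three parts
  obtain ⟨J, hJ⟩ : ∃ J, J = arcIntegral c P (W * P + 1) := ⟨_, rfl⟩
  obtain ⟨T, hT⟩ : ∃ T, T = ∑ q ∈ Icc 1 W, seriesTerm c q := ⟨_, rfl⟩
  have hJre : η / 2 * X ≤ J.re := by
    have := hint P W hW1 hKW hW2
    rw [← hJ, ← hX] at this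
    linarith
  have hTre : σ / 2 ≤ T.re := by
    have h1 := ((Complex.abs_re_le_norm _).trans (htail W hW1)).trans hC6σ
    rw [Complex.sub_re, ← hσ, ← hT] at h1
    linarith [(abs_le.1 h1).2]
  have hsub : majorSet P W ⊆ range (P ^ 4) := by
    intro h hh
    obtain ⟨zo, -, rfl⟩ := mem_image.1 hh
    exact mem_range.2 (arcPoint_lt (pow_pos (by omega) 4) _ _)
  obtain ⟨f, hf⟩ : ∃ f : ℕ → ℂ, f = fun h : ℕ => cubicSum c P ((h : ℝ) / ((P ^ 4 : ℕ) : ℝ)) :=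
    ⟨_, rfl⟩
  have htot : ∑ h ∈ range (P ^ 4) \ majorSet P W, f h + ∑ h ∈ majorSet P W, f h =
      ((P ^ 4 : ℕ) : ℂ) := by
    rw [sum_sdiff hsub, hf]
    exact sum_grid_cubicSum c hc (by omega)
  have hmin : ‖∑ h ∈ range (P ^ 4) \ majorSet P W, f h‖ ≤ C₃ * (2 * L₀ ^ (n + 2)) * ε * X := by
    rw [hf]
    refine (norm_sum_le _ _).trans ((hminor P W (by omega) hW1).trans ?_)
    rw [← hX, show C₃ * (1 + Real.log P) ^ (n + 2) * X * (W : ℝ) ^ (-e) =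
      C₃ * ((1 + Real.log P) ^ (n + 2) * (W : ℝ) ^ (-e)) * X by ring,
      mul_assoc C₃ (2 * L₀ ^ (n + 2))]
    gcongr
  have hmaj : ‖∑ h ∈ majorSet P W, f h - T * J‖ ≤ C₄ * ε * X := by
    rw [hf, hT, hJ]
    refine (hmajor P W hW1 (by omega) hW4).trans ?_
    calc C₄ * (W : ℝ) ^ 5 * P * (P : ℝ) ^ (n - 1)
        ≤ C₄ * ((P : ℝ) * ε) * P * (P : ℝ) ^ (n - 1) := by gcongr
      _ = C₄ * ε * ((P : ℝ) ^ (n - 1) * (P : ℝ) ^ 2) := by ring
      _ = _ := by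
          rw [hX, ← pow_add]
          congr 2
          omega
  have hTJ : σ / 2 * (η / 2 * X) ≤ (T * J).re := by
    rw [Complex.mul_re, hJ, arcIntegral_im, mul_zero, sub_zero, ← hJ]
    exact mul_le_mul hTre hJre (by positivity) (by linarith)
  have hre := congrArg Complex.re htot
  rw [Complex.add_re, Complex.natCast_re] at hre
  have h1 := (abs_le.1 ((Complex.abs_re_le_norm _).trans hmin)).1
  have h2 := (abs_le.1 ((Complex.abs_re_le_norm _).trans hmaj)).1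
  rw [Complex.sub_re] at h2
  have h3 : A * ε * X ≤ σ * η / 8 * X := mul_le_mul_of_nonneg_right hκ2 hX0.le
  rw [hA] at h3
  have hσηX : 0 < σ * η * X := by positivity
  linarith

/-- **Davenport**: cubic forms over `ℚ`. -/
theorem exists_rat_form_zero (hn : 16 ≤ n) (F : MvPolynomial (Fin n) ℚ) (hF : F.IsHomogeneous 3) :
    ∃ x : Fin n → ℤ, x ≠ 0 ∧ MvPolynomial.eval (fun i => (x i : ℚ)) F = 0 := by
  obtain ⟨c, hc⟩ := exists_tensor F hF
  obtain ⟨⟨D, hD⟩, hint⟩ := IsLocalization.exist_integer_multiples_of_finite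
    (nonZeroDivisors ℤ) (S := ℚ) fun t : Fin n × Fin n × Fin n => c t.1 t.2.1 t.2.2
  choose y hy using hint
  obtain ⟨x, hx0, hx⟩ := exists_cubic_zero hn fun i j k => y (i, j, k)
  refine ⟨x, hx0, ?_⟩
  have e : tmap (Int.castRingHom ℚ) (fun i j k => y (i, j, k)) =
      fun i j k => (D : ℚ) * c i j k := by
    funext i j k
    simpa [tmap, Algebra.smul_def] using hy (i, j, k)
  have := congrArg (Int.castRingHom ℚ) hx
  rw [← cubic_map, map_zero, e, cubic_mul_tensor, mul_eq_zero] at this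
  rw [← hc]
  exact this.resolve_left (Int.cast_ne_zero.2 (nonZeroDivisors.ne_zero hD))

end FA.CubicForms
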