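import Fermat.Agent.CubicForms.Levels
import Fermat.Agent.ThreePrimes.Circle
import Mathlib.NumberTheory.DiophantineApproximation.Basic
import Mathlib.Analysis.SpecialFunctions.Log.Basic

/-!
# The minor arcs

On the grid `h / P ^ 4` the major arcs are the `W P + 1` steps to either side of the fractions with
denominator at most `W`. Off them a point has an approximation with `q > W` or `P ^ 3 |β| > W`, and
is counted by the bound at one fraction when `P ^ 3 |β| > q ^ e`, by the average otherwise.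
-/

set_option autoImplicit false

noncomputable section

namespace FA.CubicForms

open Finset FA.ThreePrimes

variable {n : ℕ} (c : Fin n → Fin n → Fin n → ℤ)

/-- The point `o` steps from a centre. -/
def arcPoint (M : ℕ) (z : Σ _ : ℕ, ℕ) (o : ℤ) : ℕ :=
  ((round (centre z * (M : ℝ)) + o) % (M : ℤ)).toNat

/-- The major arcs. -/
def majorSet (P W : ℕ) : Finset ℕ :=
  (arcCentres W ×ˢ Icc (-((W * P + 1 : ℕ) : ℤ)) (W * P + 1 : ℕ)).image
    fun zo => arcPoint (P ^ 4) zo.1 zo.2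

theorem far_of_not_major {P W h : ℕ} (hP : 1 ≤ P) (hh : h < P ^ 4) (hmem : h ∉ majorSet P W)
    {z : Σ _ : ℕ, ℕ} (hz : z ∈ arcCentres W) :
    (W : ℝ) / (P : ℝ) ^ 3 < nearDist ((h : ℝ) / ((P ^ 4 : ℕ) : ℝ) - centre z) := by
  by_contra hcon
  rw [not_lt] at hcon
  obtain ⟨M, hM⟩ : ∃ M : ℝ, M = ((P ^ 4 : ℕ) : ℝ) := ⟨_, rfl⟩
  have hP0 : (0 : ℝ) < P := Nat.cast_pos.2 hP
  have hM0 : 0 < M := by rw [hM]; push_cast; positivity
  obtain ⟨k, hk⟩ : ∃ k, k = round ((h : ℝ) / M - centre z) := ⟨_, rfl⟩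
  rw [nearDist, ← hM, ← hk] at hcon
  obtain ⟨o, ho⟩ : ∃ o : ℤ, o = (h : ℤ) - k * (P ^ 4 : ℕ) - round (centre z * M) := ⟨_, rfl⟩
  have hoR : |(o : ℝ)| < ((W * P + 1 : ℕ) : ℝ) + 1 := by
    have e : (o : ℝ) = ((h : ℝ) / M - centre z - k) * M +
        (centre z * M - round (centre z * M)) := by
      rw [ho]; push_cast; rw [hM]; push_cast; field_simp; ring
    rw [e]
    refine (abs_add_le _ _).trans_lt ?_
    rw [abs_mul, abs_of_pos hM0]
    have h1 := mul_le_mul_of_nonneg_right hcon hM0.le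
    have h2 : (W : ℝ) / (P : ℝ) ^ 3 * M = W * P := by rw [hM]; push_cast; field_simp
    have h3 := abs_sub_round (centre z * M)
    push_cast
    linarith
  refine hmem (mem_image.2 ⟨(z, o), mem_product.2 ⟨hz, mem_Icc.2 (abs_le.1 ?_)⟩, ?_⟩)
  · rw [← Int.lt_add_one_iff]
    exact_mod_cast hoR
  · rw [arcPoint, ← hM]
    simp only
    rw [show round (centre z * M) + o = (h : ℤ) + (-k) * (P ^ 4 : ℕ) by rw [ho]; ring,
      Int.add_mul_emod_self_right, Int.emod_eq_of_lt (Int.natCast_nonneg h) (Int.ofNat_lt.2 hh),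
      Int.toNat_natCast]

theorem exists_approx (α : ℝ) {N : ℕ} (hN : 0 < N) : ∃ (q a : ℕ) (β : ℝ) (z : ℤ), 1 ≤ q ∧ q ≤ N ∧
    a < q ∧ q.Coprime a ∧ α = (a : ℝ) / q + β + z ∧ |β| ≤ 1 / (((N : ℝ) + 1) * q) := by
  obtain ⟨r, hr, hden⟩ := Real.exists_rat_abs_sub_le_and_den_le α hN
  have hd : (0 : ℤ) < r.den := Int.natCast_pos.2 r.pos
  obtain ⟨a, ha⟩ : ∃ a : ℕ, (a : ℤ) = r.num % (r.den : ℤ) :=
    ⟨_, Int.toNat_of_nonneg (Int.emod_nonneg _ hd.ne')⟩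
  refine ⟨r.den, a, α - r, r.num / (r.den : ℤ), r.pos, hden, ?_, ?_, ?_, hr⟩
  · have := Int.emod_lt_of_pos r.num hd
    omega
  · refine (Int.isCoprime_iff_nat_coprime.1 (?_ : IsCoprime (a : ℤ) (r.den : ℤ))).symm
    rw [ha, Int.emod_def, sub_eq_add_neg, ← mul_neg]
    exact IsCoprime.add_mul_left_left (Int.isCoprime_iff_nat_coprime.2 (by simpa using r.reduced)) _
  · have e : (r : ℝ) = (a : ℝ) / (r.den : ℝ) + ((r.num / (r.den : ℤ) : ℤ) : ℝ) := by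
      rw [Rat.cast_def, show (a : ℝ) = ((a : ℤ) : ℝ) by simp, ha, Int.emod_def]
      push_cast
      have : (r.den : ℝ) ≠ 0 := Nat.cast_ne_zero.2 r.den_nz
      field_simp
      ring
    rw [e]
    ring

theorem card_near_le {M : ℕ} (hM : 0 < M) (S : Finset ℕ) (hS : ∀ h ∈ S, h < M) (x B : ℝ)
    (hB : 0 ≤ B) (hnear : ∀ h ∈ S, ∃ z : ℤ, |(h : ℝ) / M - x - z| ≤ B) :
    (S.card : ℝ) ≤ 2 * B * M + 2 := by
  classical
  have hM' : (0 : ℝ) < M := Nat.cast_pos.2 hM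
  choose! z hz using hnear
  obtain ⟨T, hT⟩ : ∃ T, T = Icc ⌈(x - B) * M⌉ ⌊(x + B) * M⌋ := ⟨_, rfl⟩
  have hcard : S.card ≤ T.card := by
    refine card_le_card_of_injOn (fun h => (h : ℤ) - z h * M) (fun h hh => ?_)
      fun h hh g hg e => ?_
    · obtain ⟨h1, h2⟩ := abs_le.1 (hz h hh)
      have e : ((h : ℝ) / M - x - z h) * M = (h : ℝ) - z h * M - x * M := by field_simp; ring
      have h3 := mul_le_mul_of_nonneg_right h1 hM'.le
      have h4 := mul_le_mul_of_nonneg_right h2 hM'.le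
      rw [e] at h3 h4
      rw [hT]
      refine mem_coe.2 (mem_Icc.2 ⟨Int.ceil_le.2 ?_, Int.le_floor.2 ?_⟩)
      all_goals push_cast; linarith
    · simp only at e
      have h1 : (M : ℤ) ∣ (h : ℤ) - g := ⟨z h - z g, by linarith⟩
      have := Int.eq_zero_of_abs_lt_dvd h1 (by
        have := hS h hh; have := hS g hg; rw [abs_lt]; omega)
      omega
  refine (Nat.cast_le.2 hcard).trans ?_
  rw [hT, Int.card_Icc]
  have h1 := Int.floor_le ((x + B) * M)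
  have h2 := Int.le_ceil ((x - B) * M)
  rcases le_or_gt (⌊(x + B) * M⌋ + 1 - ⌈(x - B) * M⌉) 0 with h | h
  · rw [Int.toNat_eq_zero.2 h, Nat.cast_zero]
    positivity
  · rw [show (((⌊(x + B) * M⌋ + 1 - ⌈(x - B) * M⌉).toNat : ℕ) : ℝ) =
      ((⌊(x + B) * M⌋ + 1 - ⌈(x - B) * M⌉ : ℤ) : ℝ) by
        exact_mod_cast Int.toNat_of_nonneg h.le]
    push_cast
    linarith

theorem natLog_le {N : ℕ} (hN : 1 ≤ N) : (Nat.log 2 N : ℝ) ≤ 2 * Real.log N := by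
  have h1 : ((2 : ℝ) ^ Nat.log 2 N) ≤ N := by
    exact_mod_cast Nat.pow_log_le_self 2 (by omega)
  have h2 := Real.log_le_log (by positivity) h1
  rw [Real.log_pow] at h2
  have := Real.log_two_gt_d9
  nlinarith [(Nat.cast_nonneg (Nat.log 2 N) : (0 : ℝ) ≤ _)]

variable {c}

/-- **The sum over the minor arcs.** -/
theorem exists_minor_bound (hc : ∀ x : Fin n → ℤ, cubic c x = 0 → x = 0) (hn : 16 ≤ n) {e : ℝ}
    (he : e = 1 / (16 * (n : ℝ))) : ∃ C : ℝ, 0 < C ∧ ∀ P W : ℕ, 1 ≤ P → 1 ≤ W →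
      ∑ h ∈ range (P ^ 4) \ majorSet P W, ‖cubicSum c P ((h : ℝ) / ((P ^ 4 : ℕ) : ℝ))‖ ≤
        C * (1 + Real.log P) ^ (n + 2) * (P : ℝ) ^ (n + 1) * (W : ℝ) ^ (-e) := by
  classical
  obtain ⟨C₁, hC₁, hpoint⟩ := exists_pointwise hc hn
  obtain ⟨C₂, hC₂, havg⟩ := exists_average hc hn he
  refine ⟨7 * (8 * C₂) + 49 * (96 * C₁), by positivity, fun P W hP hW => ?_⟩
  have hn0 : (16 : ℝ) ≤ n := by exact_mod_cast hn
  have he0 : 0 < e := he ▸ by positivity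
  have he1 : e ≤ 1 := by rw [he, div_le_one (by positivity)]; linarith
  have hP0 : (1 : ℝ) ≤ P := by exact_mod_cast hP
  have hW0 : (1 : ℝ) ≤ W := by exact_mod_cast hW
  have hP3 : (0 : ℝ) < (P : ℝ) ^ 3 := by positivity
  have hlog := Real.log_nonneg hP0
  obtain ⟨L, hL⟩ : ∃ L, L = 1 + Real.log P := ⟨_, rfl⟩
  rw [← hL]
  have hL1 : 1 ≤ L := by rw [hL]; linarith
  obtain ⟨N, hN⟩ : ∃ N, N = (P ^ 3).sqrt := ⟨_, rfl⟩
  have hN0 : 0 < N := hN ▸ Nat.sqrt_pos.2 (by positivity)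
  have hN2 : (N : ℝ) ^ 2 ≤ (P : ℝ) ^ 3 := by exact_mod_cast (hN ▸ Nat.sqrt_le' (P ^ 3))
  have hN3 : (P : ℝ) ^ 3 ≤ ((N : ℝ) + 1) ^ 2 := by
    exact_mod_cast (hN ▸ (Nat.lt_succ_sqrt' (P ^ 3)).le : P ^ 3 ≤ (N + 1) ^ 2)
  choose q a β z hq hqN ha hco hrep hβ using fun h : ℕ =>
    exists_approx ((h : ℝ) / ((P ^ 4 : ℕ) : ℝ)) hN0
  obtain ⟨S, hS⟩ : ∃ S, S = range (P ^ 4) \ majorSet P W := ⟨_, rfl⟩
  rw [← hS]
  obtain ⟨f, hf⟩ : ∃ f : ℕ → ℝ, f = fun h => ‖cubicSum c P ((a h : ℝ) / q h + β h)‖ := ⟨_, rfl⟩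
  have hfS : ∀ h : ℕ, ‖cubicSum c P ((h : ℝ) / ((P ^ 4 : ℕ) : ℝ))‖ = f h := fun h => by
    rw [hf, cubicSum_congr c P (hrep h)]
  simp only [hfS]
  have hfar : ∀ h ∈ S, q h ≤ W → (W : ℝ) < (P : ℝ) ^ 3 * |β h| := by
    intro h hh hqW
    rw [hS, mem_sdiff, mem_range] at hh
    have h1 := far_of_not_major hP hh.1 hh.2 (z := ⟨q h, a h⟩)
      (mem_arcCentres.2 ⟨⟨hq h, hqW⟩, ha h, hco h⟩)
    rw [hrep h, centre, add_sub_right_comm, nearDist_add_intCast, add_sub_cancel_left] at h1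
    have h2 := h1.trans_le (by simpa using nearDist_le_abs_sub (β h) 0)
    rw [div_lt_iff₀ hP3] at h2
    linarith
  have hT : ∀ h, (q h, a h) ∈ dyadicFractions (2 ^ Nat.log 2 (q h)) := fun h => by
    have h1 := Nat.pow_log_le_self 2 (show q h ≠ 0 by have := hq h; omega)
    have h2 := Nat.lt_pow_succ_log_self one_lt_two (q h)
    rw [pow_succ'] at h2
    simp only [dyadicFractions, mem_filter, mem_product, mem_Ico, mem_range]
    exact ⟨⟨⟨h1, h2⟩, (ha h).trans h2⟩, ha h, hco h⟩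
  obtain ⟨Qr, hQr⟩ : ∃ Qr : ℕ → ℝ, Qr = fun i => ((2 ^ i : ℕ) : ℝ) := ⟨_, rfl⟩
  have hQr1 : ∀ i, 1 ≤ Qr i := fun i => by
    simp only [hQr]; exact_mod_cast Nat.one_le_two_pow
  have hQq : ∀ h, Qr (Nat.log 2 (q h)) ≤ q h ∧ (q h : ℝ) ≤ 2 * Qr (Nat.log 2 (q h)) := fun h => by
    obtain ⟨⟨⟨h1, h2⟩, -⟩, -⟩ := (by
      simpa only [dyadicFractions, mem_filter, mem_product, mem_Ico, mem_range] using hT h :
      ((2 ^ Nat.log 2 (q h) ≤ q h ∧ q h < 2 * 2 ^ Nat.log 2 (q h)) ∧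
        a h < 2 * 2 ^ Nat.log 2 (q h)) ∧ a h < q h ∧ (q h).Coprime (a h))
    simp only [hQr]
    exact ⟨Nat.cast_le.2 h1, by exact_mod_cast h2.le⟩
  obtain ⟨Λ, hΛ⟩ : ∃ Λ, Λ = Nat.log 2 (P ^ 3) + 1 := ⟨_, rfl⟩
  have hΛL : (Λ : ℝ) ≤ 7 * L := by
    rw [hΛ]
    have := natLog_le (show 1 ≤ P ^ 3 from Nat.one_le_pow _ _ hP)
    push_cast at this ⊢
    rw [Real.log_pow] at this
    rw [hL]
    push_cast at this
    linarith
  have hiΛ : ∀ h, Nat.log 2 (q h) < Λ := fun h => hΛ ▸ Nat.lt_succ_of_le (Nat.log_mono_right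
    ((hqN h).trans (hN ▸ Nat.sqrt_le_self _)))
  have hW2 : ((W : ℝ) / 2) ^ (-e) ≤ 2 * (W : ℝ) ^ (-e) := by
    rw [Real.div_rpow (by linarith) two_pos.le, Real.rpow_neg two_pos.le, div_inv_eq_mul, mul_comm]
    refine mul_le_mul_of_nonneg_right ?_ (by positivity)
    calc (2 : ℝ) ^ e ≤ (2 : ℝ) ^ (1 : ℝ) := Real.rpow_le_rpow_of_exponent_le one_le_two he1
      _ = 2 := Real.rpow_one 2
  have hWe : (W : ℝ) ^ e ≤ W := by
    calc (W : ℝ) ^ e ≤ (W : ℝ) ^ (1 : ℝ) := Real.rpow_le_rpow_of_exponent_le hW0 he1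
      _ = W := Real.rpow_one _
  have hnearfib : ∀ (T : Finset ℕ), T ⊆ S → ∀ B : ℝ, 0 ≤ B → (∀ h ∈ T, (P : ℝ) ^ 3 * |β h| ≤ B) →
      ∀ t, ((T.filter fun h => (q h, a h) = t).card : ℝ) ≤ 2 * B * P + 2 := by
    intro T hTS B hB hbd t
    refine (card_near_le (pow_pos hP 4) _ (fun h hh => ?_) ((t.2 : ℝ) / t.1) (B / (P : ℝ) ^ 3)
      (by positivity) fun h hh => ?_).trans (le_of_eq ?_)
    · have := hTS (mem_filter.1 hh).1
      rw [hS, mem_sdiff, mem_range] at this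
      exact this.1
    · obtain ⟨hh1, rfl⟩ := mem_filter.1 hh
      refine ⟨z h, ?_⟩
      rw [hrep h, add_sub_right_comm, add_sub_cancel_right, add_sub_cancel_left, le_div_iff₀ hP3,
        mul_comm]
      exact hbd h hh1
    · push_cast
      field_simp
  -- the average
  obtain ⟨SB, hSB⟩ : ∃ SB, SB =
      S.filter fun h => (P : ℝ) ^ 3 * |β h| ≤ Qr (Nat.log 2 (q h)) ^ e := ⟨_, rfl⟩
  obtain ⟨SA, hSA⟩ : ∃ SA, SA =
      S.filter fun h => ¬(P : ℝ) ^ 3 * |β h| ≤ Qr (Nat.log 2 (q h)) ^ e := ⟨_, rfl⟩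
  obtain ⟨X, hX⟩ : ∃ X, X = L ^ n * (P : ℝ) ^ (n + 1) * (W : ℝ) ^ (-e) := ⟨_, rfl⟩
  have hX0 : 0 ≤ X := hX ▸ by positivity
  have hB : ∑ h ∈ SB, f h ≤ Λ * (8 * C₂ * X) := by
    rw [← sum_fiberwise_of_maps_to (g := fun h => Nat.log 2 (q h)) (t := range Λ)
      fun h _ => mem_range.2 (hiΛ h)]
    refine (sum_le_card_nsmul _ _ (8 * C₂ * X) fun i _ => ?_).trans_eq (by
      rw [card_range, nsmul_eq_mul])
    obtain ⟨T, hTdef⟩ : ∃ T, T = SB.filter fun h => Nat.log 2 (q h) = i := ⟨_, rfl⟩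
    rw [← hTdef]
    rcases T.eq_empty_or_nonempty with h0 | ⟨h₀, hh₀⟩
    · rw [h0, sum_empty]; positivity
    have hmem : ∀ h ∈ T, h ∈ S ∧ (P : ℝ) ^ 3 * |β h| ≤ Qr i ^ e ∧ Nat.log 2 (q h) = i :=
      fun h hh => by
      rw [hTdef, hSB, mem_filter, mem_filter] at hh
      exact ⟨hh.1.1, hh.2 ▸ hh.1.2, hh.2⟩
    obtain ⟨h₀S, h₀β, h₀i⟩ := hmem h₀ hh₀
    have hQ0 := hQr1 i
    have hQe : 1 ≤ Qr i ^ e := Real.one_le_rpow hQ0 he0.le
    obtain ⟨N₀, hN₀⟩ : ∃ N₀, N₀ = ⌊2 * Qr i ^ e * P + 2⌋₊ := ⟨_, rfl⟩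
    have h1 := havg P (2 ^ i) N₀ T (fun h => (q h, a h)) β hP Nat.one_le_two_pow
      (le_trans (pow_le_pow_left₀ (Nat.cast_nonneg _) (by
        have := (hQq h₀).1
        rw [h₀i, hQr] at this
        exact this.trans (Nat.cast_le.2 (hqN h₀))) 2) hN2)
      (fun h hh => (hmem h hh).2.2 ▸ hT h)
      (fun h hh => by have := (hmem h hh).2.1; rwa [hQr] at this)
      fun t => hN₀ ▸ Nat.le_floor (hnearfib T (fun h hh => (hmem h hh).1) _
        (le_trans zero_le_one hQe) (fun h hh => (hmem h hh).2.1) t)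
    rw [hf]
    refine h1.trans ?_
    rw [← hL, show ((2 ^ i : ℕ) : ℝ) = Qr i by rw [hQr]]
    have hN₀' : (N₀ : ℝ) ≤ 4 * (Qr i ^ e * P) := by
      refine (hN₀ ▸ Nat.floor_le (by positivity)).trans ?_
      nlinarith [one_le_mul_of_one_le_of_one_le hQe hP0]
    have hsave : Qr i ^ (-e) ≤ 2 * (W : ℝ) ^ (-e) := by
      refine le_trans (Real.rpow_le_rpow_of_nonpos (by positivity) ?_ (by linarith)) hW2
      by_contra hcon
      rw [not_le] at hcon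
      have hqW : q h₀ ≤ W := by
        have h3 := (hQq h₀).2
        rw [h₀i] at h3
        exact_mod_cast (show (q h₀ : ℝ) ≤ W by linarith)
      have h4 := hfar h₀ h₀S hqW
      have h5 : Qr i ^ e ≤ (W : ℝ) ^ e := Real.rpow_le_rpow (by linarith) (by linarith) he0.le
      linarith
    have e2 : Qr i ^ e * Qr i ^ (-(2 * e)) = Qr i ^ (-e) := by
      rw [← Real.rpow_add (by linarith)]; ring_nf
    calc C₂ * N₀ * L ^ n * (P : ℝ) ^ n * Qr i ^ (-(2 * e))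
        ≤ C₂ * (4 * (Qr i ^ e * P)) * L ^ n * (P : ℝ) ^ n * Qr i ^ (-(2 * e)) := by gcongr
      _ = 4 * C₂ * (L ^ n * (P : ℝ) ^ (n + 1)) * (Qr i ^ e * Qr i ^ (-(2 * e))) := by ring
      _ ≤ 4 * C₂ * (L ^ n * (P : ℝ) ^ (n + 1)) * (2 * (W : ℝ) ^ (-e)) := by rw [e2]; gcongr
      _ = 8 * C₂ * X := by rw [hX]; ring
  -- one fraction at a time
  obtain ⟨j, hj⟩ : ∃ j : ℕ → ℕ, j = fun h => Nat.log 2 ⌊(P : ℝ) ^ 3 * |β h|⌋₊ := ⟨_, rfl⟩
  have hΦ : ∀ h, (max (q h : ℝ) ((q h : ℝ) * (P : ℝ) ^ 3 * |β h|)) ^ 2 ≤ (P : ℝ) ^ 3 := by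
    intro h
    have hq0 : (0 : ℝ) < q h := Nat.cast_pos.2 (hq h)
    have h1 : (q h : ℝ) * (P : ℝ) ^ 3 * |β h| ≤ (P : ℝ) ^ 3 / ((N : ℝ) + 1) := by
      refine (mul_le_mul_of_nonneg_left (hβ h) (by positivity)).trans (le_of_eq ?_)
      field_simp
    rcases max_cases (q h : ℝ) ((q h : ℝ) * (P : ℝ) ^ 3 * |β h|) with ⟨h2, -⟩ | ⟨h2, -⟩
    · rw [h2]
      exact (pow_le_pow_left₀ hq0.le (Nat.cast_le.2 (hqN h)) 2).trans hN2
    · rw [h2]
      refine (pow_le_pow_left₀ (by positivity) h1 2).trans ?_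
      rw [div_pow, div_le_iff₀ (by positivity), sq ((P : ℝ) ^ 3)]
      exact mul_le_mul_of_nonneg_left hN3 hP3.le
  have hjΛ : ∀ h, j h < Λ := fun h => by
    rw [hj, hΛ]
    refine Nat.lt_succ_of_le (Nat.log_mono_right (Nat.floor_le_of_le ?_))
    have h1 : |β h| ≤ 1 := (hβ h).trans (by
      rw [div_le_one (by have := hq h; positivity)]
      exact one_le_mul_of_one_le_of_one_le (by linarith [(Nat.cast_nonneg N : (0 : ℝ) ≤ N)])
        (by exact_mod_cast hq h))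
    push_cast
    exact mul_le_of_le_one_right hP3.le h1
  have hA : ∑ h ∈ SA, f h ≤ (Λ * Λ : ℕ) * (96 * C₁ * X) := by
    rw [← sum_fiberwise_of_maps_to (g := fun h => (Nat.log 2 (q h), j h))
      (t := range Λ ×ˢ range Λ) fun h _ => mem_product.2 ⟨mem_range.2 (hiΛ h), mem_range.2 (hjΛ h)⟩]
    refine (sum_le_card_nsmul _ _ (96 * C₁ * X) fun ij _ => ?_).trans_eq (by
      rw [card_product, card_range, nsmul_eq_mul])
    obtain ⟨i, k⟩ := ij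
    obtain ⟨T, hTdef⟩ : ∃ T, T = SA.filter fun h => (Nat.log 2 (q h), j h) = (i, k) := ⟨_, rfl⟩
    rw [← hTdef]
    rcases T.eq_empty_or_nonempty with h0 | ⟨h₀, hh₀⟩
    · rw [h0, sum_empty]; positivity
    obtain ⟨Bk, hBk⟩ : ∃ Bk : ℝ, Bk = ((2 ^ k : ℕ) : ℝ) := ⟨_, rfl⟩
    have hBk1 : 1 ≤ Bk := by rw [hBk]; exact_mod_cast Nat.one_le_two_pow
    have hQ0 := hQr1 i
    have hmem : ∀ h ∈ T, h ∈ S ∧ Nat.log 2 (q h) = i ∧ Qr i ^ e < (P : ℝ) ^ 3 * |β h| ∧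
        Bk ≤ (P : ℝ) ^ 3 * |β h| ∧ (P : ℝ) ^ 3 * |β h| ≤ 2 * Bk := by
      intro h hh
      rw [hTdef, hSA, mem_filter, mem_filter, Prod.mk.injEq, not_le] at hh
      obtain ⟨⟨h1, h2⟩, h3, h4⟩ := hh
      rw [h3] at h2
      have hge : (1 : ℝ) ≤ (P : ℝ) ^ 3 * |β h| :=
        (Real.one_le_rpow hQ0 he0.le).trans h2.le
      have hfl : ⌊(P : ℝ) ^ 3 * |β h|⌋₊ ≠ 0 := (Nat.floor_pos.2 hge).ne'
      simp only [hj] at h4
      have a1 := Nat.pow_log_le_self 2 hfl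
      have a2 : ⌊(P : ℝ) ^ 3 * |β h|⌋₊ + 1 ≤ 2 ^ (k + 1) :=
        h4 ▸ Nat.lt_pow_succ_log_self one_lt_two _
      rw [h4] at a1
      refine ⟨h1, h3, h2, hBk ▸ le_trans (Nat.cast_le.2 a1) (Nat.floor_le (by positivity)), ?_⟩
      refine (Nat.lt_floor_add_one _).le.trans ?_
      rw [pow_succ' 2 k] at a2
      rw [hBk]
      exact_mod_cast a2
    have hterm : ∀ h ∈ T, f h ≤ C₁ * L ^ n * (P : ℝ) ^ n / (Qr i * Bk) ^ 2 := by
      intro h hh
      obtain ⟨-, h2, -, h4, -⟩ := hmem h hh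
      have hp := hpoint P (q h) (a h : ℤ) (β h) _ hP (hq h)
        (Int.isCoprime_iff_nat_coprime.2 (by simpa using (hco h).symm)) rfl (hΦ h)
      rw [Int.cast_natCast, ← hL] at hp
      rw [hf, le_div_iff₀ (by positivity)]
      refine le_trans ?_ hp
      refine mul_le_mul_of_nonneg_left (pow_le_pow_left₀ (by positivity) ?_ 2) (norm_nonneg _)
      refine le_trans ?_ (le_max_right _ _)
      rw [mul_assoc (q h : ℝ)]
      have h5 := (hQq h).1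
      rw [h2] at h5
      exact mul_le_mul h5 h4 (by linarith) (Nat.cast_nonneg _)
    have hcard : (T.card : ℝ) ≤ 24 * (Qr i) ^ 2 * (Bk * P) := by
      have hmaps : ∀ h ∈ T, (q h, a h) ∈ dyadicFractions (2 ^ i) := fun h hh =>
        (hmem h hh).2.1 ▸ hT h
      rw [card_eq_sum_card_fiberwise hmaps, Nat.cast_sum]
      refine (sum_le_card_nsmul _ _ (6 * (Bk * P)) fun t _ => ?_).trans ?_
      · refine (hnearfib T (fun h hh => (hmem h hh).1) _ (by linarith)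
          (fun h hh => (hmem h hh).2.2.2.2) t).trans ?_
        nlinarith [one_le_mul_of_one_le_of_one_le hBk1 hP0]
      · rw [nsmul_eq_mul, show 24 * Qr i ^ 2 * (Bk * P) = 4 * Qr i ^ 2 * (6 * (Bk * P)) by ring]
        refine mul_le_mul_of_nonneg_right ?_ (by positivity)
        simp only [hQr]
        exact_mod_cast card_dyadicFractions_le (2 ^ i)
    have hsave : 1 / Bk ≤ 4 * (W : ℝ) ^ (-e) := by
      obtain ⟨h1, h2, h3, -, h5⟩ := hmem h₀ hh₀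
      have hlow : (W : ℝ) ^ e / 4 ≤ Bk := by
        rcases le_or_gt (q h₀) W with h | h
        · have := hfar h₀ h1 h
          linarith
        · have h6 := (hQq h₀).2
          rw [h2] at h6
          have h7 : (W : ℝ) ≤ q h₀ := Nat.cast_le.2 h.le
          have h8 : ((W : ℝ) / 2) ^ e ≤ Qr i ^ e :=
            Real.rpow_le_rpow (by positivity) (by linarith) he0.le
          rw [Real.div_rpow (by linarith) two_pos.le] at h8
          have h9 : (W : ℝ) ^ e / 2 ≤ (W : ℝ) ^ e / 2 ^ e := by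
            refine div_le_div_of_nonneg_left (by positivity) (by positivity) ?_
            calc (2 : ℝ) ^ e ≤ (2 : ℝ) ^ (1 : ℝ) :=
                  Real.rpow_le_rpow_of_exponent_le one_le_two he1
              _ = 2 := Real.rpow_one 2
          linarith
      rw [Real.rpow_neg (by linarith), ← div_eq_mul_inv, div_le_div_iff₀ (by linarith)
        (by positivity)]
      linarith
    refine (sum_le_card_nsmul _ _ _ hterm).trans ?_
    rw [nsmul_eq_mul]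
    calc (T.card : ℝ) * (C₁ * L ^ n * (P : ℝ) ^ n / (Qr i * Bk) ^ 2)
        ≤ 24 * (Qr i) ^ 2 * (Bk * P) * (C₁ * L ^ n * (P : ℝ) ^ n / (Qr i * Bk) ^ 2) := by gcongr
      _ = 24 * C₁ * (L ^ n * (P : ℝ) ^ (n + 1)) * (1 / Bk) := by
          field_simp
          ring
      _ ≤ 24 * C₁ * (L ^ n * (P : ℝ) ^ (n + 1)) * (4 * (W : ℝ) ^ (-e)) := by gcongr
      _ = 96 * C₁ * X := by rw [hX]; ring
  rw [← sum_filter_add_sum_filter_not S fun h => (P : ℝ) ^ 3 * |β h| ≤ Qr (Nat.log 2 (q h)) ^ e,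
    ← hSB, ← hSA]
  refine (add_le_add hB hA).trans ?_
  push_cast
  have hΛ0 : (0 : ℝ) ≤ Λ := Nat.cast_nonneg _
  have hXe : L ^ 2 * X = L ^ (n + 2) * (P : ℝ) ^ (n + 1) * (W : ℝ) ^ (-e) := by rw [hX]; ring
  calc (Λ : ℝ) * (8 * C₂ * X) + Λ * Λ * (96 * C₁ * X)
      ≤ (7 * L ^ 2) * (8 * C₂ * X) + (7 * L) * (7 * L) * (96 * C₁ * X) := by
        gcongr
        nlinarith
    _ = (7 * (8 * C₂) + 49 * (96 * C₁)) * (L ^ 2 * X) := by ring
    _ = _ := by rw [hXe]; ring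

end FA.CubicForms
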