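import Fermat.Agent.CubicForms.Series
import Fermat.Agent.CubicForms.Minor

/-!
# The major arcs

Their sum is the truncated singular series times `∑_{|o| ≤ H} V (o / M)`. This is at least the part
weighted by Fejér's kernel, which is positive and large as the form takes `≫ P ^ (n - 3) T` values
of size `T`, less a tail which is small by the bound at one fraction.
-/

set_option autoImplicit false

noncomputable section

namespace FA.CubicForms

open Finset FA.ThreePrimes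
open scoped ComplexConjugate

variable {n : ℕ} {c : Fin n → Fin n → Fin n → ℤ}

theorem cubic_single_ne_zero (hc : ∀ x : Fin n → ℤ, cubic c x = 0 → x = 0) (j : Fin n) :
    cubic c (Pi.single j 1) ≠ 0 := fun h => by simpa using congrFun (hc _ h) j

/-- **Many small values.** -/
theorem exists_small_values (hc : ∀ x : Fin n → ℤ, cubic c x = 0 → x = 0) (hn : 1 ≤ n) :
    ∃ η : ℝ, 0 < η ∧ ∃ K : ℕ, 1 ≤ K ∧ ∀ P : ℕ, 1 ≤ P → ∀ T : ℝ,
      (K : ℝ) * (P : ℝ) ^ 2 ≤ T → T ≤ (P : ℝ) ^ 3 →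
      η * (P : ℝ) ^ (n - 1) * T / (P : ℝ) ^ 2 ≤
        ((cbox n P).filter fun x => |((cubic c x : ℤ) : ℝ)| ≤ T).card := by
  classical
  obtain ⟨j, hj⟩ : ∃ j : Fin n, j = ⟨0, hn⟩ := ⟨_, rfl⟩
  obtain ⟨E, hE⟩ : ∃ E : Fin n → ℤ, E = Pi.single j 1 := ⟨_, rfl⟩
  obtain ⟨K₀, hK₀⟩ : ∃ K₀, K₀ = coefSize c := ⟨_, rfl⟩
  obtain ⟨D, hD⟩ : ∃ D, D = 19 * K₀ + 1 := ⟨_, rfl⟩
  obtain ⟨Z, hZ⟩ : ∃ Z, Z = 14 * K₀ + 1 := ⟨_, rfl⟩
  refine ⟨1 / (2 * D * (Z : ℝ) ^ (n - 1)), by rw [hD, hZ]; positivity, D, by omega,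
    fun P hP T hT hT3 => ?_⟩
  obtain ⟨m, hm⟩ : ∃ m, m = P / Z := ⟨_, rfl⟩
  have hmP : m ≤ P := hm ▸ Nat.div_le_self _ _
  have hmZ : m * Z ≤ P := hm ▸ Nat.div_mul_le_self _ _
  have hPm : P < Z * (m + 1) := hm ▸ Nat.lt_mul_div_succ P (by omega)
  have hP0 : (1 : ℝ) ≤ P := by exact_mod_cast hP
  have hD0 : (1 : ℝ) ≤ D := by exact_mod_cast (show 1 ≤ D by omega)
  obtain ⟨k, hk⟩ : ∃ k, k = ⌊T / ((D : ℝ) * (P : ℝ) ^ 2)⌋₊ := ⟨_, rfl⟩
  have hDP : (0 : ℝ) < (D : ℝ) * (P : ℝ) ^ 2 := by positivity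
  have hk1 : 1 ≤ k := hk ▸ Nat.le_floor (by rw [Nat.cast_one, one_le_div hDP]; exact hT)
  have hkP : k ≤ P := by
    rw [hk]
    refine Nat.floor_le_of_le ?_
    rw [div_le_iff₀ hDP]
    refine hT3.trans ?_
    rw [show (P : ℝ) * ((D : ℝ) * (P : ℝ) ^ 2) = D * (P : ℝ) ^ 3 by ring]
    exact le_mul_of_one_le_left (by positivity) hD0
  obtain ⟨s, hs⟩ : ∃ s, s = (cubic c E).sign := ⟨_, rfl⟩
  have hsc : 1 ≤ s * cubic c E := by
    rw [hs, Int.sign_mul_self_eq_abs]
    exact Int.one_le_abs (hE ▸ cubic_single_ne_zero hc j)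
  have hs1 : |s| ≤ 1 := by
    rw [hs]
    rcases Int.sign_eq_one_of_pos (a := cubic c E), Int.sign_eq_neg_one_of_neg (a := cubic c E) with
      ⟨h1, h2⟩
    rcases lt_trichotomy (cubic c E) 0 with h | h | h
    · rw [h2 h]; simp
    · rw [h]; simp
    · rw [h1 h]; simp
  have hEb : ∀ i, |E i| ≤ (1 : ℤ) := fun i => by
    rw [hE, Pi.single_apply]
    split_ifs <;> simp
  obtain ⟨Y, hY⟩ : ∃ Y : Finset (Fin n → ℤ), Y = Fintype.piFinset fun i =>
      if i = j then {0} else Icc (-(m : ℤ)) m := ⟨_, rfl⟩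
  have hYm : ∀ y ∈ Y, y j = 0 ∧ ∀ i, |y i| ≤ (m : ℤ) := fun y hy => by
    rw [hY, Fintype.mem_piFinset] at hy
    refine ⟨by simpa using hy j, fun i => ?_⟩
    have := hy i
    split_ifs at this with h
    · rw [mem_singleton.1 this]; simp
    · exact abs_le.2 (mem_Icc.1 this)
  have key : ∀ y ∈ Y, ∃ t₀ : ℤ, ∀ i : ℕ, i < k → |if t₀ ≤ 0 then t₀ + i else t₀ - i| ≤ (P : ℤ) ∧
      |cubic c (y + (if t₀ ≤ 0 then t₀ + i else t₀ - i) • E)| ≤
        ((i : ℤ) + 1) * (D * (P : ℤ) ^ 2) := by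
    intro y hy
    obtain ⟨-, hy2⟩ := hYm y hy
    obtain ⟨g, hg⟩ : ∃ g : ℤ → ℤ, g = fun t => cubic c (y + t • E) := ⟨_, rfl⟩
    have hK : (0 : ℤ) ≤ K₀ := Int.natCast_nonneg _
    have hlip : ∀ t : ℤ, |t| ≤ P → |g (t + 1) - g t| ≤ D * (P : ℤ) ^ 2 := by
      intro t ht
      have hv : ∀ i, |(y + t • E) i| ≤ 2 * (P : ℤ) := fun i => by
        rw [Pi.add_apply, Pi.smul_apply, smul_eq_mul]
        refine (abs_add_le _ _).trans ?_
        rw [abs_mul]
        have := mul_le_mul ht (hEb i) (abs_nonneg _) (Int.natCast_nonneg P)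
        have := hy2 i
        have : (m : ℤ) ≤ P := Int.ofNat_le.2 hmP
        linarith
      simp only [hg]
      rw [add_smul, one_smul, ← add_assoc, cubic_add]
      rw [show cubic c (y + t • E) + polar c (y + t • E) E + polar c E (y + t • E) + cubic c E -
        cubic c (y + t • E) = polar c (y + t • E) E + polar c E (y + t • E) + cubic c E by ring]
      refine (abs_add_three _ _ _).trans ?_
      have b1 := abs_polar_le c hv hEb
      have b2 := abs_polar_le c hEb hv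
      have b3 := abs_cubic_le c hEb
      rw [← hK₀] at b1 b2 b3
      have hP1 : (P : ℤ) ≤ (P : ℤ) ^ 2 := Int.le_self_sq _
      have hP2 : (1 : ℤ) ≤ (P : ℤ) ^ 2 := by nlinarith [(Int.ofNat_le.2 hP : (1 : ℤ) ≤ P)]
      have := mul_le_mul_of_nonneg_left hP1 hK
      have := mul_le_mul_of_nonneg_left hP2 hK
      have : (D : ℤ) * (P : ℤ) ^ 2 = 19 * (K₀ * (P : ℤ) ^ 2) + (P : ℤ) ^ 2 := by
        rw [hD]; push_cast; ring
      linarith
    have hsteps : ∀ (i : ℕ) (t : ℤ), |t| ≤ P → |t + i| ≤ P →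
        |g (t + i) - g t| ≤ (i : ℤ) * (D * (P : ℤ) ^ 2) := by
      intro i
      induction i with
      | zero => simp
      | succ i ih =>
        intro t h1 h2
        push_cast at h2 ⊢
        have h3 : |t + (i : ℤ)| ≤ P := by
          rw [abs_le] at h1 h2 ⊢
          constructor <;> linarith [Int.natCast_nonneg i]
        have h4 := hlip _ h3
        rw [← add_assoc]
        refine (abs_sub_le _ (g (t + i)) _).trans ?_
        have := ih t h1 h3
        rw [add_mul, one_mul]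
        linarith
    -- the sign changes
    have hend : ∀ σ : ℤ, |σ| = 1 → 0 < σ * s * g (σ * P) := by
      intro σ hσ
      have hσ2 : σ * σ = 1 := by rw [← abs_mul_abs_self, hσ, one_mul]
      have hE3 : σ * s * ((σ * P) ^ 3 * cubic c E) = (P : ℤ) ^ 3 * (s * cubic c E) := by
        calc σ * s * ((σ * P) ^ 3 * cubic c E)
            = (σ * σ) * (σ * σ) * (P : ℤ) ^ 3 * (s * cubic c E) := by ring
          _ = _ := by rw [hσ2]; ring
      simp only [hg]
      rw [cubic_add, polar_smul_right, polar_smul_left, cubic_smul, mul_add, hE3]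
      obtain ⟨err, herr⟩ : ∃ err, err = cubic c y + σ * P * polar c y E +
        (σ * P) ^ 2 * polar c E y := ⟨_, rfl⟩
      rw [← herr]
      have he : |σ * s * err| ≤ 7 * ((K₀ : ℤ) * ((m : ℤ) * (P : ℤ) ^ 2)) := by
        rw [abs_mul, abs_mul, hσ, one_mul]
        refine (mul_le_of_le_one_left (abs_nonneg _) hs1).trans ?_
        rw [herr]
        refine (abs_add_three _ _ _).trans ?_
        rw [abs_mul, abs_mul, abs_mul, abs_pow, abs_mul, hσ, one_mul, Nat.abs_cast]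
        have b1 := abs_polar_le c hy2 hEb
        have b2 := abs_polar_le c hEb hy2
        have b3 := abs_cubic_le c hy2
        rw [← hK₀] at b1 b2 b3
        have hm' : (m : ℤ) ≤ P := Int.ofNat_le.2 hmP
        have hm0 : (0 : ℤ) ≤ m := Int.natCast_nonneg _
        have hP0' : (0 : ℤ) ≤ P := Int.natCast_nonneg _
        have q1 : (m : ℤ) * m * m ≤ m * (P : ℤ) ^ 2 := by
          rw [mul_assoc, sq]; gcongr
        have q2 : (P : ℤ) * ((m : ℤ) * m * 1) ≤ m * (P : ℤ) ^ 2 := by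
          calc (P : ℤ) * ((m : ℤ) * m * 1) = m * ((P : ℤ) * m) := by ring
            _ ≤ m * ((P : ℤ) * P) := by gcongr
            _ = _ := by ring
        have := mul_le_mul_of_nonneg_left b1 hP0'
        have := mul_le_mul_of_nonneg_left b2 (pow_nonneg hP0' 2)
        have := mul_le_mul_of_nonneg_left q1 hK
        have := mul_le_mul_of_nonneg_left q2 hK
        nlinarith
      have hmP' : 14 * ((K₀ : ℤ) * m) ≤ P := by
        have : ((m * Z : ℕ) : ℤ) ≤ P := Int.ofNat_le.2 hmZ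
        rw [hZ] at this
        push_cast at this
        nlinarith
      have h3 : 7 * ((K₀ : ℤ) * ((m : ℤ) * (P : ℤ) ^ 2)) * 2 ≤ (P : ℤ) ^ 3 := by
        have := mul_le_mul_of_nonneg_right hmP' (sq_nonneg (P : ℤ))
        linarith [show (P : ℤ) * (P : ℤ) ^ 2 = (P : ℤ) ^ 3 by ring]
      have h4 : (1 : ℤ) ≤ (P : ℤ) ^ 3 := one_le_pow₀ (Int.ofNat_le.2 hP)
      have h5 := le_mul_of_one_le_right (show (0 : ℤ) ≤ (P : ℤ) ^ 3 by positivity) hsc
      have := (abs_le.1 he).1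
      linarith
    have hex : ∃ i : ℕ, i ≤ 2 * P ∧ 0 ≤ s * g (-(P : ℤ) + i) := ⟨2 * P, le_rfl, by
      have := hend 1 abs_one
      rw [one_mul, one_mul] at this
      push_cast
      rw [show -(P : ℤ) + 2 * P = P by ring]
      exact this.le⟩
    obtain ⟨i₀, hi₀⟩ : ∃ i₀, i₀ = Nat.find hex := ⟨_, rfl⟩
    obtain ⟨hi1, hi2⟩ := hi₀ ▸ Nat.find_spec hex
    have hneg := hend (-1) (by norm_num)
    rw [neg_one_mul, neg_one_mul, neg_mul, neg_pos] at hneg
    have hi0 : i₀ ≠ 0 := fun h0 => by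
      rw [h0, Nat.cast_zero, add_zero] at hi2
      linarith
    have hmin := Nat.find_min hex (show i₀ - 1 < Nat.find hex by omega)
    rw [not_and, not_le] at hmin
    have hi3 := hmin (by omega)
    obtain ⟨t₀, ht₀⟩ : ∃ t₀, t₀ = -(P : ℤ) + i₀ := ⟨_, rfl⟩
    rw [← ht₀] at hi2
    rw [show -(P : ℤ) + ((i₀ - 1 : ℕ) : ℤ) = t₀ - 1 by rw [ht₀]; omega] at hi3
    have hb₀ : |t₀| ≤ P := by rw [abs_le]; omega
    have hb₁ : |t₀ - 1| ≤ P := by rw [abs_le] at hb₀ ⊢; omega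
    have hl := hlip (t₀ - 1) hb₁
    rw [sub_add_cancel] at hl
    have hg0 : |g t₀| ≤ D * (P : ℤ) ^ 2 := by
      rcases lt_trichotomy (cubic c E) 0 with h | h | h
      · rw [hs, Int.sign_eq_neg_one_of_neg h] at hi2 hi3
        rw [abs_le] at hl ⊢
        constructor <;> linarith
      · exact absurd h (hE ▸ cubic_single_ne_zero hc j)
      · rw [hs, Int.sign_eq_one_of_pos h] at hi2 hi3
        rw [abs_le] at hl ⊢
        constructor <;> linarith
    refine ⟨t₀, fun i hi => ?_⟩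
    have hiP : (i : ℤ) ≤ P := Int.ofNat_le.2 (hi.le.trans hkP)
    rw [abs_le] at hb₀
    by_cases h0 : t₀ ≤ 0
    · rw [if_pos h0]
      have hb : |t₀ + (i : ℤ)| ≤ P := by rw [abs_le]; omega
      refine ⟨hb, ?_⟩
      have h := hsteps i t₀ (abs_le.2 hb₀) hb
      rw [show cubic c (y + (t₀ + (i : ℤ)) • E) = g (t₀ + i) by rw [hg]]
      calc |g (t₀ + i)| ≤ |g t₀| + |g (t₀ + i) - g t₀| := by
            have := abs_add_le (g t₀) (g (t₀ + i) - g t₀)
            rwa [add_sub_cancel] at this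
        _ ≤ _ := by linarith
    · rw [if_neg h0]
      have hb : |t₀ - (i : ℤ)| ≤ P := by rw [abs_le]; omega
      refine ⟨hb, ?_⟩
      have h := hsteps i (t₀ - i) hb (by rw [sub_add_cancel]; exact abs_le.2 hb₀)
      rw [sub_add_cancel, abs_sub_comm] at h
      rw [show cubic c (y + (t₀ - (i : ℤ)) • E) = g (t₀ - i) by rw [hg]]
      calc |g (t₀ - i)| ≤ |g t₀| + |g (t₀ - i) - g t₀| := by
            have := abs_add_le (g t₀) (g (t₀ - i) - g t₀)
            rwa [add_sub_cancel] at this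
        _ ≤ _ := by linarith
  choose! t₀ ht₀ using key
  obtain ⟨τ, hτ⟩ : ∃ τ : (Fin n → ℤ) × ℕ → ℤ,
      τ = fun z => if t₀ z.1 ≤ 0 then t₀ z.1 + z.2 else t₀ z.1 - z.2 := ⟨_, rfl⟩
  have hcard : (Y ×ˢ range k).card ≤
      ((cbox n P).filter fun x => |((cubic c x : ℤ) : ℝ)| ≤ T).card := by
    refine card_le_card_of_injOn (fun z => z.1 + τ z • E) (fun z hz => ?_) fun z hz w hw e => ?_
    · obtain ⟨hz1, hz2⟩ := mem_product.1 hz
      obtain ⟨h1, h2⟩ := ht₀ _ hz1 _ (mem_range.1 hz2)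
      obtain ⟨hy1, hy2⟩ := hYm _ hz1
      rw [show (if t₀ z.1 ≤ 0 then t₀ z.1 + (z.2 : ℤ) else t₀ z.1 - (z.2 : ℤ)) = τ z by rw [hτ]]
        at h1 h2
      refine mem_coe.2 (mem_filter.2 ⟨mem_cbox.2 fun i => ?_, ?_⟩)
      · simp only [Pi.add_apply, Pi.smul_apply, smul_eq_mul, hE, Pi.single_apply]
        split_ifs with hij
        · rw [hij, hy1, zero_add, mul_one]; exact h1
        · rw [mul_zero, add_zero]
          exact (hy2 i).trans (Int.ofNat_le.2 hmP)
      · have h3 : ((z.2 : ℝ) + 1) ≤ k := by exact_mod_cast mem_range.1 hz2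
        refine le_trans (show _ ≤ ((z.2 : ℝ) + 1) * ((D : ℝ) * (P : ℝ) ^ 2) by exact_mod_cast h2) ?_
        refine (mul_le_mul_of_nonneg_right h3 hDP.le).trans ?_
        rw [← le_div_iff₀ hDP, hk]
        exact Nat.floor_le (div_nonneg (le_trans (by positivity) hT) hDP.le)
    · obtain ⟨hz1, hz2⟩ := mem_product.1 hz
      obtain ⟨hw1, hw2⟩ := mem_product.1 hw
      have ej := congrFun e j
      simp only [Pi.add_apply, Pi.smul_apply, smul_eq_mul, hE, Pi.single_eq_same, (hYm _ hz1).1,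
        (hYm _ hw1).1, zero_add, mul_one] at ej
      have e1 : z.1 = w.1 := funext fun i => by
        have ei := congrFun e i
        simp only [Pi.add_apply, Pi.smul_apply, smul_eq_mul, hE, ej] at ei
        linarith
      refine Prod.ext e1 ?_
      simp only [hτ, ← e1] at ej
      split_ifs at ej <;> omega
  refine le_trans ?_ (Nat.cast_le.2 hcard)
  rw [card_product, card_range]
  have hYc : Y.card = (2 * m + 1) ^ (n - 1) := by
    rw [hY, Fintype.card_piFinset, ← mul_prod_erase univ _ (mem_univ j), if_pos rfl, card_singleton,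
      one_mul, prod_congr rfl fun i hi => by rw [if_neg (ne_of_mem_erase hi)], prod_const,
      card_erase_of_mem (mem_univ j), card_univ, Fintype.card_fin, Int.card_Icc]
    congr 1
    omega
  have hkT : T / ((D : ℝ) * (P : ℝ) ^ 2) ≤ 2 * (k : ℝ) := by
    have h1 := Nat.lt_floor_add_one (T / ((D : ℝ) * (P : ℝ) ^ 2))
    rw [← hk] at h1
    have : (1 : ℝ) ≤ k := by exact_mod_cast hk1
    linarith
  have hYP : ((P : ℝ) / Z) ^ (n - 1) ≤ (Y.card : ℝ) := by
    rw [hYc, Nat.cast_pow]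
    refine pow_le_pow_left₀ (by positivity) ?_ _
    rw [div_le_iff₀ (by rw [hZ]; positivity)]
    exact_mod_cast (show P ≤ (2 * m + 1) * Z by nlinarith)
  push_cast
  calc 1 / (2 * (D : ℝ) * (Z : ℝ) ^ (n - 1)) * (P : ℝ) ^ (n - 1) * T / (P : ℝ) ^ 2
      = ((P : ℝ) / Z) ^ (n - 1) * (T / ((D : ℝ) * (P : ℝ) ^ 2) / 2) := by
        rw [div_pow]; field_simp
    _ ≤ (Y.card : ℝ) * (k : ℝ) :=
        mul_le_mul hYP (by linarith) (by
          have : 0 ≤ T := le_trans (by positivity) hT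
          positivity) (Nat.cast_nonneg _)

variable (c) in
/-- The sum along an arc. -/
def arcIntegral (P H : ℕ) : ℂ :=
  ∑ o ∈ Icc (-(H : ℤ)) H, cubicSum c P ((o : ℝ) / ((P ^ 4 : ℕ) : ℝ))

variable (c) in
theorem arcIntegral_im (P H : ℕ) : (arcIntegral c P H).im = 0 := by
  refine Complex.conj_eq_iff_im.1 ?_
  rw [arcIntegral, map_sum]
  refine sum_nbij' (fun o => -o) (fun o => -o) (fun o ho => ?_) (fun o ho => ?_)
    (fun o _ => neg_neg o) (fun o _ => neg_neg o) fun o _ => ?_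
  · rw [mem_Icc] at ho ⊢; omega
  · rw [mem_Icc] at ho ⊢; omega
  · simp only [cubicSum, map_sum]
    refine sum_congr rfl fun x _ => ?_
    rw [conj_eAdd]
    push_cast
    ring_nf

theorem fejer_eq (H : ℕ) (t : ℝ) :
    ∑ o ∈ Icc (-(H : ℤ)) H, (((H : ℤ) + 1 - |o| : ℤ) : ℂ) * eAdd ((o : ℝ) * t) =
      ((‖∑ k ∈ Icc (0 : ℤ) H, eAdd ((k : ℝ) * t)‖ ^ 2 : ℝ) : ℂ) := by
  push_cast
  rw [← Complex.mul_conj', map_sum, sum_mul_sum, ← sum_product',
    ← sum_fiberwise_of_maps_to (g := fun z : ℤ × ℤ => z.1 - z.2) (t := Icc (-(H : ℤ)) H)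
      fun z hz => by simp only [mem_product, mem_Icc] at hz ⊢; omega]
  refine sum_congr rfl fun o ho => ?_
  rw [mem_Icc] at ho
  rw [sum_congr rfl (g := fun _ => eAdd ((o : ℝ) * t)) fun z hz => by
    rw [conj_eAdd, ← eAdd_add, ← (mem_filter.1 hz).2]
    push_cast
    ring_nf, sum_const, nsmul_eq_mul]
  congr 1
  rw [card_nbij' (t := Icc (max 0 o) (min (H : ℤ) ((H : ℤ) + o))) (fun z => z.1)
    (fun k => (k, k - o)) (fun z hz => by
      simp only [coe_filter, Set.mem_ofPred_eq, mem_product, mem_Icc] at hz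
      simp only [mem_coe, mem_Icc]
      omega)
    (fun k hk => by
      simp only [mem_coe, mem_Icc] at hk
      simp only [coe_filter, Set.mem_ofPred_eq, mem_product, mem_Icc]
      omega)
    (fun z hz => by
      simp only [coe_filter, Set.mem_ofPred_eq] at hz
      ext
      · simp
      · simp only; omega)
    (fun k _ => rfl), Int.card_Icc]
  have e : ((H : ℤ) + 1 - |o|) = (((min (H : ℤ) ((H : ℤ) + o)) + 1 - max 0 o).toNat : ℤ) := by
    rcases abs_cases o with ⟨h1, h2⟩ | ⟨h1, h2⟩ <;> omega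
  have e' := congrArg (fun x : ℤ => (x : ℂ)) e
  push_cast at e'
  exact e'

theorem sum_inv_abs_le (H : ℕ) :
    ∑ o ∈ (Icc (-(H : ℤ)) H).filter (fun o => o ≠ 0), (1 : ℝ) / |(o : ℝ)| ≤
      2 * (1 + Real.log H) := by
  have e : (Icc (-(H : ℤ)) H).filter (fun o => o ≠ 0) =
      ((range H).image fun i : ℕ => ((i : ℤ) + 1)) ∪
        (range H).image fun i : ℕ => -((i : ℤ) + 1) := by
    ext o
    simp only [mem_filter, mem_Icc, mem_union, mem_image, mem_range]
    constructor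
    · intro ho
      rcases lt_or_gt_of_ne ho.2 with h | h
      · exact Or.inr ⟨(-o - 1).toNat, by omega, by omega⟩
      · exact Or.inl ⟨(o - 1).toNat, by omega, by omega⟩
    · rintro (⟨i, hi, rfl⟩ | ⟨i, hi, rfl⟩) <;> omega
  rw [e, sum_union (disjoint_left.2 fun o h1 h2 => by
    simp only [mem_image, mem_range] at h1 h2
    obtain ⟨i, -, rfl⟩ := h1
    obtain ⟨k, -, hk⟩ := h2
    omega), sum_image (fun a _ b _ h => by simpa using h),
    sum_image (fun a _ b _ h => by simpa using h)]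
  have e1 : ∀ i : ℕ, |(((i : ℤ) + 1 : ℤ) : ℝ)| = (i : ℝ) + 1 := fun i => by
    push_cast; exact abs_of_pos (by positivity)
  have e2 : ∀ i : ℕ, |((-((i : ℤ) + 1) : ℤ) : ℝ)| = (i : ℝ) + 1 := fun i => by
    rw [Int.cast_neg, abs_neg, e1]
  simp only [e1, e2]
  have h := harmonic_le_one_add_log H
  rw [harmonic] at h
  push_cast at h
  simp only [one_div]
  linarith

/-- **The singular integral.** -/
theorem exists_arcIntegral_ge (hc : ∀ x : Fin n → ℤ, cubic c x = 0 → x = 0) (hn : 16 ≤ n) :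
    ∃ η C : ℝ, 0 < η ∧ 0 < C ∧ ∃ K : ℕ, ∀ P W : ℕ, 1 ≤ W → K * W ≤ P → W ^ 2 ≤ P →
      η * (P : ℝ) ^ (n + 1) - C * (1 + Real.log P) ^ (n + 1) * (P : ℝ) ^ (n + 1) / W ≤
        (arcIntegral c P (W * P + 1)).re := by
  classical
  obtain ⟨η, hη, K, hK, hsmall⟩ := exists_small_values hc (by omega)
  obtain ⟨C₁, hC₁, hpoint⟩ := exists_pointwise hc hn
  refine ⟨(1 / 100) * (η / 24), 20 * C₁, by positivity, by positivity, 24 * K + 8,
    fun P W hW hKP hW2 => ?_⟩
  have hP8 : 8 ≤ P := le_trans (by nlinarith) hKP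
  have hP : 1 ≤ P := by omega
  have hP0 : (1 : ℝ) ≤ P := by exact_mod_cast hP
  have hW0 : (1 : ℝ) ≤ W := by exact_mod_cast hW
  obtain ⟨H, hH⟩ : ∃ H, H = W * P + 1 := ⟨_, rfl⟩
  rw [← hH]
  have hHW : (H : ℝ) + 1 ≤ 3 * (W * P) := by
    have : (1 : ℝ) ≤ (W : ℝ) * P := one_le_mul_of_one_le_of_one_le hW0 hP0
    rw [hH]; push_cast; linarith
  have hHW' : (W : ℝ) * P ≤ (H : ℝ) + 1 := by rw [hH]; push_cast; linarith
  obtain ⟨M, hM⟩ : ∃ M : ℝ, M = ((P ^ 4 : ℕ) : ℝ) := ⟨_, rfl⟩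
  have hM' : M = (P : ℝ) ^ 4 := by rw [hM]; push_cast; rfl
  have hM0 : 0 < M := by rw [hM']; positivity
  have hL : (1 : ℝ) ≤ 1 + Real.log P := by linarith [Real.log_nonneg hP0]
  -- Fejér
  obtain ⟨F, hF⟩ : ∃ F : (Fin n → ℤ) → ℝ, F = fun x =>
      ‖∑ k ∈ Icc (0 : ℤ) H, eAdd ((k : ℝ) * (((cubic c x : ℤ) : ℝ) / M))‖ ^ 2 := ⟨_, rfl⟩
  have hid : (((H : ℤ) + 1 : ℤ) : ℂ) * arcIntegral c P H = ((∑ x ∈ cbox n P, F x : ℝ) : ℂ) +
      ∑ o ∈ Icc (-(H : ℤ)) H, ((|o| : ℤ) : ℂ) * cubicSum c P ((o : ℝ) / M) := by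
    rw [Complex.ofReal_sum, sum_congr rfl fun x _ => (by rw [hF, fejer_eq] :
      ((F x : ℝ) : ℂ) = ∑ o ∈ Icc (-(H : ℤ)) H, (((H : ℤ) + 1 - |o| : ℤ) : ℂ) *
        eAdd ((o : ℝ) * (((cubic c x : ℤ) : ℝ) / M))), sum_comm, ← sum_add_distrib, arcIntegral,
      mul_sum, ← hM]
    refine sum_congr rfl fun o _ => ?_
    rw [← mul_sum, show ∑ x ∈ cbox n P, eAdd ((o : ℝ) * (((cubic c x : ℤ) : ℝ) / M)) =
      cubicSum c P ((o : ℝ) / M) from
        sum_congr rfl fun x _ => by rw [mul_div_assoc', div_mul_eq_mul_div]]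
    push_cast
    ring
  have hre := congrArg Complex.re hid
  rw [Complex.add_re, Complex.ofReal_re, Complex.re_sum, Complex.mul_re, Complex.intCast_re,
    Complex.intCast_im, zero_mul, sub_zero] at hre
  -- the small values
  obtain ⟨T, hT⟩ : ∃ T : ℝ, T = (P : ℝ) ^ 3 / (24 * W) := ⟨_, rfl⟩
  have hT1 : (K : ℝ) * (P : ℝ) ^ 2 ≤ T := by
    rw [hT, le_div_iff₀ (by positivity)]
    have : ((24 * K * W : ℕ) : ℝ) ≤ P := by
      exact_mod_cast le_trans (Nat.mul_le_mul_right W (Nat.le_add_right (24 * K) 8)) hKP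
    push_cast at this
    nlinarith
  have hT2 : T ≤ (P : ℝ) ^ 3 := by
    rw [hT]; exact div_le_self (by positivity) (by linarith)
  have hlow : (1 / 100) * ((H : ℝ) + 1) ^ 2 * (η * (P : ℝ) ^ (n - 1) * T / (P : ℝ) ^ 2) ≤
      ∑ x ∈ cbox n P, F x := by
    refine le_trans (mul_le_mul_of_nonneg_left (hsmall P hP T hT1 hT2) (by positivity)) ?_
    refine le_trans ?_ (sum_le_sum_of_subset_of_nonneg (filter_subset
      (fun x => |((cubic c x : ℤ) : ℝ)| ≤ T) _) fun x _ _ => by rw [hF]; positivity)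
    refine le_trans (le_of_eq (mul_comm _ _)) ?_
    rw [← nsmul_eq_mul]
    refine card_nsmul_le_sum _ _ _ fun x hx => ?_
    have hx2 := (mem_filter.1 hx).2
    obtain ⟨t, ht⟩ : ∃ t, t = ((cubic c x : ℤ) : ℝ) / M := ⟨_, rfl⟩
    have hb : ∀ k ∈ Icc (0 : ℤ) H, ‖eAdd ((k : ℝ) * t) - 1‖ ≤ 9 / 10 := by
      intro k hk
      obtain ⟨h1, h2⟩ := mem_Icc.1 hk
      refine (norm_eAdd_sub_one_le _).trans ?_
      have h3 : |(k : ℝ)| ≤ 3 * ((W : ℝ) * P) := by
        rw [abs_of_nonneg (by exact_mod_cast h1)]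
        refine le_trans (show (k : ℝ) ≤ H by exact_mod_cast h2) ?_
        linarith
      have h4 : |(k : ℝ) * t| ≤ 1 / 8 := by
        rw [abs_mul, ht, abs_div, abs_of_pos hM0, ← mul_div_assoc, div_le_iff₀ hM0]
        refine (mul_le_mul h3 hx2 (abs_nonneg _) (by positivity)).trans (le_of_eq ?_)
        rw [hT, hM']
        field_simp
        ring
      have := Real.pi_lt_d2
      have := Real.pi_pos
      nlinarith [abs_nonneg ((k : ℝ) * t)]
    have hc' : (((Icc (0 : ℤ) H).card : ℕ) : ℂ) = ((H + 1 : ℕ) : ℂ) := by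
      rw [Int.card_Icc]; congr 1
    have h5 : ((H : ℝ) + 1) / 10 ≤ ‖∑ k ∈ Icc (0 : ℤ) H, eAdd ((k : ℝ) * t)‖ := by
      have h6 : ‖∑ k ∈ Icc (0 : ℤ) H, (eAdd ((k : ℝ) * t) - 1)‖ ≤ ((H : ℝ) + 1) * (9 / 10) := by
        refine (norm_sum_le _ _).trans ((sum_le_card_nsmul _ _ _ hb).trans (le_of_eq ?_))
        rw [nsmul_eq_mul, Int.card_Icc, show ((H : ℤ) + 1 - 0).toNat = H + 1 by omega]
        push_cast; rfl
      rw [sum_sub_distrib, sum_const, nsmul_one, hc', norm_sub_rev] at h6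
      have h7 := (norm_sub_norm_le _ _).trans h6
      rw [Complex.norm_natCast] at h7
      push_cast at h7
      linarith
    rw [hF]
    dsimp only
    rw [← ht]
    calc 1 / 100 * ((H : ℝ) + 1) ^ 2 = (((H : ℝ) + 1) / 10) ^ 2 := by ring
      _ ≤ _ := pow_le_pow_left₀ (by positivity) h5 2
  -- the tail
  have htail : ∀ o ∈ (Icc (-(H : ℤ)) H).filter (fun o => o ≠ 0),
      |((((|o| : ℤ) : ℂ) * cubicSum c P ((o : ℝ) / M))).re| ≤
        C₁ * (1 + Real.log P) ^ n * (P : ℝ) ^ (n + 2) * (1 / |(o : ℝ)|) := by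
    intro o ho
    obtain ⟨ho1, ho0⟩ := mem_filter.1 ho
    refine (Complex.abs_re_le_norm _).trans ?_
    rw [norm_mul, Complex.norm_intCast, Int.cast_abs, abs_abs]
    obtain ⟨Φ, hΦdef⟩ : ∃ Φ, Φ = max ((1 : ℕ) : ℝ)
        (((1 : ℕ) : ℝ) * (P : ℝ) ^ 3 * |(o : ℝ) / M|) := ⟨_, rfl⟩
    have ho' : 0 < |(o : ℝ)| := abs_pos.2 (Int.cast_ne_zero.2 ho0)
    have hoP : (P : ℝ) ^ 3 * |(o : ℝ) / M| = |(o : ℝ)| / P := by
      rw [abs_div, abs_of_pos hM0, hM']; field_simp
    have hoH : |(o : ℝ)| ≤ H := by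
      rw [← Int.cast_abs]
      exact_mod_cast abs_le.2 (mem_Icc.1 ho1)
    have hΦ1 : Φ ≤ 3 * W := by
      rw [hΦdef, Nat.cast_one, one_mul, hoP]
      refine max_le (by linarith) ?_
      rw [div_le_iff₀ (by linarith)]
      linarith
    have hΦ0 : |(o : ℝ)| / P ≤ Φ := by
      rw [hΦdef, Nat.cast_one, one_mul, hoP]; exact le_max_right _ _
    have hΦ2 : Φ ^ 2 ≤ (P : ℝ) ^ 3 := by
      refine (pow_le_pow_left₀ (le_trans (by positivity) hΦ0) hΦ1 2).trans ?_
      have : ((W ^ 2 : ℕ) : ℝ) ≤ P := Nat.cast_le.2 hW2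
      push_cast at this
      have : (8 : ℝ) ≤ P := by exact_mod_cast hP8
      nlinarith
    have hp := hpoint P 1 0 ((o : ℝ) / M) Φ hP le_rfl isCoprime_one_right hΦdef hΦ2
    rw [Int.cast_zero, zero_div, zero_add] at hp
    have hp' := le_trans (mul_le_mul_of_nonneg_left (pow_le_pow_left₀ (by positivity) hΦ0 2)
      (norm_nonneg (cubicSum c P ((o : ℝ) / M)))) hp
    rw [div_pow, mul_div_assoc', div_le_iff₀ (by positivity)] at hp'
    rw [show C₁ * (1 + Real.log P) ^ n * (P : ℝ) ^ (n + 2) * (1 / |(o : ℝ)|) =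
      C₁ * (1 + Real.log P) ^ n * (P : ℝ) ^ n * (P : ℝ) ^ 2 / |(o : ℝ)| by ring,
      le_div_iff₀ ho']
    linarith
  have hsum : |∑ o ∈ Icc (-(H : ℤ)) H,
      (((|o| : ℤ) : ℂ) * cubicSum c P ((o : ℝ) / M)).re| ≤
        20 * C₁ * (1 + Real.log P) ^ (n + 1) * (P : ℝ) ^ (n + 2) := by
    rw [← sum_filter_of_ne (p := fun o : ℤ => o ≠ 0) fun o _ h h0 => h (by simp [h0])]
    refine (abs_sum_le_sum_abs _ _).trans ((sum_le_sum htail).trans ?_)
    rw [← mul_sum]
    have hlog : Real.log H ≤ 9 * (1 + Real.log P) - 1 := by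
      have hHP : H ≤ P ^ 3 := by
        rw [hH]
        calc W * P + 1 ≤ P * P + P * P := by
              have : W ≤ P := (Nat.le_self_pow two_ne_zero W).trans hW2
              exact Nat.add_le_add (Nat.mul_le_mul_right P this) (Nat.mul_pos (by omega) (by omega))
          _ ≤ P * (P * P) := by rw [← two_mul]; exact Nat.mul_le_mul_right _ (by omega)
          _ = _ := by ring
      have h1 := Real.log_le_log (by rw [hH]; positivity) (Nat.cast_le (α := ℝ).2 hHP)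
      rw [Nat.cast_pow, Real.log_pow] at h1
      push_cast at h1
      linarith [Real.log_nonneg hP0]
    calc C₁ * (1 + Real.log P) ^ n * (P : ℝ) ^ (n + 2) *
          ∑ o ∈ (Icc (-(H : ℤ)) H).filter (fun o => o ≠ 0), 1 / |(o : ℝ)|
        ≤ C₁ * (1 + Real.log P) ^ n * (P : ℝ) ^ (n + 2) * (20 * (1 + Real.log P)) :=
          mul_le_mul_of_nonneg_left ((sum_inv_abs_le H).trans (by linarith [Real.log_nonneg hP0]))
            (by positivity)
      _ = _ := by ring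
  have hH1 : (0 : ℝ) < (H : ℝ) + 1 := by positivity
  rw [← mul_le_mul_iff_of_pos_left hH1]
  push_cast at hre
  rw [hre, mul_sub]
  have h1 : ((H : ℝ) + 1) * (20 * C₁ * (1 + Real.log P) ^ (n + 1) * (P : ℝ) ^ (n + 1) / W) ≥
      20 * C₁ * (1 + Real.log P) ^ (n + 1) * (P : ℝ) ^ (n + 2) := by
    rw [ge_iff_le, ← mul_div_assoc, le_div_iff₀ (by linarith)]
    calc 20 * C₁ * (1 + Real.log P) ^ (n + 1) * (P : ℝ) ^ (n + 2) * W
        = ((W : ℝ) * P) * (20 * C₁ * (1 + Real.log P) ^ (n + 1) * (P : ℝ) ^ (n + 1)) := by ring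
      _ ≤ _ := mul_le_mul_of_nonneg_right hHW' (by positivity)
  have h2 : ((H : ℝ) + 1) * (1 / 100 * (η / 24) * (P : ℝ) ^ (n + 1)) ≤
      1 / 100 * ((H : ℝ) + 1) ^ 2 * (η * (P : ℝ) ^ (n - 1) * T / (P : ℝ) ^ 2) := by
    obtain ⟨m, rfl⟩ : ∃ m, n = m + 1 := ⟨n - 1, by omega⟩
    rw [hT, Nat.add_sub_cancel]
    rw [show 1 / 100 * ((H : ℝ) + 1) ^ 2 *
      (η * (P : ℝ) ^ m * ((P : ℝ) ^ 3 / (24 * W)) / (P : ℝ) ^ 2) =
      ((H : ℝ) + 1) * (1 / 100 * (η / 24) * ((P : ℝ) ^ (m + 1) * (((H : ℝ) + 1) / W))) by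
        field_simp; ring, pow_succ (P : ℝ) (m + 1)]
    refine mul_le_mul_of_nonneg_left (mul_le_mul_of_nonneg_left
      (mul_le_mul_of_nonneg_left ?_ (by positivity)) (by positivity)) hH1.le
    rw [le_div_iff₀ (by linarith), mul_comm]
    exact hHW'
  have := (abs_le.1 hsum).1
  linarith

/-- **The sum over the major arcs.** -/
theorem exists_major_sum : ∃ C : ℝ, 0 < C ∧ ∀ P W : ℕ, 1 ≤ W → 6 ≤ P → W ^ 4 ≤ P →
    ‖∑ h ∈ majorSet P W, cubicSum c P ((h : ℝ) / ((P ^ 4 : ℕ) : ℝ)) -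
      (∑ q ∈ Icc 1 W, seriesTerm c q) * arcIntegral c P (W * P + 1)‖ ≤
      C * (W : ℝ) ^ 5 * (P : ℝ) * (P : ℝ) ^ (n - 1) := by
  classical
  obtain ⟨C₁, hC₁, happ⟩ := exists_major_approx c
  refine ⟨5 * (4 * C₁ + 2 * Real.pi * coefSize c * 3 ^ n + 1), by positivity,
    fun P W hW hP6 hW4 => ?_⟩
  have hP0 : (1 : ℝ) ≤ P := by exact_mod_cast (show 1 ≤ P by omega)
  have hW0 : (1 : ℝ) ≤ W := by exact_mod_cast hW
  have hWP : W ≤ P := (Nat.le_self_pow four_ne_zero W).trans hW4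
  obtain ⟨H, hH⟩ : ∃ H, H = W * P + 1 := ⟨_, rfl⟩
  obtain ⟨M, hM⟩ : ∃ M : ℝ, M = ((P ^ 4 : ℕ) : ℝ) := ⟨_, rfl⟩
  have hM' : M = (P : ℝ) ^ 4 := by rw [hM]; push_cast; rfl
  have hM0 : 0 < M := by rw [hM']; positivity
  have hMn : 0 < P ^ 4 := pow_pos (by omega) 4
  have hpt : ∀ z : Σ _ : ℕ, ℕ, ∀ o : ℤ, ∃ k : ℤ,
      ((arcPoint (P ^ 4) z o : ℕ) : ℝ) / M = ((round (centre z * M) : ℤ) + (o : ℝ)) / M + k := by
    intro z o
    refine ⟨-((round (centre z * M) + o) / ((P ^ 4 : ℕ) : ℤ)), ?_⟩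
    have e : ((arcPoint (P ^ 4) z o : ℕ) : ℤ) =
        (round (centre z * M) + o) % ((P ^ 4 : ℕ) : ℤ) := by
      rw [arcPoint, ← hM, Int.toNat_of_nonneg (Int.emod_nonneg _ (by exact_mod_cast hMn.ne'))]
    have e' := congrArg (fun x : ℤ => (x : ℝ)) e
    simp only [Int.emod_def] at e'
    push_cast at e'
    rw [e', ← hM'] at *
    push_cast
    field_simp
    ring
  have hH2 : ((2 * H + 1 : ℕ) : ℝ) * ((W : ℝ) * W) < M := by
    rw [hM]
    refine Nat.cast_lt (α := ℝ).2 (show (2 * H + 1) * (W * W) < P ^ 4 from ?_) |> fun h => by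
      push_cast at h ⊢; linarith
    have h1 : W * W ≤ P := by
      calc W * W = W ^ 2 := (sq W).symm
        _ ≤ W ^ 4 := Nat.pow_le_pow_right hW (by norm_num)
        _ ≤ P := hW4
    calc (2 * H + 1) * (W * W) ≤ (5 * (P * P)) * P := by
          refine Nat.mul_le_mul ?_ h1
          rw [hH]
          have := Nat.mul_le_mul_right P hWP
          have : 1 ≤ P * P := Nat.mul_pos (by omega) (by omega)
          omega
      _ < P * (P * P) * P := by
          refine Nat.mul_lt_mul_of_pos_right ?_ (by omega)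
          exact Nat.mul_lt_mul_of_pos_right (by omega) (Nat.mul_pos (by omega) (by omega))
      _ = P ^ 4 := by ring
  have hinj : Set.InjOn (fun zo : (Σ _ : ℕ, ℕ) × ℤ => arcPoint (P ^ 4) zo.1 zo.2)
      (arcCentres W ×ˢ Icc (-(H : ℤ)) H : Finset _) := by
    rintro ⟨z, o⟩ hz ⟨w, o'⟩ hw e
    obtain ⟨hz1, hz2⟩ := mem_product.1 hz
    obtain ⟨hw1, hw2⟩ := mem_product.1 hw
    simp only at e
    obtain ⟨k, hk⟩ := hpt z o
    obtain ⟨l, hl⟩ := hpt w o'
    rw [e, hl] at hk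
    have hoo : |((o' : ℝ) - o)| ≤ 2 * H := by
      rw [abs_le]
      have a1 := mem_Icc.1 hz2
      have a2 := mem_Icc.1 hw2
      have : (-(2 * H : ℤ) : ℤ) ≤ o' - o ∧ o' - o ≤ 2 * H := ⟨by omega, by omega⟩
      exact ⟨by exact_mod_cast this.1, by exact_mod_cast this.2⟩
    by_cases hzw : z = w
    · subst hzw
      have h1 : ((o' - o : ℤ) : ℝ) = (((k - l) * (P ^ 4 : ℕ) : ℤ) : ℝ) := by
        push_cast
        rw [← hM']
        field_simp at hk
        linarith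
      rw [Int.cast_inj] at h1
      have hlt : |o' - o| < ((P ^ 4 : ℕ) : ℤ) := by
        have h3 : ((2 * H + 1 : ℕ) : ℝ) ≤ ((2 * H + 1 : ℕ) : ℝ) * ((W : ℝ) * W) :=
          le_mul_of_one_le_right (Nat.cast_nonneg _) (one_le_mul_of_one_le_of_one_le hW0 hW0)
        suffices |((o' : ℝ) - o)| < M by
          rw [hM] at this
          exact_mod_cast this
        push_cast at h3 hH2
        linarith
      have := Int.eq_zero_of_abs_lt_dvd ⟨k - l, h1.trans (mul_comm _ _)⟩ hlt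
      simp only [Prod.mk.injEq, true_and]
      omega
    · exfalso
      have hsep := inv_mul_le_nearDist_centre hz1 hw1 hzw
      have hle : nearDist (centre z - centre w) ≤ ((2 * H + 1 : ℕ) : ℝ) / M := by
        refine (nearDist_le_abs_sub _ (l - k)).trans ?_
        have a1 := abs_sub_round (centre z * M)
        have a2 := abs_sub_round (centre w * M)
        rw [le_div_iff₀ hM0]
        rw [show ∀ x : ℝ, |x| * M = |x * M| from fun x => by rw [abs_mul, abs_of_pos hM0]]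
        have e3 : (centre z - centre w - ((l - k : ℤ) : ℝ)) * M =
            (centre z * M - round (centre z * M)) - (centre w * M - round (centre w * M)) +
              ((o' : ℝ) - o) := by
          push_cast
          field_simp at hk
          rw [mul_comm M (centre z)] at hk
          linarith
        rw [e3]
        push_cast
        refine (abs_add_le _ _).trans ?_
        have := abs_sub (centre z * M - round (centre z * M)) (centre w * M - round (centre w * M))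
        linarith
      have h4 := hsep.trans hle
      rw [div_le_div_iff₀ (by positivity) hM0, one_mul] at h4
      linarith
  rw [majorSet, ← hH, sum_image hinj, sum_product]
  have hser : ∑ q ∈ Icc 1 W, seriesTerm c q =
      ∑ z ∈ arcCentres W, completeCubic c z.1 z.2 / (z.1 : ℂ) ^ n := by
    rw [arcCentres, sum_sigma]
    rfl
  rw [hser, sum_mul, ← sum_sub_distrib]
  obtain ⟨E, hE⟩ : ∃ E : ℝ, E = (4 * C₁ + 2 * Real.pi * coefSize c * 3 ^ n + 1) *
      ((W : ℝ) ^ 2 * (P : ℝ) ^ (n - 1)) := ⟨_, rfl⟩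
  refine (norm_sum_le _ _).trans ((sum_le_card_nsmul _ _ (((2 * H + 1 : ℕ) : ℝ) * E)
    fun z hz => ?_).trans ?_)
  · rw [arcIntegral, mul_sum, ← sum_sub_distrib]
    refine (norm_sum_le _ _).trans ((sum_le_card_nsmul _ _ E fun o ho => ?_).trans (le_of_eq ?_))
    · obtain ⟨⟨hq, hqW⟩, hlt, hco⟩ := mem_arcCentres.1 hz
      obtain ⟨k, hk⟩ := hpt z o
      obtain ⟨β, hβ⟩ : ∃ β, β = ((round (centre z * M) : ℤ) + (o : ℝ)) / M - centre z := ⟨_, rfl⟩
      have hd : |β - (o : ℝ) / M| ≤ 1 / (2 * M) := by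
        rw [show β - (o : ℝ) / M = ((round (centre z * M) : ℤ) - centre z * M) / M by
          rw [hβ]; field_simp; ring, abs_div, abs_of_pos hM0, div_le_div_iff₀ hM0 (by positivity),
          abs_sub_comm]
        nlinarith [abs_sub_round (centre z * M)]
      have hβW : (P : ℝ) ^ 3 * |β| ≤ 3 * W := by
        have h1 : |β| ≤ ((H : ℝ) + 1) / M := by
          have h2 := abs_sub_abs_le_abs_sub β ((o : ℝ) / M)
          have h3 : |(o : ℝ) / M| ≤ (H : ℝ) / M := by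
            rw [abs_div, abs_of_pos hM0, ← Int.cast_abs]
            gcongr
            exact_mod_cast abs_le.2 (mem_Icc.1 ho)
          have h4 : 1 / (2 * M) ≤ 1 / M :=
            one_div_le_one_div_of_le hM0 (by linarith)
          rw [add_div]
          linarith
        calc (P : ℝ) ^ 3 * |β| ≤ (P : ℝ) ^ 3 * (((H : ℝ) + 1) / M) := by gcongr
          _ = ((H : ℝ) + 1) / P := by rw [hM']; field_simp
          _ ≤ _ := by
              rw [div_le_iff₀ (by linarith), hH]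
              push_cast
              nlinarith [one_le_mul_of_one_le_of_one_le hW0 hP0]
      rw [← hM, cubicSum_congr c P (β := (z.2 : ℝ) / z.1 + β) (z := k)
        (by rw [hk, hβ, centre]; ring)]
      have happ' := happ P z.1 (z.2 : ℤ) β hq (hqW.trans hWP)
      rw [Int.cast_natCast] at happ'
      refine (norm_sub_le_norm_sub_add_norm_sub _ (completeCubic c z.1 z.2 / (z.1 : ℂ) ^ n *
        cubicSum c P β) _).trans ?_
      rw [← mul_sub, norm_mul, norm_div, norm_pow, Complex.norm_natCast]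
      have h1 : C₁ * (z.1 : ℝ) * (P : ℝ) ^ (n - 1) * (1 + (P : ℝ) ^ 3 * |β|) ≤
          4 * C₁ * ((W : ℝ) ^ 2 * (P : ℝ) ^ (n - 1)) := by
        calc C₁ * (z.1 : ℝ) * (P : ℝ) ^ (n - 1) * (1 + (P : ℝ) ^ 3 * |β|)
            ≤ C₁ * (W : ℝ) * (P : ℝ) ^ (n - 1) * (4 * W) := by
              gcongr
              linarith
          _ = _ := by ring
      have h2 : ‖completeCubic c z.1 z.2‖ / (z.1 : ℝ) ^ n *
          ‖cubicSum c P β - cubicSum c P ((o : ℝ) / M)‖ ≤
            2 * Real.pi * coefSize c * 3 ^ n * ((W : ℝ) ^ 2 * (P : ℝ) ^ (n - 1)) := by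
        refine (mul_le_of_le_one_left (norm_nonneg _)
          ((div_le_one (by positivity)).2 (norm_completeCubic_le c _ _))).trans ?_
        refine (norm_cubicSum_sub_le c P β _).trans ?_
        calc 2 * Real.pi * coefSize c * (P : ℝ) ^ 3 * ((2 * P + 1 : ℕ) : ℝ) ^ n * |β - (o : ℝ) / M|
            ≤ 2 * Real.pi * coefSize c * (P : ℝ) ^ 3 * (3 * (P : ℝ)) ^ n * (1 / M) := by
              gcongr
              · push_cast; linarith
              · exact hd.trans (one_div_le_one_div_of_le hM0 (by linarith))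
          _ = 2 * Real.pi * coefSize c * 3 ^ n * ((P : ℝ) ^ n / P) := by
              rw [hM', mul_pow]; field_simp
          _ ≤ _ := by
              refine mul_le_mul_of_nonneg_left ?_ (by positivity)
              rw [div_le_iff₀ (by linarith)]
              calc (P : ℝ) ^ n ≤ (P : ℝ) ^ (n - 1 + 1) := pow_le_pow_right₀ hP0 (by omega)
                _ = 1 * (P : ℝ) ^ (n - 1) * P := by rw [pow_succ]; ring
                _ ≤ _ := by gcongr; exact one_le_pow₀ hW0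
      have h3 := happ'.trans h1
      rw [hE]
      have : 0 ≤ (W : ℝ) ^ 2 * (P : ℝ) ^ (n - 1) := by positivity
      linarith
    · rw [nsmul_eq_mul, Int.card_Icc, show ((H : ℤ) + 1 - -(H : ℤ)).toNat = 2 * H + 1 by omega]
  · rw [nsmul_eq_mul]
    have hcz : ((arcCentres W).card : ℝ) ≤ (W : ℝ) ^ 2 := by
      rw [arcCentres, card_sigma, Nat.cast_sum]
      refine (sum_le_card_nsmul _ _ (W : ℝ) fun q hq => ?_).trans (le_of_eq ?_)
      · exact Nat.cast_le.2 ((card_filter_le _ _).trans ((card_range q).le.trans (mem_Icc.1 hq).2))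
      · rw [Nat.card_Icc, Nat.add_sub_cancel, nsmul_eq_mul, sq]
    have hH5 : ((2 * H + 1 : ℕ) : ℝ) ≤ 5 * ((W : ℝ) * P) := by
      rw [hH]; push_cast
      linarith [one_le_mul_of_one_le_of_one_le hW0 hP0]
    have hE0 : 0 ≤ E := by rw [hE]; positivity
    calc ((arcCentres W).card : ℝ) * (((2 * H + 1 : ℕ) : ℝ) * E)
        ≤ (W : ℝ) ^ 2 * ((5 * ((W : ℝ) * P)) * E) := by gcongr
      _ = _ := by rw [hE]; ring

end FA.CubicForms
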