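import Fermat.Agent.CubicForms.Lift
import Mathlib.NumberTheory.Padics.RingHoms
import Mathlib.NumberTheory.Padics.ProperSpace

/-!
# The theorem of Demyanov and Lewis

A cubic form in at least ten variables over the `p`-adic numbers has a nontrivial zero. If not, by
compactness it has no primitive zero modulo some power of `p`, and neither has an integer form
congruent to it, whose values then bound the powers of `p` dividing them.
-/

set_option autoImplicit false

noncomputable section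

namespace FA.CubicForms

open Finset

variable {ι : Type*} [Fintype ι] {p : ℕ} [hp : Fact p.Prime]

theorem exists_padicInt_zero (hn : 10 ≤ Fintype.card ι) (c : ι → ι → ι → ℤ_[p]) :
    ∃ x : ι → ℤ_[p], x ≠ 0 ∧ cubic c x = 0 := by
  classical
  by_contra hcon
  push Not at hcon
  obtain ⟨i₀⟩ : Nonempty ι := Fintype.card_pos_iff.1 (by omega)
  obtain ⟨Z, hZ⟩ : ∃ Z : Set (ι → ℤ_[p]), Z = ⋃ i, {y | ‖y i‖ = 1} := ⟨_, rfl⟩
  have hclosed : IsClosed Z := hZ ▸
    isClosed_iUnion_of_finite fun i => isClosed_eq (by fun_prop) continuous_const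
  have hne : Z.Nonempty := ⟨1, hZ ▸ Set.mem_iUnion.2 ⟨i₀, norm_one⟩⟩
  obtain ⟨y₀, hy₀, hmin⟩ := hclosed.isCompact.exists_isMinOn hne
    (f := fun y => ‖cubic c y‖) (Continuous.continuousOn (by unfold cubic; fun_prop))
  have hpos : 0 < ‖cubic c y₀‖ := norm_pos_iff.2 (hcon y₀ fun h0 => by
    obtain ⟨i, hi⟩ := Set.mem_iUnion.1 (hZ ▸ hy₀)
    simp [h0] at hi)
  obtain ⟨E, hE⟩ := exists_pow_lt_of_lt_one hpos (inv_lt_one_of_one_lt₀
    (show (1 : ℝ) < p by exact_mod_cast hp.out.one_lt))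
  have : NeZero (p ^ E) := ⟨pow_ne_zero _ hp.out.ne_zero⟩
  obtain ⟨c', hc'⟩ : ∃ c' : ι → ι → ι → ℤ,
      c' = fun i j k => ((PadicInt.toZModPow E (c i j k)).val : ℤ) := ⟨_, rfl⟩
  have hno : ∀ x : ι → ℤ, (∃ i, ¬(p : ℤ) ∣ x i) → ¬(p : ℤ) ^ E ∣ cubic c' x := by
    rintro x ⟨i, hi⟩ hd
    have hmem : (fun i => (x i : ℤ_[p])) ∈ Z := hZ ▸ Set.mem_iUnion.2 ⟨i,
      le_antisymm (PadicInt.norm_le_one _)
        (not_lt.1 fun h => hi (PadicInt.norm_int_lt_one_iff_dvd _ |>.1 h))⟩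
    have h0 : PadicInt.toZModPow E (cubic c fun i => (x i : ℤ_[p])) = 0 := by
      rw [← cubic_map, show tmap (PadicInt.toZModPow E) c =
        tmap (Int.castRingHom (ZMod (p ^ E))) c' by
          funext i j k; simp [tmap, hc'],
        show (fun i => PadicInt.toZModPow E (x i : ℤ_[p])) =
          fun i => Int.castRingHom (ZMod (p ^ E)) (x i) from funext fun i => by simp,
        cubic_map, eq_intCast, ZMod.intCast_zmod_eq_zero_iff_dvd]
      exact_mod_cast hd
    rw [← RingHom.mem_ker, PadicInt.ker_toZModPow, ← PadicInt.norm_le_pow_iff_mem_span_pow] at h0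
    refine absurd ((hmin hmem).trans h0) (not_le.2 (lt_of_eq_of_lt ?_ hE))
    rw [zpow_neg, zpow_natCast, inv_pow]
  obtain ⟨x, hx, hd⟩ := exists_primitive_of_powerBound hp.out hn
    (powerBound_of_no_primitive hp.out hno) E
  exact hno x hx hd

/-- **Demyanov and Lewis**: a cubic form in at least ten variables over `ℚ_[p]` has a nontrivial
zero. -/
theorem exists_padic_zero (hn : 10 ≤ Fintype.card ι) (F : MvPolynomial ι ℚ_[p])
    (hF : F.IsHomogeneous 3) : ∃ x : ι → ℚ_[p], x ≠ 0 ∧ MvPolynomial.eval x F = 0 := by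
  obtain ⟨c, hc⟩ := exists_tensor F hF
  obtain ⟨i₀⟩ : Nonempty ι := Fintype.card_pos_iff.1 (by omega)
  obtain ⟨⟨a, b, d⟩, -, hmax⟩ := (univ : Finset (ι × ι × ι)).exists_max_image
    (fun z => ‖c z.1 z.2.1 z.2.2‖) ⟨(i₀, i₀, i₀), mem_univ _⟩
  obtain ⟨l, hl⟩ : ∃ l, l = c a b d := ⟨_, rfl⟩
  rcases eq_or_ne l 0 with h0 | h0
  · refine ⟨fun _ => 1, fun h => one_ne_zero (congrFun h i₀), ?_⟩
    rw [← hc, cubic]
    refine sum_eq_zero fun i _ => sum_eq_zero fun j _ => sum_eq_zero fun k _ => ?_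
    have := hmax (i, j, k) (mem_univ _)
    rw [← hl, h0, norm_zero, norm_le_zero_iff] at this
    rw [this, zero_mul]
  obtain ⟨e, he⟩ : ∃ e : ι → ι → ι → ℤ_[p], ∀ i j k, (e i j k : ℚ_[p]) = c i j k / l :=
    ⟨fun i j k => ⟨c i j k / l, by
      rw [norm_div, div_le_one (norm_pos_iff.2 h0), hl]
      exact hmax (i, j, k) (mem_univ _)⟩, fun i j k => rfl⟩
  obtain ⟨x, hx, hxz⟩ := exists_padicInt_zero hn e
  refine ⟨fun i => (x i : ℚ_[p]), fun h => hx (funext fun i => PadicInt.ext (congrFun h i)), ?_⟩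
  have := congrArg (PadicInt.Coe.ringHom (p := p)) hxz
  rw [← cubic_map, map_zero, show tmap (PadicInt.Coe.ringHom (p := p)) e =
    fun i j k => l⁻¹ * c i j k from funext fun i => funext fun j => funext fun k => by
      show (e i j k : ℚ_[p]) = _
      rw [he, div_eq_inv_mul], cubic_mul_tensor, mul_eq_zero] at this
  rw [← hc]
  exact this.resolve_left (inv_ne_zero h0)

omit hp in
/-- **Primitive zeros modulo every prime power.** -/
theorem exists_primitive_mod (hn : 10 ≤ Fintype.card ι) (c : ι → ι → ι → ℤ) {q : ℕ}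
    (hq : q.Prime) (J : ℕ) : ∃ x : ι → ℤ, (∃ i, ¬(q : ℤ) ∣ x i) ∧ (q : ℤ) ^ J ∣ cubic c x := by
  have : Fact q.Prime := ⟨hq⟩
  obtain ⟨y, hy, hyz⟩ := exists_padicInt_zero hn (tmap (Int.castRingHom ℤ_[q]) c)
  obtain ⟨i₁, hi₁⟩ := Function.ne_iff.1 hy
  obtain ⟨l, -, hmax⟩ := (univ : Finset ι).exists_max_image (fun i => ‖y i‖) ⟨i₁, mem_univ _⟩
  have hl : y l ≠ 0 :=
    norm_pos_iff.1 (lt_of_lt_of_le (norm_pos_iff.2 hi₁) (hmax i₁ (mem_univ _)))
  obtain ⟨z, hz⟩ : ∃ z : ι → ℤ_[q], ∀ i, y i = y l * z i := by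
    refine ⟨fun i => ⟨(y i : ℚ_[q]) / (y l : ℚ_[q]), ?_⟩, fun i => PadicInt.ext ?_⟩
    · rw [norm_div, div_le_one (norm_pos_iff.2 (by simpa using hl))]
      exact hmax i (mem_univ i)
    · show (y i : ℚ_[q]) = (y l : ℚ_[q]) * ((y i : ℚ_[q]) / (y l : ℚ_[q]))
      rw [mul_div_cancel₀]
      simpa using hl
  rw [show y = y l • z from funext hz, cubic_smul, mul_eq_zero] at hyz
  have hzl : z l = 1 := by
    have := hz l
    exact mul_left_cancel₀ hl (by rw [mul_one, ← this])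
  have : Fact (1 < q ^ (J + 1)) := ⟨one_lt_pow₀ hq.one_lt J.succ_ne_zero⟩
  have : NeZero (q ^ (J + 1)) := ⟨pow_ne_zero _ hq.ne_zero⟩
  refine ⟨fun i => ((PadicInt.toZModPow (J + 1) (z i)).val : ℤ), ⟨l, ?_⟩,
    (pow_dvd_pow _ J.le_succ).trans ?_⟩
  · simp only [hzl, map_one, ZMod.val_one, Nat.cast_one]
    exact fun hd => hq.not_dvd_one (Int.natCast_dvd_natCast.1 (by simpa using hd))
  · rw [← Int.natCast_pow, ← ZMod.intCast_zmod_eq_zero_iff_dvd,
      ← eq_intCast (Int.castRingHom (ZMod (q ^ (J + 1)))), ← cubic_map]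
    have h' := congrArg (PadicInt.toZModPow (J + 1))
      (hyz.resolve_left (pow_ne_zero 3 hl))
    rw [← cubic_map, map_zero] at h'
    refine Eq.trans ?_ h'
    congr 1
    · funext i j k; simp [tmap]
    · funext i; simp

end FA.CubicForms
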