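import Fermat.Agent.CubicForms.Tensor
import Fermat.Agent.CubicForms.Isolated
import Mathlib.RingTheory.Localization.Integer
import Mathlib.Algebra.Module.Pi
import Mathlib.Data.Fintype.BigOperators
import Mathlib.Order.Interval.Finset.Basic
import Mathlib.Data.Int.Interval

/-!
# Pairs annihilated by the trilinear form

If the cubic form has no nonzero integer zero, then `O (R ^ n)` pairs of integer points of size `R`
are annihilated by the trilinear form. The points where the matrix of the form has rank `r` lie on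
polynomial equations whose tangent space has dimension at most `r`, as it meets the kernel only in
`0`, so there are `O (R ^ r)` of them, each with `O (R ^ (n - r))` partners.
-/

set_option autoImplicit false

noncomputable section

namespace FA.CubicForms

open Finset MvPolynomial

variable {n : ℕ}

/-- The integer points of size at most `R`. -/
def cbox (n R : ℕ) : Finset (Fin n → ℤ) := Fintype.piFinset fun _ => Icc (-(R : ℤ)) R

theorem mem_cbox {R : ℕ} {x : Fin n → ℤ} : x ∈ cbox n R ↔ ∀ i, |x i| ≤ (R : ℤ) := by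
  simp [cbox, Fintype.mem_piFinset, abs_le]

/-- A subspace of dimension `d` has at most `(2 R + 1) ^ d` points of size `R`. -/
theorem card_cbox_submodule_le (W : Submodule ℚ (Fin n → ℚ)) (R : ℕ) (S : Finset (Fin n → ℤ))
    (hS : ∀ x ∈ S, x ∈ cbox n R) (hW : ∀ x ∈ S, (fun i => (x i : ℚ)) ∈ W) :
    S.card ≤ (2 * R + 1) ^ Module.finrank ℚ W := by
  classical
  obtain ⟨B⟩ : Nonempty (Module.Basis (Fin (Module.finrank ℚ W)) ℚ W) :=
    ⟨Module.finBasis ℚ W⟩
  obtain ⟨M, hM⟩ : ∃ M : Matrix (Fin n) (Fin (Module.finrank ℚ W)) ℚ,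
      M = Matrix.of fun e l => (B l : Fin n → ℚ) e := ⟨_, rfl⟩
  have hMv : ∀ t, M.mulVec t = ((∑ l, t l • B l : W) : Fin n → ℚ) := fun t => by
    funext e
    simp [hM, Matrix.mulVec, dotProduct, Finset.sum_apply, mul_comm]
  obtain ⟨f, -, hf⟩ := exists_rows_det_ne_zero M fun t ht => by
    rw [hMv, ← ZeroMemClass.coe_zero W, Subtype.coe_inj] at ht
    exact funext (Fintype.linearIndependent_iff.1 B.linearIndependent t ht)
  have hcard : (cbox (Module.finrank ℚ W) R).card = (2 * R + 1) ^ Module.finrank ℚ W := by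
    rw [cbox, Fintype.card_piFinset, prod_const, card_univ, Fintype.card_fin, Int.card_Icc]
    congr 1
    omega
  rw [← hcard]
  refine card_le_card_of_injOn (fun x l => x (f l)) (fun x hx => ?_) fun x hx y hy e => ?_
  · exact mem_coe.2 (mem_cbox.2 fun l => mem_cbox.1 (hS x hx) (f l))
  · obtain ⟨t, ht⟩ : ∃ t, ∑ l, t l • B l = (⟨_, hW x hx⟩ - ⟨_, hW y hy⟩ : W) :=
      ⟨B.repr _, B.sum_repr _⟩
    have h0 : (M.submatrix f id).mulVec t = 0 := funext fun l => by
      show M.mulVec t (f l) = 0
      rw [hMv, ht]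
      simp [show x (f l) = y (f l) from congrFun e l]
    rw [Matrix.eq_zero_of_mulVec_eq_zero hf h0] at ht
    simp only [Pi.zero_apply, zero_smul, sum_const_zero] at ht
    funext i
    have := congrFun (congrArg (fun w : W => (w : Fin n → ℚ)) ht) i
    simp only [ZeroMemClass.coe_zero, Pi.zero_apply, Submodule.coe_sub, Pi.sub_apply] at this
    exact_mod_cast (sub_eq_zero.1 this.symm)

theorem totalDegree_aeval_le {σ τ : Type*} (θ : σ → MvPolynomial τ ℚ)
    (hθ : ∀ e, (θ e).totalDegree ≤ 1) (P : MvPolynomial σ ℚ) :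
    (aeval θ P).totalDegree ≤ P.totalDegree := by
  conv_lhs => rw [P.as_sum, map_sum]
  refine totalDegree_finsetSum_le fun d hd => ?_
  rw [aeval_monomial, algebraMap_eq]
  refine (totalDegree_mul _ _).trans ?_
  rw [totalDegree_C, zero_add, Finsupp.prod]
  refine ((totalDegree_finsetProd _ _).trans
    (sum_le_sum fun e _ => (totalDegree_pow _ _).trans (Nat.mul_le_mul_left _ (hθ e)))).trans ?_
  simp only [mul_one]
  exact le_totalDegree hd

/-- Substituting constants for the other variables. -/
theorem eval_pderiv_substitute {m : ℕ} {K : Fin m → Fin n} (hK : Function.Injective K)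
    (c : Fin n → ℚ) (s : Fin m → ℚ) (P : MvPolynomial (Fin n) ℚ) :
    eval s (aeval (Function.extend K X fun e => C (c e)) P) =
        eval (Function.extend K s c) P ∧
      ∀ l, eval s (pderiv l (aeval (Function.extend K X fun e => C (c e)) P)) =
        eval (Function.extend K s c) (pderiv (K l) P) := by
  classical
  induction P using MvPolynomial.induction_on with
  | C a => simp
  | add p q hp hq =>
    exact ⟨by simp [hp.1, hq.1], fun l => by simp [hp.2 l, hq.2 l]⟩
  | mul_X p e hp =>
    have h1 : eval s (Function.extend K X (fun e => C (c e)) e) = Function.extend K s c e := by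
      by_cases he : ∃ l, K l = e
      · obtain ⟨l, rfl⟩ := he
        rw [hK.extend_apply, hK.extend_apply, eval_X]
      · rw [Function.extend_apply' _ _ _ he, Function.extend_apply' _ _ _ he, eval_C]
    refine ⟨by rw [map_mul, aeval_X, map_mul, map_mul, hp.1, h1, eval_X], fun l => ?_⟩
    rw [map_mul, aeval_X, pderiv_mul, pderiv_mul, map_add, map_add, map_mul, map_mul, map_mul,
      map_mul, hp.2, hp.1, h1, eval_X]
    congr 2
    by_cases he : ∃ l, K l = e
    · obtain ⟨i, rfl⟩ := he
      rw [hK.extend_apply]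
      simp [pderiv_X, Pi.single_apply, hK.eq_iff, apply_ite (eval s),
        apply_ite (eval (Function.extend K s c))]
    · rw [Function.extend_apply' _ _ _ he, pderiv_C, map_zero, pderiv_X,
        Pi.single_eq_of_ne (fun h => he ⟨l, h.symm⟩), map_zero]

/-- **Points where the tangent space has dimension at most `r`.** -/
theorem card_le_of_tangent {α : Type*} [Finite α] (G : α → MvPolynomial (Fin n) ℚ) (r : ℕ) :
    ∃ C : ℕ, ∀ (R : ℕ), 1 ≤ R → ∀ S : Finset (Fin n → ℤ), (∀ x ∈ S, x ∈ cbox n R ∧
      (∀ a, eval (fun i => (x i : ℚ)) (G a) = 0) ∧ ∃ T : Submodule ℚ (Fin n → ℚ),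
        Module.finrank ℚ T ≤ r ∧ ∀ v, (jac G fun i => (x i : ℚ)).mulVec v = 0 → v ∈ T) →
      S.card ≤ C * R ^ r := by
  classical
  have := Fintype.ofFinite α
  obtain ⟨m, hm⟩ : ∃ m, m = n - r := ⟨_, rfl⟩
  obtain ⟨D, hD⟩ : ∃ D, D = univ.sup fun a => (G a).totalDegree := ⟨_, rfl⟩
  obtain ⟨L, hL⟩ := exists_isolated_bound m D
  refine ⟨L ^ m * ((Fintype.card (Fin m → Fin n) * Fintype.card (Fin m → α)) * 3 ^ r),
    fun R hR S hS => ?_⟩
  have hsel : ∀ x ∈ S, ∃ (K : Fin m → Fin n) (f : Fin m → α), Function.Injective K ∧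
      ((jac G fun i => (x i : ℚ)).submatrix f K).det ≠ 0 := by
    intro x hx
    obtain ⟨T, hT, hker⟩ := (hS x hx).2.2
    obtain ⟨M, hM⟩ : ∃ M, M = jac G fun i => (x i : ℚ) := ⟨_, rfl⟩
    rw [← hM] at hker ⊢
    have h1 := LinearMap.finrank_range_add_finrank_ker M.mulVecLin
    rw [Module.finrank_fin_fun, ← Matrix.rank] at h1
    have h2 : Module.finrank ℚ (LinearMap.ker M.mulVecLin) ≤ r :=
      (Submodule.finrank_mono fun v hv => hker v (by simpa using hv)).trans hT
    obtain ⟨K, hK, hKv⟩ := exists_cols_injective (m := m) M (by omega)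
    obtain ⟨f, -, hf⟩ := exists_rows_det_ne_zero _ hKv
    exact ⟨K, f, hK, by simpa [Matrix.submatrix_submatrix] using hf⟩
  choose K f hK hdet using hsel
  obtain ⟨key, hkey⟩ : ∃ key : S → ((Fin m → Fin n) × (Fin m → α)) × (Fin n → ℤ),
      key = fun x => ((K x.1 x.2, f x.1 x.2),
        fun e => if e ∈ univ.image (K x.1 x.2) then 0 else x.1 e) := ⟨_, rfl⟩
  obtain ⟨U, hU⟩ : ∃ U : Finset (((Fin m → Fin n) × (Fin m → α)) × (Fin n → ℤ)),
      U = (univ.filter fun z : (Fin m → Fin n) × (Fin m → α) => Function.Injective z.1).biUnion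
        fun z => (Fintype.piFinset fun e =>
          if e ∈ univ.image z.1 then {0} else Icc (-(R : ℤ)) R).image fun y => (z, y) :=
    ⟨_, rfl⟩
  have hUcard : U.card ≤ (Fintype.card (Fin m → Fin n) * Fintype.card (Fin m → α)) *
      (2 * R + 1) ^ r := by
    rw [hU]
    refine card_biUnion_le.trans (le_trans (sum_le_card_nsmul _ _ ((2 * R + 1) ^ r)
      fun z hz => card_image_le.trans ?_) ?_)
    · rw [Fintype.card_piFinset, ← prod_filter_mul_prod_filter_not univ (· ∈ univ.image z.1),
        prod_eq_one (fun e he => by rw [if_pos (mem_filter.1 he).2, card_singleton]), one_mul,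
        prod_congr rfl (fun e he => by rw [if_neg (mem_filter.1 he).2]), prod_const, Int.card_Icc,
        show ((R : ℤ) + 1 - -(R : ℤ)).toNat = 2 * R + 1 by omega]
      refine Nat.pow_le_pow_right (Nat.succ_pos _) ?_
      rw [show (univ.filter fun e => e ∉ univ.image z.1) = (univ.image z.1)ᶜ by
        ext; simp, card_compl, card_image_of_injective _ (mem_filter.1 hz).2, card_univ,
        Fintype.card_fin, Fintype.card_fin, hm]
      omega
    · rw [smul_eq_mul, ← Fintype.card_prod]
      exact Nat.mul_le_mul_right _ (card_le_univ _)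
  rw [← card_attach]
  refine (card_le_mul_card_image_of_maps_to (f := key) (t := U) (fun z _ => ?_) (L ^ m)
    fun k _ => ?_).trans ?_
  · obtain ⟨x, hx⟩ := z
    rw [hU, hkey, mem_biUnion]
    refine ⟨(K x hx, f x hx), mem_filter.2 ⟨mem_univ _, hK x hx⟩, mem_image.2 ⟨_, ?_, rfl⟩⟩
    rw [Fintype.mem_piFinset]
    intro e
    by_cases he : e ∈ univ.image (K x hx)
    · simp [he]
    · rw [if_neg he, if_neg he]
      exact mem_Icc.2 (abs_le.1 (mem_cbox.1 (hS x hx).1 e))
  · obtain ⟨⟨Kz, fz⟩, y⟩ := k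
    obtain ⟨Sf, hSf⟩ : ∃ Sf, Sf = S.attach.filter fun x => key x = ((Kz, fz), y) := ⟨_, rfl⟩
    rcases Sf.eq_empty_or_nonempty with h0 | ⟨x₀, hx₀⟩
    · rw [← hSf, h0, card_empty]; exact Nat.zero_le _
    rw [← hSf]
    have hmem : ∀ x ∈ Sf, K x.1 x.2 = Kz ∧ f x.1 x.2 = fz ∧
        ∀ e, (if e ∈ univ.image Kz then 0 else x.1 e) = y e := by
      intro x hx
      rw [hSf, mem_filter, hkey] at hx
      simp only [Prod.mk.injEq] at hx
      exact ⟨hx.2.1.1, hx.2.1.2, fun e => by
        rw [← hx.2.1.1]; exact congrFun hx.2.2 e⟩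
    have hKi : Function.Injective Kz := (hmem x₀ hx₀).1 ▸ hK x₀.1 x₀.2
    have hext : ∀ x ∈ Sf, Function.extend Kz (fun l => (x.1 (Kz l) : ℚ)) (fun e => (y e : ℚ)) =
        fun i => (x.1 i : ℚ) := fun x hx => funext fun e => by
      by_cases he : ∃ l, Kz l = e
      · obtain ⟨l, rfl⟩ := he
        rw [hKi.extend_apply]
      · rw [Function.extend_apply' _ _ _ he, ← (hmem x hx).2.2 e, if_neg (by simpa using he)]
    rw [← card_image_of_injOn (f := fun (x : S) l => ((x.1 (Kz l) : ℤ) : ℚ)) (s := Sf)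
      (fun x hx x' hx' e => Subtype.ext <| funext fun i => by
        have := congrFun ((hext x hx).symm.trans ((congrArg
          (fun s => Function.extend Kz s fun e => (y e : ℚ)) e).trans (hext x' hx'))) i
        exact_mod_cast this)]
    refine hL (fun i => aeval (Function.extend Kz X fun e => C (y e : ℚ)) (G (fz i)))
      (fun i => (totalDegree_aeval_le _ (fun e => ?_) _).trans
        (hD ▸ le_sup (f := fun a => (G a).totalDegree) (mem_univ _))) _ fun s hs => ?_
    · by_cases he : ∃ l, Kz l = e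
      · obtain ⟨l, rfl⟩ := he
        rw [hKi.extend_apply, totalDegree_X]
      · rw [Function.extend_apply' _ _ _ he, totalDegree_C]
        exact Nat.zero_le _
    obtain ⟨x, hx, rfl⟩ := mem_image.1 hs
    refine ⟨fun i => ?_, ?_⟩
    · rw [(eval_pderiv_substitute hKi _ _ _).1, hext x hx]
      exact (hS x.1 x.2).2.1 _
    · rw [show jac (fun i => aeval (Function.extend Kz X fun e => C (y e : ℚ)) (G (fz i)))
          (fun l => (x.1 (Kz l) : ℚ)) = (jac G fun i => (x.1 i : ℚ)).submatrix fz Kz from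
        Matrix.ext fun i l => by
          show eval _ (pderiv l _) = _
          rw [(eval_pderiv_substitute hKi _ _ _).2 l, hext x hx]
          rfl]
      have := hdet x.1 x.2
      rwa [(hmem x hx).1, (hmem x hx).2.1] at this
  · refine (Nat.mul_le_mul_left _ hUcard).trans ?_
    rw [mul_assoc (L ^ m), mul_assoc _ (3 ^ r), ← mul_pow]
    gcongr
    omega

variable (c : Fin n → Fin n → Fin n → ℤ)

/-- The matrix of the trilinear form at `x`. -/
def hessian (x : Fin n → ℚ) : Matrix (Fin n) (Fin n) ℚ :=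
  Matrix.of fun a b => tri (tmap (Int.castRingHom ℚ) c) x (Pi.single a 1) (Pi.single b 1)

theorem tri_sum_right {R : Type*} [CommRing R] (T : Fin n → Fin n → Fin n → R) (x y : Fin n → R)
    {κ : Type*} (s : Finset κ) (a : κ → R) (z : κ → Fin n → R) :
    tri T x y (∑ k ∈ s, a k • z k) = ∑ k ∈ s, a k * tri T x y (z k) := by
  classical
  induction s using Finset.induction_on with
  | empty => simp [tri]
  | insert k s hk ih => rw [sum_insert hk, sum_insert hk, tri_add_right, tri_smul_right, ih]

theorem eq_sum_single {R : Type*} [CommRing R] (z : Fin n → R) :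
    z = ∑ b, z b • Pi.single b 1 := by
  funext i
  simp [Finset.sum_apply, Pi.single_apply]

theorem hessian_mulVec (x z : Fin n → ℚ) (a : Fin n) :
    (hessian c x).mulVec z a = tri (tmap (Int.castRingHom ℚ) c) x (Pi.single a 1) z := by
  conv_rhs => rw [eq_sum_single z]
  rw [tri_sum_right]
  simp [hessian, Matrix.mulVec, dotProduct, mul_comm]

theorem hessian_dot (x y z : Fin n → ℚ) :
    ∑ a, y a * (hessian c x).mulVec z a = tri (tmap (Int.castRingHom ℚ) c) x y z := by
  conv_rhs => rw [eq_sum_single y, tri_comm', tri_sum_right]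
  exact sum_congr rfl fun a _ => by rw [hessian_mulVec, tri_comm']

theorem hessian_symm (x : Fin n → ℚ) (a b : Fin n) : hessian c x a b = hessian c x b a := by
  simp only [hessian, Matrix.of_apply]
  exact tri_comm' _ _ _ _

/-- The candidates for vectors of the kernel. -/
def kerVec {R : Type*} [CommRing R] {r : ℕ} (M : Matrix (Fin n) (Fin n) R) (I J : Fin r → Fin n)
    (b e : Fin n) : R :=
  (if e = b then (M.submatrix I J).det else 0) -
    ∑ l, if J l = e then (M.submatrix I J).adjugate.mulVec (fun i => M (I i) b) l else 0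

/-- The equations of the rank. -/
def rankEq {r : ℕ} (I J : Fin r → Fin n) (z : Fin n × Fin n) : MvPolynomial (Fin n) ℚ :=
  let M : Matrix (Fin n) (Fin n) (MvPolynomial (Fin n) ℚ) :=
    Matrix.of fun a b => ∑ e, C (hessian c (Pi.single e 1) a b) * X e
  M.mulVec (kerVec M I J z.2) z.1

theorem kerVec_map {R S : Type*} [CommRing R] [CommRing S] {r : ℕ} (φ : R →+* S)
    (M : Matrix (Fin n) (Fin n) R) (I J : Fin r → Fin n) (b e : Fin n) :
    φ (kerVec M I J b e) = kerVec (M.map φ) I J b e := by
  rw [kerVec, kerVec, map_sub, map_sum, apply_ite φ, map_zero, RingHom.map_det,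
    RingHom.mapMatrix_apply, Matrix.submatrix_map]
  congr 1
  refine sum_congr rfl fun l _ => ?_
  rw [apply_ite φ, map_zero, RingHom.map_mulVec, ← RingHom.mapMatrix_apply, RingHom.map_adjugate,
    RingHom.mapMatrix_apply]
  rfl

theorem mulVec_kerVec {R : Type*} [CommRing R] {r : ℕ} (M : Matrix (Fin n) (Fin n) R)
    (I J : Fin r → Fin n) (b : Fin n) :
    M.mulVec (kerVec M I J b) = (M.submatrix I J).det • (fun a => M a b) -
      (M.submatrix id J).mulVec ((M.submatrix I J).adjugate.mulVec fun i => M (I i) b) := by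
  funext a
  rw [Matrix.mulVec, dotProduct, Pi.sub_apply, Pi.smul_apply, smul_eq_mul, Matrix.mulVec,
    dotProduct]
  simp only [kerVec, mul_sub, sum_sub_distrib, mul_ite, mul_zero, sum_ite_eq', mem_univ, if_true,
    mul_sum]
  rw [sum_comm, mul_comm]
  simp [sum_ite_eq]

variable {c}

theorem no_rat_zero (hc : ∀ x : Fin n → ℤ, cubic c x = 0 → x = 0) (x : Fin n → ℚ)
    (hx : cubic (tmap (Int.castRingHom ℚ) c) x = 0) : x = 0 := by
  obtain ⟨⟨D, hD⟩, hint⟩ := IsLocalization.exist_integer_multiples_of_finite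
    (nonZeroDivisors ℤ) (S := ℚ) x
  choose y hy using hint
  have e : (fun j => Int.castRingHom ℚ (y j)) = (D : ℚ) • x := funext fun j => by
    simpa [Algebra.smul_def] using hy j
  have h0 : cubic c y = 0 := by
    have := cubic_map c y (Int.castRingHom ℚ)
    rw [e, cubic_smul, hx, mul_zero, eq_comm, map_eq_zero_iff _ Int.cast_injective] at this
    exact this
  have : (D : ℚ) • x = 0 := by rw [← e, hc y h0]; funext j; simp
  exact (smul_eq_zero.1 this).resolve_left (Int.cast_ne_zero.2 (nonZeroDivisors.ne_zero hD))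

/-- **The tangent space at a point of rank `r`.** -/
theorem rankEq_spec (hc : ∀ x : Fin n → ℤ, cubic c x = 0 → x = 0) {r : ℕ} (I J : Fin r → Fin n)
    (x : Fin n → ℚ) (hr : (hessian c x).rank = r)
    (hdet : ((hessian c x).submatrix I J).det ≠ 0) :
    (∀ z, eval x (rankEq c I J z) = 0) ∧ ∃ T : Submodule ℚ (Fin n → ℚ),
      Module.finrank ℚ T ≤ r ∧ ∀ v, (jac (rankEq c I J) x).mulVec v = 0 → v ∈ T := by
  classical
  obtain ⟨M, hM⟩ : ∃ M : Matrix (Fin n) (Fin n) (MvPolynomial (Fin n) ℚ),
      M = Matrix.of fun a b => ∑ e, C (hessian c (Pi.single e 1) a b) * X e := ⟨_, rfl⟩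
  obtain ⟨H, hH⟩ : ∃ H, H = hessian c x := ⟨_, rfl⟩
  rw [← hH] at hr hdet
  have hlin : ∀ v a b, ∑ e, hessian c (Pi.single e 1) a b * v e = hessian c v a b := fun v a b => by
    simp only [hessian, Matrix.of_apply]
    conv_rhs => rw [eq_sum_single v, tri_rotate, tri_sum_right]
    exact sum_congr rfl fun e _ => by rw [← tri_rotate _ (Pi.single e 1), mul_comm]
  have hMx : M.map (eval x) = H := Matrix.ext fun a b => by
    rw [hM, Matrix.map_apply, Matrix.of_apply, map_sum, hH, ← hlin x a b]
    simp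
  have hk : ∀ b e, eval x (kerVec M I J b e) = kerVec H I J b e := fun b e => by
    rw [kerVec_map, hMx]
  have hcols : ∀ b, ∃ t : Fin r → ℚ, (H.submatrix id J).mulVec t = fun a => H a b := by
    intro b
    obtain ⟨Hr, hHr⟩ : ∃ Hr, Hr = H.submatrix id J := ⟨_, rfl⟩
    have hinj : ∀ v, Hr.mulVec v = 0 → v = 0 := fun v hv =>
      Matrix.eq_zero_of_mulVec_eq_zero hdet (funext fun i => by
        simpa [hHr, Matrix.mulVec, dotProduct] using congrFun hv (I i))
    have hle : LinearMap.range Hr.mulVecLin ≤ LinearMap.range H.mulVecLin := by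
      rintro _ ⟨t, rfl⟩
      refine ⟨fun e => ∑ l, if J l = e then t l else 0, funext fun a => ?_⟩
      simp only [Matrix.mulVecLin_apply, hHr, Matrix.mulVec, dotProduct, mul_sum, mul_ite, mul_zero]
      rw [sum_comm]
      simp
    have heq := Submodule.eq_of_le_of_finrank_eq hle (by
      rw [LinearMap.finrank_range_of_inj ((injective_iff_map_eq_zero _).2 fun v hv => hinj v hv),
        Module.finrank_fin_fun, ← hr, Matrix.rank])
    obtain ⟨t, ht⟩ := heq.ge ⟨Pi.single b 1, rfl⟩
    refine ⟨t, ?_⟩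
    rw [← hHr]
    rw [Matrix.mulVecLin_apply, Matrix.mulVecLin_apply, Matrix.mulVec_single_one] at ht
    rw [ht]; rfl
  have hker : ∀ b, H.mulVec (kerVec H I J b) = 0 := fun b => by
    obtain ⟨t, ht⟩ := hcols b
    rw [mulVec_kerVec, show (fun i => H (I i) b) = (H.submatrix I J).mulVec t from
      funext fun i => (congrFun ht (I i)).symm.trans (by simp [Matrix.mulVec, dotProduct]),
      Matrix.mulVec_mulVec _ (H.submatrix I J).adjugate, Matrix.adjugate_mul, Matrix.smul_mulVec,
      Matrix.one_mulVec, Matrix.mulVec_smul, ht, sub_self]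
  refine ⟨fun z => ?_, ?_⟩
  · rw [show rankEq c I J z = M.mulVec (kerVec M I J z.2) z.1 by rw [rankEq, hM],
      RingHom.map_mulVec,
      hMx, show (eval x) ∘ (kerVec M I J z.2) = kerVec H I J z.2 from funext (hk z.2), hker]
    rfl
  obtain ⟨N, hN⟩ : ∃ N, N = LinearMap.ker H.mulVecLin := ⟨_, rfl⟩
  obtain ⟨T, hT⟩ : ∃ T : Submodule ℚ (Fin n → ℚ), ∀ v,
      v ∈ T ↔ ∀ y ∈ N, ∀ z ∈ N, tri (tmap (Int.castRingHom ℚ) c) v y z = 0 := by
    refine ⟨⟨⟨⟨{v | ∀ y ∈ N, ∀ z ∈ N, tri (tmap (Int.castRingHom ℚ) c) v y z = 0},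
      fun {u v} hu hv y hy z hz => ?_⟩, fun y _ z _ => tri_zero_left _ y z⟩,
      fun a v hv y hy z hz => ?_⟩, fun v => Iff.rfl⟩
    · rw [tri_add_left, hu y hy z hz, hv y hy z hz, add_zero]
    · rw [tri_smul_left, hv y hy z hz, mul_zero]
  refine ⟨T, ?_, fun v hv => (hT v).2 fun y hy z hz => ?_⟩
  · have hinf : T ⊓ N = ⊥ := (Submodule.eq_bot_iff _).2 fun v hv => by
      refine no_rat_zero hc v ?_
      have := (hT v).1 hv.1 v hv.2 v hv.2
      rw [tri_self] at this
      linarith
    have h1 := Submodule.finrank_sup_add_finrank_inf_eq T N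
    rw [hinf, finrank_bot, add_zero] at h1
    have h2 := Submodule.finrank_le (T ⊔ N)
    have h3 := LinearMap.finrank_range_add_finrank_ker H.mulVecLin
    rw [Module.finrank_fin_fun, ← Matrix.rank, hr, ← hN] at h3
    rw [Module.finrank_fin_fun] at h2
    omega
  · rw [hN, LinearMap.mem_ker, Matrix.mulVecLin_apply] at hy hz
    have key : ∀ b, tri (tmap (Int.castRingHom ℚ) c) v y (kerVec H I J b) = 0 := by
      intro b
      have h0 : ∑ a, y a * (jac (rankEq c I J) x).mulVec v (a, b) = 0 := by
        rw [hv]; simp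
      rw [← hessian_dot]
      refine Eq.trans (Eq.symm ?_) h0
      have hd : ∀ a, (jac (rankEq c I J) x).mulVec v (a, b) =
          ∑ d, (hessian c v a d * kerVec H I J b d +
            H a d * ∑ e, v e * eval x (pderiv e (kerVec M I J b d))) := by
        intro a
        have hG : rankEq c I J (a, b) = ∑ d, M a d * kerVec M I J b d := by
          rw [rankEq, hM]; rfl
        have hdM : ∀ d, ∑ e, eval x (pderiv e (M a d)) * v e = hessian c v a d := fun d => by
          rw [← hlin v a d]
          refine sum_congr rfl fun e _ => ?_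
          rw [hM]
          simp [pderiv_X, Pi.single_apply]
        show ∑ e, eval x (pderiv e (rankEq c I J (a, b))) * v e = _
        simp only [hG, map_sum, sum_mul]
        rw [sum_comm]
        refine sum_congr rfl fun d _ => ?_
        rw [← hdM d, sum_mul, mul_sum, ← sum_add_distrib]
        refine sum_congr rfl fun e _ => ?_
        rw [pderiv_mul, map_add, map_mul, map_mul, hk, ← hMx, Matrix.map_apply, hMx]
        ring
      rw [sum_congr rfl fun a _ => by rw [hd a, mul_sum]]
      simp only [mul_add, sum_add_distrib, Matrix.mulVec, dotProduct, mul_sum]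
      rw [add_eq_left, sum_comm]
      refine sum_eq_zero fun d _ => ?_
      rw [sum_comm]
      refine sum_eq_zero fun e _ => ?_
      have := congrFun hy d
      simp only [Matrix.mulVec, dotProduct, Pi.zero_apply] at this
      calc ∑ a, y a * (H a d * (v e * eval x (pderiv e (kerVec M I J b d))))
          = (∑ a, H d a * y a) * (v e * eval x (pderiv e (kerVec M I J b d))) := by
            rw [sum_mul]
            exact sum_congr rfl fun a _ => by rw [hH, hessian_symm c x a d]; ring
        _ = 0 := by rw [this, zero_mul]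
    have hz' : (H.submatrix I J).det • z = ∑ b, z b • kerVec H I J b := by
      funext e
      simp only [Pi.smul_apply, Finset.sum_apply, smul_eq_mul, kerVec, mul_sub, sum_sub_distrib,
        mul_ite, mul_zero, sum_ite_eq, mem_univ, if_true, mul_sum]
      rw [sum_comm, sum_eq_zero (f := fun l : Fin r => ∑ b, if J l = e then _ else 0) fun l _ => ?_,
        sub_zero, mul_comm]
      split_ifs
      · have : (H.submatrix I J).adjugate.mulVec (fun i => H.mulVec z (I i)) l = 0 := by
          rw [hz]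
          exact congrFun (Matrix.mulVec_zero _) l
        rw [← this]
        simp only [Matrix.mulVec, dotProduct, mul_sum]
        rw [sum_comm]
        exact sum_congr rfl fun i _ => sum_congr rfl fun b _ => by ring
      · exact sum_const_zero
    have h1 : tri (tmap (Int.castRingHom ℚ) c) v y ((H.submatrix I J).det • z) = 0 := by
      rw [hz', tri_sum_right]
      exact sum_eq_zero fun b _ => by rw [key b, mul_zero]
    rw [tri_smul_right, mul_eq_zero] at h1
    exact h1.resolve_left hdet

/-- The pairs of size `R` annihilated by the trilinear form. -/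
def zeroPairs (c : Fin n → Fin n → Fin n → ℤ) (R : ℕ) : Finset ((Fin n → ℤ) × (Fin n → ℤ)) :=
  (cbox n R ×ˢ cbox n R).filter fun z => ∀ j, tri c z.1 z.2 (Pi.single j 1) = 0

theorem hessian_mulVec_intCast (h g : Fin n → ℤ) (j : Fin n) :
    (hessian c fun i => (h i : ℚ)).mulVec (fun i => (g i : ℚ)) j =
      ((tri c h g (Pi.single j 1) : ℤ) : ℚ) := by
  rw [hessian_mulVec, tri_comm',
    show Pi.single j (1 : ℚ) = fun i => Int.castRingHom ℚ ((Pi.single j 1 : Fin n → ℤ) i) from
      funext fun i => by simp [Pi.single_apply]]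
  exact tri_map c h g _ (Int.castRingHom ℚ)

/-- **The ranks.** -/
theorem exists_sum_rank_le (hc : ∀ x : Fin n → ℤ, cubic c x = 0 → x = 0) :
    ∃ C : ℕ, ∀ R, 1 ≤ R → ∑ h ∈ cbox n R,
      (3 * R) ^ (n - (hessian c fun i => (h i : ℚ)).rank) ≤ C * R ^ n := by
  classical
  choose C hC using fun r : ℕ => fun IJ : (Fin r → Fin n) × (Fin r → Fin n) =>
    card_le_of_tangent (rankEq c IJ.1 IJ.2) r
  refine ⟨∑ r ∈ range (n + 1), (∑ IJ, C r IJ) * 3 ^ (n - r), fun R hR => ?_⟩
  obtain ⟨rk, hrk⟩ : ∃ rk : (Fin n → ℤ) → ℕ,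
      rk = fun h => (hessian c fun i => (h i : ℚ)).rank := ⟨_, rfl⟩
  calc ∑ h ∈ cbox n R, (3 * R) ^ (n - (hessian c fun i => (h i : ℚ)).rank)
      = ∑ h ∈ cbox n R, (3 * R) ^ (n - rk h) := by rw [hrk]
    _ = ∑ r ∈ range (n + 1),
          ∑ h ∈ (cbox n R).filter (fun h => rk h = r), (3 * R) ^ (n - rk h) := by
        rw [sum_fiberwise_of_maps_to]
        intro h _
        rw [hrk, mem_range]
        exact Nat.lt_succ_of_le ((Matrix.rank_le_card_width _).trans_eq (Fintype.card_fin n))
    _ ≤ ∑ r ∈ range (n + 1), (∑ IJ, C r IJ) * R ^ r * (3 * R) ^ (n - r) := by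
        refine sum_le_sum fun r _ => ?_
        rw [sum_congr rfl fun h hh => by rw [(mem_filter.1 hh).2], sum_const, smul_eq_mul]
        refine Nat.mul_le_mul_right _ ?_
        rw [sum_mul]
        refine le_trans (card_le_card (t := (univ : Finset ((Fin r → Fin n) ×
          (Fin r → Fin n))).biUnion fun IJ => ((cbox n R).filter fun h => rk h = r ∧
            ((hessian c fun i => (h i : ℚ)).submatrix IJ.1 IJ.2).det ≠ 0)) fun h hh => ?_)
          (card_biUnion_le.trans (sum_le_sum fun IJ _ => hC r IJ R hR _ fun h hh => ?_))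
        · obtain ⟨h1, h2⟩ := mem_filter.1 hh
          simp only [hrk] at h2
          obtain ⟨J, -, hJ⟩ := exists_cols_injective (m := r) _ h2.ge
          obtain ⟨I, -, hI⟩ := exists_rows_det_ne_zero _ hJ
          exact mem_biUnion.2 ⟨(I, J), mem_univ _, mem_filter.2 ⟨h1, by rw [hrk]; exact h2,
            by simpa [Matrix.submatrix_submatrix] using hI⟩⟩
        · obtain ⟨h1, h2, h3⟩ := mem_filter.1 hh
          simp only [hrk] at h2
          exact ⟨h1, rankEq_spec hc _ _ _ h2 h3⟩
    _ = (∑ r ∈ range (n + 1), (∑ IJ, C r IJ) * 3 ^ (n - r)) * R ^ n := by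
        rw [sum_mul]
        refine sum_congr rfl fun r hr => ?_
        have := Nat.lt_succ_iff.1 (mem_range.1 hr)
        rw [show R ^ n = R ^ r * R ^ (n - r) by rw [← pow_add, Nat.add_sub_cancel' this]]
        ring

/-- **`O (R ^ n)` annihilated pairs.** -/
theorem exists_zeroPairs_le (hc : ∀ x : Fin n → ℤ, cubic c x = 0 → x = 0) :
    ∃ C : ℕ, ∀ R, 1 ≤ R → (zeroPairs c R).card ≤ C * R ^ n := by
  classical
  obtain ⟨C, hC⟩ := exists_sum_rank_le hc
  refine ⟨C, fun R hR => le_trans (le_of_eq (card_eq_sum_card_fiberwise (f := Prod.fst)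
    (t := cbox n R) fun z hz => (mem_product.1 (mem_filter.1 hz).1).1))
      ((sum_le_sum fun h _ => ?_).trans (hC R hR))⟩
  obtain ⟨H, hH⟩ : ∃ H, H = hessian c fun i => (h i : ℚ) := ⟨_, rfl⟩
  rw [← card_image_of_injOn (f := Prod.snd) (s := (zeroPairs c R).filter fun z => z.1 = h)
    (fun z hz w hw e => Prod.ext ((mem_filter.1 hz).2.trans (mem_filter.1 hw).2.symm) e)]
  have h1 := LinearMap.finrank_range_add_finrank_ker H.mulVecLin
  rw [Module.finrank_fin_fun, ← Matrix.rank] at h1
  refine (card_cbox_submodule_le (LinearMap.ker H.mulVecLin) R _ (fun g hg => ?_)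
    fun g hg => ?_).trans ?_
  · obtain ⟨z, hz, rfl⟩ := mem_image.1 hg
    exact (mem_product.1 (mem_filter.1 (mem_filter.1 hz).1).1).2
  · obtain ⟨z, hz, rfl⟩ := mem_image.1 hg
    rw [LinearMap.mem_ker, Matrix.mulVecLin_apply]
    funext j
    rw [hH, hessian_mulVec_intCast, Pi.zero_apply, ← (mem_filter.1 hz).2,
      (mem_filter.1 (mem_filter.1 hz).1).2 j, Int.cast_zero]
  · rw [← hH, show n - H.rank = Module.finrank ℚ (LinearMap.ker H.mulVecLin) by omega]
    exact Nat.pow_le_pow_left (by omega) _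

end FA.CubicForms
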