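import Fermat.Agent.CubicForms.Complete
import Fermat.Agent.CubicForms.Lift
import Mathlib.NumberTheory.EulerProduct.Basic
import Mathlib.Algebra.Order.Field.GeomSum
import Fermat.Agent.WaringAsymptotic.Positivity

/-!
# The singular series of a cubic form

The average bound at the fractions `a / q` themselves, with the box of size `Q ^ 4`, makes the
series `∑ q ^ (-n) S (a, q)` converge absolutely. It is multiplicative, and positive when every
`p ^ J` has `p ^ (J (n - 1))` zeros up to a constant.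
-/

set_option autoImplicit false

noncomputable section

namespace FA.CubicForms

open Finset FA.ThreePrimes FA.WaringAsymptotic Filter Topology

variable {n : ℕ} (c : Fin n → Fin n → Fin n → ℤ)

/-- The term of the singular series. -/
def seriesTerm (q : ℕ) : ℂ := ∑ a ∈ unitResidues q, completeCubic c q a / (q : ℂ) ^ n

theorem seriesTerm_zero : seriesTerm c 0 = 0 := by simp [seriesTerm, unitResidues]

theorem seriesTerm_one : seriesTerm c 1 = 1 := by
  have h1 : residueBox n 1 = {fun _ => 0} := by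
    ext r
    simp [mem_residueBox, funext_iff]
  have h2 : unitResidues 1 = {0} := by decide
  simp [seriesTerm, h2, completeCubic, h1]

theorem norm_seriesTerm_le (q : ℕ) :
    ‖seriesTerm c q‖ ≤ ∑ a ∈ unitResidues q, ‖completeCubic c q a‖ / (q : ℝ) ^ n :=
  (norm_sum_le _ _).trans (le_of_eq (sum_congr rfl fun a _ => by
    rw [norm_div, norm_pow, Complex.norm_natCast]))

variable {c}

/-- **A block of denominators.** -/
theorem exists_block_le (hc : ∀ x : Fin n → ℤ, cubic c x = 0 → x = 0) (hn : 16 ≤ n) {e : ℝ}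
    (he : e = 1 / (16 * (n : ℝ))) : ∃ C : ℝ, 0 < C ∧ ∀ i : ℕ,
      ∑ q ∈ Ico (2 ^ i) (2 ^ (i + 1)), ∑ a ∈ unitResidues q,
        ‖completeCubic c q a‖ / (q : ℝ) ^ n ≤ C * ((2 : ℝ) ^ i) ^ (-e) := by
  classical
  obtain ⟨C₁, hC₁, happrox⟩ := exists_major_approx c
  obtain ⟨C₂, hC₂, havg⟩ := exists_average hc hn he
  have hn0 : (16 : ℝ) ≤ n := by exact_mod_cast hn
  have he0 : 0 < e := he ▸ by positivity
  have he1 : e ≤ 1 := by rw [he, div_le_one (by positivity)]; linarith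
  obtain ⟨L₀, hL₀, hlog⟩ := exists_log_le (δ := e / (4 * n)) (by positivity)
  refine ⟨C₂ * L₀ ^ n + 8 * C₁, by positivity, fun i => ?_⟩
  obtain ⟨Q, hQdef⟩ : ∃ Q, Q = 2 ^ i := ⟨_, rfl⟩
  have hQ : 1 ≤ Q := hQdef ▸ Nat.one_le_two_pow
  rw [show (2 : ℝ) ^ i = (Q : ℝ) by rw [hQdef]; push_cast; rfl]
  rw [← sum_finset_product (dyadicFractions Q) (Ico (2 ^ i) (2 ^ (i + 1))) unitResidues
    (fun t => by
      simp only [dyadicFractions, unitResidues, mem_filter, mem_product, mem_Ico, mem_range,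
        hQdef, pow_succ']
      omega) (f := fun t => ‖completeCubic c t.1 t.2‖ / (t.1 : ℝ) ^ n)]
  obtain ⟨P, hP⟩ : ∃ P, P = Q ^ 4 := ⟨_, rfl⟩
  have hQP : 2 * Q ≤ 2 * P := Nat.mul_le_mul_left _ (hP ▸ Nat.le_self_pow four_ne_zero Q)
  have hP1 : 1 ≤ P := hP ▸ Nat.one_le_pow _ _ hQ
  have hQ' : (1 : ℝ) ≤ Q := by exact_mod_cast hQ
  have hP' : (P : ℝ) = (Q : ℝ) ^ 4 := by rw [hP]; push_cast; rfl
  have hP0 : (1 : ℝ) ≤ P := by exact_mod_cast hP1
  have hPn : (0 : ℝ) < (P : ℝ) ^ n := by positivity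
  refine le_of_mul_le_mul_left ?_ hPn
  rw [mul_sum]
  have hterm : ∀ t ∈ dyadicFractions Q, (P : ℝ) ^ n * (‖completeCubic c t.1 t.2‖ / (t.1 : ℝ) ^ n) ≤
      ‖cubicSum c P ((t.2 : ℝ) / t.1 + 0)‖ + C₁ * (2 * Q) * (P : ℝ) ^ (n - 1) := by
    intro t ht
    rw [dyadicFractions, mem_filter, mem_product, mem_Ico] at ht
    rcases lt_or_ge P t.1 with hbig | hsmall
    · have : Q = 1 ∧ t.1 ≤ 1 := by
        rcases Nat.lt_or_ge Q 2 with h | h
        · exact ⟨by omega, by omega⟩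
        · have : Q ^ 1 * 2 ≤ Q ^ 4 := by
            calc Q ^ 1 * 2 ≤ Q ^ 1 * Q := Nat.mul_le_mul_left _ h
              _ ≤ Q ^ 4 := by rw [← pow_succ]; exact Nat.pow_le_pow_right hQ (by norm_num)
          rw [pow_one] at this
          omega
      omega
    have h := happrox P t.1 (t.2 : ℤ) 0 (by omega) hsmall
    simp only [abs_zero, mul_zero, add_zero, mul_one, Int.cast_natCast] at h
    have h0 : cubicSum c P 0 = (((2 * P + 1) ^ n : ℕ) : ℂ) := by
      simp [cubicSum, card_cbox]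
    rw [h0] at h
    rw [norm_sub_rev] at h
    have h2 := (norm_sub_norm_le _ _).trans h
    rw [norm_mul, norm_div, norm_pow, Complex.norm_natCast, Complex.norm_natCast] at h2
    rw [add_zero]
    have h3 : C₁ * (t.1 : ℝ) * (P : ℝ) ^ (n - 1) ≤ C₁ * (2 * Q) * (P : ℝ) ^ (n - 1) := by
      gcongr
      exact_mod_cast ht.1.1.2.le
    have h4 : (P : ℝ) ^ n * (‖completeCubic c t.1 t.2‖ / (t.1 : ℝ) ^ n) ≤
        ‖completeCubic c t.1 t.2‖ / (t.1 : ℝ) ^ n * (((2 * P + 1) ^ n : ℕ) : ℝ) := by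
      rw [mul_comm]
      gcongr
      push_cast
      exact pow_le_pow_left₀ (by linarith) (by linarith) n
    linarith
  refine (sum_le_sum hterm).trans ?_
  rw [sum_add_distrib, mul_comm ((P : ℝ) ^ n)]
  obtain ⟨S, hS⟩ : ∃ S, S = (dyadicFractions Q).image fun t => Nat.pair t.1 t.2 := ⟨_, rfl⟩
  have havg' := havg P Q 1 S Nat.unpair (fun _ => 0) hP1 hQ
    (by rw [hP', ← pow_mul]; exact pow_le_pow_right₀ hQ' (by norm_num))
    (fun x hx => by
      rw [hS, mem_image] at hx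
      obtain ⟨t, ht, rfl⟩ := hx
      rwa [Nat.unpair_pair])
    (fun x _ => by rw [abs_zero, mul_zero]; positivity)
    (fun t => card_le_one.2 fun x hx y hy => by
      rw [← Nat.pair_unpair x, ← Nat.pair_unpair y, (mem_filter.1 hx).2, (mem_filter.1 hy).2])
  rw [hS, sum_image fun t _ u _ e => by simpa [Nat.pair_eq_pair, Prod.ext_iff] using e] at havg'
  simp only [Nat.unpair_pair, Nat.cast_one, mul_one] at havg'
  have hL : (1 + Real.log P) ^ n ≤ L₀ ^ n * (Q : ℝ) ^ e := by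
    refine (pow_le_pow_left₀ (by linarith [Real.log_nonneg hP0]) (hlog _ hP0) n).trans (le_of_eq ?_)
    rw [mul_pow, hP', ← Real.rpow_natCast (Q : ℝ) 4, ← Real.rpow_mul (by linarith),
      ← Real.rpow_natCast (_ ^ _) n, ← Real.rpow_mul (by linarith)]
    congr 2
    push_cast
    field_simp
  have hA : C₂ * (1 + Real.log P) ^ n * (P : ℝ) ^ n * (Q : ℝ) ^ (-(2 * e)) ≤
      C₂ * L₀ ^ n * (Q : ℝ) ^ (-e) * (P : ℝ) ^ n := by
    calc C₂ * (1 + Real.log P) ^ n * (P : ℝ) ^ n * (Q : ℝ) ^ (-(2 * e))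
        ≤ C₂ * (L₀ ^ n * (Q : ℝ) ^ e) * (P : ℝ) ^ n * (Q : ℝ) ^ (-(2 * e)) := by gcongr
      _ = C₂ * L₀ ^ n * ((Q : ℝ) ^ e * (Q : ℝ) ^ (-(2 * e))) * (P : ℝ) ^ n := by ring
      _ = _ := by rw [← Real.rpow_add (by linarith)]; congr 3; ring
  have hB : ∑ _t ∈ dyadicFractions Q, C₁ * (2 * (Q : ℝ)) * (P : ℝ) ^ (n - 1) ≤
      8 * C₁ * (Q : ℝ) ^ (-e) * (P : ℝ) ^ n := by
    rw [sum_const, nsmul_eq_mul]
    have hc4 : ((dyadicFractions Q).card : ℝ) ≤ 4 * (Q : ℝ) ^ 2 := by
      exact_mod_cast card_dyadicFractions_le Q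
    have hQe : 1 ≤ (Q : ℝ) ^ (-e) * Q := by
      rw [← Real.rpow_add_one (by linarith)]
      exact Real.one_le_rpow hQ' (by linarith)
    calc ((dyadicFractions Q).card : ℝ) * (C₁ * (2 * (Q : ℝ)) * (P : ℝ) ^ (n - 1))
        ≤ 4 * (Q : ℝ) ^ 2 * (C₁ * (2 * (Q : ℝ)) * (P : ℝ) ^ (n - 1)) := by gcongr
      _ = 8 * C₁ * (Q : ℝ) ^ 3 * (P : ℝ) ^ (n - 1) * 1 := by ring
      _ ≤ 8 * C₁ * (Q : ℝ) ^ 3 * (P : ℝ) ^ (n - 1) * ((Q : ℝ) ^ (-e) * Q) :=
          mul_le_mul_of_nonneg_left hQe (by positivity)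
      _ = 8 * C₁ * (Q : ℝ) ^ (-e) * ((P : ℝ) ^ (n - 1) * (Q : ℝ) ^ 4) := by ring
      _ = _ := by rw [← hP', ← pow_succ, Nat.sub_add_cancel (by omega : 1 ≤ n)]
  have := havg'.trans hA
  linarith

/-- **The tail of the series.** -/
theorem exists_series_tail (hc : ∀ x : Fin n → ℤ, cubic c x = 0 → x = 0) (hn : 16 ≤ n) {e : ℝ}
    (he : e = 1 / (16 * (n : ℝ))) : ∃ C : ℝ, 0 < C ∧ Summable (fun q => ‖seriesTerm c q‖) ∧
      ∀ W : ℕ, 1 ≤ W →
        ‖∑' q, seriesTerm c q - ∑ q ∈ Icc 1 W, seriesTerm c q‖ ≤ C * (W : ℝ) ^ (-e) := by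
  classical
  obtain ⟨C, hC, hblock⟩ := exists_block_le hc hn he
  have he0 : 0 < e := he ▸ by positivity
  obtain ⟨r, hr⟩ : ∃ r : ℝ, r = (2 : ℝ) ^ (-e) := ⟨_, rfl⟩
  have hr0 : 0 < r := hr ▸ by positivity
  have hr1 : r < 1 := hr ▸ Real.rpow_lt_one_of_one_lt_of_neg one_lt_two (by linarith)
  have hpow : ∀ i : ℕ, ((2 : ℝ) ^ i) ^ (-e) = r ^ i := fun i => by
    rw [hr, ← Real.rpow_natCast, ← Real.rpow_natCast (_ ^ _), ← Real.rpow_mul two_pos.le,
      ← Real.rpow_mul two_pos.le, mul_comm]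
  have h2e : 0 < (2 : ℝ) ^ e := by positivity
  have hfin : ∀ W : ℕ, 1 ≤ W → ∀ s : Finset ℕ, (∀ q ∈ s, W ≤ q) →
      ∑ q ∈ s, ‖seriesTerm c q‖ ≤ C * 2 ^ e / (1 - r) * (W : ℝ) ^ (-e) := by
    intro W hW s hs
    obtain ⟨i₀, hi₀⟩ : ∃ i₀, i₀ = Nat.log 2 W := ⟨_, rfl⟩
    obtain ⟨I, hI⟩ : ∃ I, I = s.sup (Nat.log 2) + 1 := ⟨_, rfl⟩
    rw [← sum_fiberwise_of_maps_to (g := Nat.log 2) (t := Ico i₀ I) fun q hq => mem_Ico.2
      ⟨hi₀ ▸ Nat.log_mono_right (hs q hq), hI ▸ Nat.lt_succ_of_le (le_sup hq)⟩]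
    calc ∑ i ∈ Ico i₀ I, ∑ q ∈ s.filter (fun q => Nat.log 2 q = i), ‖seriesTerm c q‖
        ≤ ∑ i ∈ Ico i₀ I, C * r ^ i := sum_le_sum fun i _ => by
          refine (sum_le_sum_of_subset_of_nonneg (t := Ico (2 ^ i) (2 ^ (i + 1))) (fun q hq => ?_)
            fun q _ _ => norm_nonneg _).trans
            ((sum_le_sum fun q _ => norm_seriesTerm_le c q).trans (hpow i ▸ hblock i))
          obtain ⟨hq1, hq2⟩ := mem_filter.1 hq
          rw [← hq2]
          have := hs q hq1
          exact mem_Ico.2 ⟨Nat.pow_log_le_self 2 (by omega), Nat.lt_pow_succ_log_self one_lt_two q⟩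
      _ ≤ C * (r ^ i₀ / (1 - r)) := by
          rw [← mul_sum]
          exact mul_le_mul_of_nonneg_left (geom_sum_Ico_le_of_lt_one hr0.le hr1) hC.le
      _ ≤ C * (2 ^ e * (W : ℝ) ^ (-e) / (1 - r)) := by
          refine mul_le_mul_of_nonneg_left (div_le_div_of_nonneg_right ?_ (by linarith)) hC.le
          have h1 : (W : ℝ) ≤ 2 * (2 : ℝ) ^ i₀ := by
            have := (Nat.lt_pow_succ_log_self one_lt_two W).le
            rw [← hi₀, pow_succ'] at this
            exact_mod_cast this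
          have h2 := Real.rpow_le_rpow_of_nonpos (by positivity) h1 (neg_nonpos.2 he0.le)
          rw [Real.mul_rpow two_pos.le (by positivity), hpow, Real.rpow_neg two_pos.le,
            inv_mul_le_iff₀ h2e] at h2
          exact h2
      _ = _ := by ring
  have hsum : Summable fun q => ‖seriesTerm c q‖ := by
    refine summable_of_sum_le (c := C * 2 ^ e / (1 - r) * ((1 : ℕ) : ℝ) ^ (-e))
      (fun q => norm_nonneg _) fun s => ?_
    rw [← sum_filter_add_sum_filter_not s (fun q => 1 ≤ q),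
      sum_eq_zero (s := s.filter fun q => ¬1 ≤ q) fun q hq => by
        rw [show q = 0 by have := (mem_filter.1 hq).2; omega, seriesTerm_zero, norm_zero],
      add_zero]
    exact hfin 1 le_rfl _ fun q hq => (mem_filter.1 hq).2
  refine ⟨C * 2 ^ e / (1 - r), div_pos (mul_pos hC h2e) (by linarith), hsum, fun W hW => ?_⟩
  have hz : ∑ q ∈ range (W + 1), seriesTerm c q = ∑ q ∈ Icc 1 W, seriesTerm c q := by
    rw [← sum_subset (s₁ := Icc 1 W) (s₂ := range (W + 1)) (fun q hq => by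
      rw [mem_Icc] at hq; rw [mem_range]; omega) fun q hq hq' => by
        rw [mem_range] at hq
        rw [mem_Icc] at hq'
        rw [show q = 0 by omega, seriesTerm_zero]]
  rw [← hsum.of_norm.sum_add_tsum_nat_add (W + 1), hz, add_sub_cancel_left]
  have hs' : Summable fun i => ‖seriesTerm c (i + (W + 1))‖ :=
    (summable_nat_add_iff (f := fun q => ‖seriesTerm c q‖) (W + 1)).2 hsum
  refine (norm_tsum_le_tsum_norm hs').trans
    (Real.tsum_le_of_sum_le (fun i => norm_nonneg (seriesTerm c (i + (W + 1)))) fun s => ?_)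
  rw [← sum_image (g := fun i => i + (W + 1)) (f := fun q => ‖seriesTerm c q‖)
    fun a _ b _ h => add_right_cancel h]
  exact hfin W hW _ fun q hq => by obtain ⟨i, -, rfl⟩ := mem_image.1 hq; omega

variable (c)

theorem completeCubic_mul {q₁ q₂ : ℕ} (hco : q₁.Coprime q₂) (h₁ : 0 < q₁) (h₂ : 0 < q₂)
    (r₁ r₂ : ℕ) : completeCubic c (q₁ * q₂) (crtResidue q₁ q₂ r₁ r₂) =
      completeCubic c q₁ r₁ * completeCubic c q₂ r₂ := by
  rw [completeCubic, completeCubic, completeCubic, sum_mul_sum, ← sum_product']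
  have hmaps : ∀ z ∈ residueBox n (q₁ * q₂),
      ((fun i => z i % q₁, fun i => z i % q₂) : (Fin n → ℕ) × (Fin n → ℕ)) ∈
        residueBox n q₁ ×ˢ residueBox n q₂ := fun z _ =>
    mem_product.2 ⟨mem_residueBox.2 fun i => Nat.mod_lt _ h₁,
      mem_residueBox.2 fun i => Nat.mod_lt _ h₂⟩
  have hinj : Set.InjOn
      (fun z => ((fun i => z i % q₁, fun i => z i % q₂) : (Fin n → ℕ) × (Fin n → ℕ)))
      (residueBox n (q₁ * q₂) : Set (Fin n → ℕ)) := fun z hz w hw e => funext fun i => by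
    simp only [Prod.mk.injEq] at e
    have h := (Nat.modEq_and_modEq_iff_modEq_mul hco).1 ⟨congrFun e.1 i, congrFun e.2 i⟩
    rwa [Nat.ModEq, Nat.mod_eq_of_lt (mem_residueBox.1 hz i),
      Nat.mod_eq_of_lt (mem_residueBox.1 hw i)] at h
  refine sum_bij (fun z _ => (fun i => z i % q₁, fun i => z i % q₂)) hmaps
    (fun z hz w hw e => hinj hz hw e) (fun b hb => ?_) fun z _ => ?_
  · obtain ⟨z, hz, e⟩ := surj_on_of_inj_on_of_card_le (fun z _ => _) hmaps
      (fun z w hz hw e => hinj hz hw e) (by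
        rw [card_product, card_residueBox, card_residueBox, card_residueBox, mul_pow]) b hb
    exact ⟨z, hz, e.symm⟩
  · simp only
    obtain ⟨M, hM⟩ : ∃ M, M = cubic c fun i => (z i : ℤ) := ⟨_, rfl⟩
    rw [← hM, eAdd_natCast_div_congr (Nat.mul_pos h₁ h₂)
      (n := ((r₁ * q₂ + r₂ * q₁ : ℕ) : ℤ) * M) (by
        rw [Int.cast_mul, Int.cast_mul, Int.cast_natCast, Int.cast_natCast, crtResidue,
          ZMod.natCast_mod]),
      ← eAdd_cubic_congr c h₁ (r₁ : ℤ) (x := fun i => (z i : ℤ))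
        (y := fun i => ((z i % q₁ : ℕ) : ℤ)) fun i => by simp,
      ← eAdd_cubic_congr c h₂ (r₂ : ℤ) (x := fun i => (z i : ℤ))
        (y := fun i => ((z i % q₂ : ℕ) : ℤ)) fun i => by simp, ← eAdd_add, ← hM]
    congr 1
    have : (q₁ : ℝ) ≠ 0 := Nat.cast_ne_zero.2 h₁.ne'
    have : (q₂ : ℝ) ≠ 0 := Nat.cast_ne_zero.2 h₂.ne'
    push_cast
    field_simp

/-- **Multiplicativity.** -/
theorem seriesTerm_mul {m q : ℕ} (h : m.Coprime q) :
    seriesTerm c (m * q) = seriesTerm c m * seriesTerm c q := by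
  rcases Nat.eq_zero_or_pos m with rfl | hm
  · simp [seriesTerm_zero]
  rcases Nat.eq_zero_or_pos q with rfl | hq
  · simp [seriesTerm_zero]
  simp only [seriesTerm]
  rw [sum_mul_sum, ← sum_product']
  have hinj : Set.InjOn (fun z : ℕ × ℕ => crtResidue m q z.1 z.2)
      (unitResidues m ×ˢ unitResidues q : Finset (ℕ × ℕ)) := by
    intro z hz w hw e
    simp only [mem_coe, mem_product, unitResidues, mem_filter, mem_range] at hz hw
    have a1 := congrArg (fun r : ℕ => (r : ZMod m)) e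
    have a2 := congrArg (fun r : ℕ => (r : ZMod q)) e
    simp only [crtResidue_cast_left, crtResidue_cast_right] at a1 a2
    have b1 := ((ZMod.isUnit_iff_coprime q m).2 h.symm).mul_right_cancel a1
    have b2 := ((ZMod.isUnit_iff_coprime m q).2 h).mul_right_cancel a2
    rw [ZMod.natCast_eq_natCast_iff', Nat.mod_eq_of_lt hz.1.1, Nat.mod_eq_of_lt hw.1.1] at b1
    rw [ZMod.natCast_eq_natCast_iff', Nat.mod_eq_of_lt hz.2.1, Nat.mod_eq_of_lt hw.2.1] at b2
    exact Prod.ext b1 b2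
  have himg : (unitResidues m ×ˢ unitResidues q).image
      (fun z : ℕ × ℕ => crtResidue m q z.1 z.2) = unitResidues (m * q) := by
    refine eq_of_subset_of_card_le (fun r hr => ?_) ?_
    · obtain ⟨z, hz, rfl⟩ := mem_image.1 hr
      exact crtResidue_mem h (mem_product.1 hz).1 (mem_product.1 hz).2
    · rw [card_image_of_injOn hinj, card_product, card_unitResidues, card_unitResidues,
        card_unitResidues, Nat.totient_mul h]
  rw [← himg, sum_image hinj]
  refine sum_congr rfl fun z _ => ?_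
  rw [completeCubic_mul c h hm hq, Nat.cast_mul, mul_pow, mul_div_mul_comm]

theorem completeCubic_mul_left {p q : ℕ} (hp : 0 < p) (hq : 0 < q) (b : ℤ) :
    completeCubic c (p * q) (p * b) = (p : ℂ) ^ n * completeCubic c q b := by
  rw [show (p : ℂ) ^ n * completeCubic c q b = ∑ _w ∈ residueBox n p, completeCubic c q b by
      rw [sum_const, card_residueBox, nsmul_eq_mul, Nat.cast_pow],
    completeCubic, completeCubic, ← sum_product']
  refine sum_nbij' (fun z => (fun i => z i / q, fun i => z i % q))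
    (fun w i => q * w.1 i + w.2 i) (fun z hz => ?_) (fun w hw => ?_)
    (fun z _ => funext fun i => Nat.div_add_mod _ _) (fun w hw => ?_) fun z _ => ?_
  · refine mem_product.2 ⟨mem_residueBox.2 fun i => ?_, mem_residueBox.2 fun i => Nat.mod_lt _ hq⟩
    rw [Nat.div_lt_iff_lt_mul hq]
    exact mem_residueBox.1 hz i
  · rw [mem_product, mem_residueBox, mem_residueBox] at hw
    refine mem_residueBox.2 fun i => ?_
    calc q * w.1 i + w.2 i < q * w.1 i + q := Nat.add_lt_add_left (hw.2 i) _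
      _ = q * (w.1 i + 1) := by ring
      _ ≤ p * q := by rw [mul_comm p]; exact Nat.mul_le_mul_left _ (hw.1 i)
  · rw [mem_product, mem_residueBox, mem_residueBox] at hw
    refine Prod.ext (funext fun i => ?_) (funext fun i => ?_)
    · show (q * w.1 i + w.2 i) / q = w.1 i
      rw [Nat.mul_add_div hq, Nat.div_eq_of_lt (hw.2 i), add_zero]
    · show (q * w.1 i + w.2 i) % q = w.2 i
      rw [Nat.mul_add_mod, Nat.mod_eq_of_lt (hw.2 i)]
  · rw [← eAdd_cubic_congr c hq b (x := fun i => (z i : ℤ))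
      (y := fun i => ((z i % q : ℕ) : ℤ)) fun i => by simp]
    congr 1
    push_cast
    have : (p : ℝ) ≠ 0 := Nat.cast_ne_zero.2 hp.ne'
    have : (q : ℝ) ≠ 0 := Nat.cast_ne_zero.2 hq.ne'
    field_simp

/-- The sum over all residues. -/
theorem sum_range_completeCubic {q : ℕ} (hq : 0 < q) :
    ∑ a ∈ range q, completeCubic c q a = (q : ℂ) * (zeroCount c q : ℂ) := by
  classical
  have : NeZero q := ⟨hq.ne'⟩
  have hcount : zeroCount c q =
      ((residueBox n q).filter fun r => (q : ℤ) ∣ cubic c fun i => (r i : ℤ)).card := by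
    rw [zeroCount, Nat.card_eq_fintype_card, Fintype.card_subtype]
    refine card_nbij' (fun x i => (x i).val) (fun r i => (r i : ZMod q)) (fun x hx => ?_)
      (fun r hr => ?_) (fun x _ => funext fun i => ZMod.natCast_zmod_val _)
      fun r hr => funext fun i => ZMod.val_cast_of_lt (mem_residueBox.1 (mem_filter.1 hr).1 i)
    · refine mem_coe.2 (mem_filter.2 ⟨mem_residueBox.2 fun i => ZMod.val_lt _, ?_⟩)
      rw [← ZMod.intCast_zmod_eq_zero_iff_dvd, intCast_cubic]
      simpa using (mem_filter.1 hx).2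
    · refine mem_coe.2 (mem_filter.2 ⟨mem_univ _, ?_⟩)
      have := (mem_filter.1 hr).2
      rw [← ZMod.intCast_zmod_eq_zero_iff_dvd, intCast_cubic] at this
      simpa using this
  rw [hcount, card_filter, Nat.cast_sum, mul_sum]
  simp only [completeCubic]
  rw [sum_comm]
  refine sum_congr rfl fun r _ => ?_
  rw [sum_congr rfl fun (a : ℕ) _ => show
      eAdd ((((a : ℤ) * cubic c fun i => (r i : ℤ) : ℤ) : ℝ) / q) =
      eAdd (((cubic c fun i => (r i : ℤ) : ℤ) : ℝ) * a / q) by push_cast; ring_nf,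
    sum_eAdd_grid hq]
  split_ifs <;> simp

theorem sum_seriesTerm_primePow {p : ℕ} (hp : p.Prime) : ∀ L : ℕ,
    ∑ l ∈ range (L + 1), seriesTerm c (p ^ l) =
      ((p ^ L : ℕ) : ℂ) * zeroCount c (p ^ L) / ((p ^ L : ℕ) : ℂ) ^ n
  | 0 => by
    rw [sum_range_one, pow_zero, seriesTerm_one, ← sum_range_completeCubic c one_pos]
    have h1 : residueBox n 1 = {fun _ => 0} := by ext r; simp [mem_residueBox, funext_iff]
    simp [completeCubic, h1]
  | L + 1 => by
    rw [sum_range_succ, sum_seriesTerm_primePow hp L,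
      ← sum_range_completeCubic c (pow_pos hp.pos _),
      ← sum_range_completeCubic c (pow_pos hp.pos _), sum_div, sum_div,
      ← sum_filter_add_sum_filter_not (range (p ^ (L + 1))) (fun a => p ∣ a)]
    congr 1
    · have hp0 : 0 < p := hp.pos
      symm
      refine sum_nbij' (fun a => a / p) (fun b => p * b) (fun a ha => ?_) (fun b hb => ?_)
        (fun a ha => Nat.mul_div_cancel' (mem_filter.1 ha).2)
        (fun b _ => Nat.mul_div_cancel_left b hp0) fun a ha => ?_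
      · rw [mem_range, Nat.div_lt_iff_lt_mul hp0, ← pow_succ]
        exact mem_range.1 (mem_filter.1 ha).1
      · rw [mem_filter, mem_range, pow_succ']
        exact ⟨Nat.mul_lt_mul_of_pos_left (mem_range.1 hb) hp0, dvd_mul_right p b⟩
      · obtain ⟨b, rfl⟩ := (mem_filter.1 ha).2
        rw [Nat.mul_div_cancel_left b hp0, pow_succ' p L, Nat.cast_mul p b,
          completeCubic_mul_left c hp0 (pow_pos hp0 L), Nat.cast_mul, mul_pow,
          mul_div_mul_left _ _ (pow_ne_zero _ (Nat.cast_ne_zero.2 hp0.ne'))]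
    · rw [seriesTerm, unitResidues]
      refine sum_congr (filter_congr fun a _ => ?_) fun a _ => rfl
      rw [Nat.coprime_pow_left_iff L.succ_pos, ← hp.coprime_iff_not_dvd]

/-- The local density. -/
def cubicDensity (p : ℕ) : ℂ := ∑' l, seriesTerm c (p ^ l)

variable {c}

/-- **The singular series is positive.** -/
theorem series_re_pos (hc : ∀ x : Fin n → ℤ, cubic c x = 0 → x = 0) (hn : 16 ≤ n) :
    0 < (∑' q, seriesTerm c q).re := by
  classical
  obtain ⟨C, -, hsum, -⟩ := exists_series_tail hc hn rfl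
  have hpsum : ∀ p : ℕ, p.Prime → Summable fun l => seriesTerm c (p ^ l) := fun p hp =>
    hsum.of_norm.comp_injective (Nat.pow_right_injective hp.two_le)
  have htend : ∀ p : ℕ, p.Prime → Tendsto
      (fun L => ((p ^ L : ℕ) : ℂ) * zeroCount c (p ^ L) / ((p ^ L : ℕ) : ℂ) ^ n) atTop
      (𝓝 (cubicDensity c p)) := fun p hp => by
    refine ((hpsum p hp).hasSum.tendsto_sum_nat.comp (tendsto_add_atTop_nat 1)).congr fun L => ?_
    rw [Function.comp_apply, sum_seriesTerm_primePow c hp L]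
  have hreal : ∀ p L : ℕ, ((p ^ L : ℕ) : ℂ) * zeroCount c (p ^ L) / ((p ^ L : ℕ) : ℂ) ^ n =
      ((((p ^ L : ℕ) : ℝ) * zeroCount c (p ^ L) / ((p ^ L : ℕ) : ℝ) ^ n : ℝ) : ℂ) := fun p L => by
    push_cast; rfl
  obtain ⟨d, hd⟩ : ∃ d : ℕ → ℝ, d = fun p => (cubicDensity c p).re := ⟨_, rfl⟩
  have hdre : ∀ p : ℕ, p.Prime → cubicDensity c p = (d p : ℂ) := fun p hp => by
    refine Complex.ext (by rw [hd]; rfl) ?_
    rw [Complex.ofReal_im]
    refine tendsto_nhds_unique ((Complex.continuous_im.tendsto _).comp (htend p hp))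
      (tendsto_const_nhds.congr fun L => ?_)
    rw [Function.comp_apply, hreal, Complex.ofReal_im]
  have hd0 : ∀ p : ℕ, p.Prime → 0 < d p := fun p hp => by
    obtain ⟨E, hE⟩ := exists_zeroCount_ge hp (by rw [Fintype.card_fin]; omega) hc
    have := hp.pos
    refine lt_of_lt_of_le (show (0 : ℝ) < 1 / ((p ^ E : ℕ) : ℝ) ^ n by positivity) ?_
    rw [hd]
    refine ge_of_tendsto ((Complex.continuous_re.tendsto _).comp (htend p hp))
      (eventually_atTop.2 ⟨E, fun L hL => ?_⟩)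
    rw [Function.comp_apply, hreal, Complex.ofReal_re, div_le_div_iff₀ (by positivity)
      (by positivity), one_mul]
    have h := hE L
    rw [Fintype.card_fin] at h
    calc ((p ^ L : ℕ) : ℝ) ^ n = (((p ^ (L - E)) ^ n * (p ^ E) ^ n : ℕ) : ℝ) := by
          rw [← mul_pow, ← pow_add, Nat.sub_add_cancel hL]; push_cast; rfl
      _ ≤ ((zeroCount c (p ^ L) * p ^ L * (p ^ E) ^ n : ℕ) : ℝ) :=
          Nat.cast_le.2 (Nat.mul_le_mul_right _ h)
      _ = _ := by push_cast; ring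
  obtain ⟨a, ha⟩ : ∃ a : ℕ → ℝ,
      a = fun p => if p.Prime then ∑' l, ‖seriesTerm c (p ^ (l + 1))‖ else 0 := ⟨_, rfl⟩
  have ha0 : ∀ p, 0 ≤ a p := fun p => by
    rw [ha]; dsimp only; split_ifs
    exacts [tsum_nonneg fun _ => norm_nonneg _, le_rfl]
  have hasum : Summable a := by
    have h1 : Summable fun z : Nat.Primes × ℕ => ‖seriesTerm c ((z.1 : ℕ) ^ (z.2 + 1))‖ :=
      hsum.comp_injective (i := fun z : Nat.Primes × ℕ => (z.1 : ℕ) ^ (z.2 + 1)) fun z w h => by
        have hp := Nat.Prime.pow_inj z.1.2 w.1.2 h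
        exact Prod.ext (Subtype.ext hp.1) hp.2
    have h2 := h1.prod
    refine ((Subtype.val_injective (p := Nat.Prime)).summable_iff (f := a)
      fun p hp => ?_).1 (h2.congr fun p => ?_)
    · rw [ha]; dsimp only
      rw [if_neg]
      exact fun h => hp ⟨⟨p, h⟩, rfl⟩
    · rw [Function.comp_apply, ha]; dsimp only
      rw [if_pos p.2]
  have hnear : ∀ p, p.Prime → 1 - a p ≤ d p := fun p hp => by
    have e : cubicDensity c p = 1 + ∑' l, seriesTerm c (p ^ (l + 1)) := by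
      rw [cubicDensity, (hpsum p hp).tsum_eq_zero_add, pow_zero, seriesTerm_one]
    have h1 : ‖∑' l, seriesTerm c (p ^ (l + 1))‖ ≤ a p := by
      rw [ha]; dsimp only
      rw [if_pos hp]
      refine norm_tsum_le_tsum_norm ?_
      exact hsum.comp_injective fun l m h =>
        Nat.succ_injective (Nat.pow_right_injective hp.two_le h)
    have h2 := (abs_le.1 ((Complex.abs_re_le_norm _).trans h1)).1
    rw [hd]
    dsimp only
    rw [e, Complex.add_re, Complex.one_re]
    linarith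
  obtain ⟨p₀, hp₀⟩ := ((tendsto_sum_nat_add a).eventually
    (eventually_le_nhds (show (0 : ℝ) < 1 / 2 by norm_num))).exists
  have hm : 0 < (∏ p ∈ Nat.primesBelow p₀, d p) * (1 / 2) :=
    mul_pos (prod_pos fun p hp => hd0 p (Nat.mem_primesBelow.1 hp).2) (by norm_num)
  refine lt_of_lt_of_le hm ?_
  have hE := EulerProduct.eulerProduct (f := seriesTerm c) (seriesTerm_one c)
    (fun h => seriesTerm_mul c h) hsum (seriesTerm_zero c)
  refine ge_of_tendsto ((Complex.continuous_re.tendsto _).comp hE)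
    (eventually_atTop.2 ⟨p₀, fun m hm => ?_⟩)
  obtain ⟨S, hS⟩ : ∃ S, S = Nat.primesBelow m := ⟨_, rfl⟩
  have hprod : ∏ p ∈ S, ∑' l, seriesTerm c (p ^ l) = ((∏ p ∈ S, d p : ℝ) : ℂ) := by
    rw [Complex.ofReal_prod]
    exact prod_congr rfl fun p hp => hdre p (Nat.mem_primesBelow.1 (hS ▸ hp)).2
  simp only [Function.comp, ← hS, hprod, Complex.ofReal_re]
  have hlow : S.filter (fun p => p < p₀) = Nat.primesBelow p₀ := by
    ext p
    simp only [hS, mem_filter, Nat.mem_primesBelow]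
    exact ⟨fun h => ⟨h.2, h.1.2⟩, fun h => ⟨⟨h.1.trans_le hm, h.2⟩, h.1⟩⟩
  rw [← prod_filter_mul_prod_filter_not S (fun p => p < p₀), hlow]
  refine mul_le_mul_of_nonneg_left ?_
    (prod_nonneg fun p hp => (hd0 p (Nat.mem_primesBelow.1 hp).2).le)
  have hsum' : ∑ p ∈ S.filter (fun p => ¬p < p₀), a p ≤ 1 / 2 := by
    refine le_trans ?_ hp₀
    refine (sum_le_sum_of_subset_of_nonneg (t := Ico p₀ m) (fun p hp => ?_)
      fun p _ _ => ha0 p).trans ?_
    · rw [hS, mem_filter, Nat.mem_primesBelow] at hp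
      exact mem_Ico.2 ⟨not_lt.1 hp.2, hp.1.1⟩
    · rw [sum_Ico_eq_sum_range]
      simp only [add_comm p₀]
      exact (((summable_nat_add_iff p₀).2 hasum)).sum_le_tsum _ fun i _ => ha0 _
  have hle1 : ∀ p ∈ S.filter (fun p => ¬p < p₀), a p ≤ 1 := fun p hp =>
    ((single_le_sum (fun q _ => ha0 q) hp).trans hsum').trans (by norm_num)
  refine le_trans (by linarith) ((one_sub_sum_le_prod _ a (fun p _ => ha0 p) hle1).trans
    (prod_le_prod (fun p hp => sub_nonneg.2 (hle1 p hp)) fun p hp => ?_))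
  exact hnear p (Nat.mem_primesBelow.1 (hS ▸ (mem_filter.1 hp).1)).2

end FA.CubicForms
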