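import Fermat.Agent.CubicForms.Rank
import Mathlib.Algebra.Order.Archimedean.Real.Basic
import Mathlib.Tactic.LinearCombination
import Mathlib.Algebra.BigOperators.Field
import Mathlib.Tactic.FieldSimp
import Mathlib.Tactic.Linarith
import Mathlib.Algebra.Order.Round
import Mathlib.Algebra.Order.Archimedean.Basic

/-!
# Davenport's lemma on linear inequalities

For a symmetrical real matrix `L` the number of integer `u` with `|u| ≤ G` and every `L_i u` within
`θ` of an integer is `O ((G / R) ^ n)` times that with `|u| ≤ R` and within `θ R / G`, if `2 n G θ`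
is less than `1`: the vectors `(u / G, (L u - m) / θ)` span a space isotropic for a symplectic
form, so of dimension at most `n`, and are covered by `O ((G / R) ^ n)` cells of size `R / G`.
-/

set_option autoImplicit false

noncomputable section

namespace FA.CubicForms

open Finset

variable {n : ℕ}

/-- The integer `u` of size `G` with every `L_i u` within `θ` of an integer. -/
def nearSet (L : Matrix (Fin n) (Fin n) ℝ) (G : ℕ) (θ : ℝ) : Finset (Fin n → ℤ) :=
  (cbox n G).filter fun u => ∀ i,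
    |∑ j, L i j * (u j : ℝ) - round (∑ j, L i j * (u j : ℝ))| ≤ θ

/-- Coordinates determining all those of a subspace with coefficients at most `1`. -/
theorem exists_coords_le {κ : Type*} [Finite κ] (W : Submodule ℝ (κ → ℝ)) :
    ∃ f : Fin (Module.finrank ℝ W) → κ, ∀ w ∈ W, ∀ e, |w e| ≤ ∑ l, |w (f l)| := by
  classical
  have := Fintype.ofFinite κ
  obtain ⟨d, hd⟩ : ∃ d, d = Module.finrank ℝ W := ⟨_, rfl⟩
  rw [← hd]
  obtain ⟨B⟩ : Nonempty (Module.Basis (Fin d) ℝ W) := ⟨hd ▸ Module.finBasis ℝ W⟩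
  obtain ⟨M, hM⟩ : ∃ M : Matrix κ (Fin d) ℝ, M = Matrix.of fun e l => (B l : κ → ℝ) e := ⟨_, rfl⟩
  have hMv : ∀ t, M.mulVec t = ((∑ l, t l • B l : W) : κ → ℝ) := fun t => by
    funext e
    simp [hM, Matrix.mulVec, dotProduct, Finset.sum_apply, mul_comm]
  obtain ⟨f₀, -, hf₀⟩ := exists_rows_det_ne_zero M fun t ht => by
    rw [hMv, ← ZeroMemClass.coe_zero W, Subtype.coe_inj] at ht
    exact funext (Fintype.linearIndependent_iff.1 B.linearIndependent t ht)
  obtain ⟨f, -, hmax⟩ := (univ : Finset (Fin d → κ)).exists_max_image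
    (fun f => |(M.submatrix f id).det|) ⟨f₀, mem_univ _⟩
  have hdet : (M.submatrix f id).det ≠ 0 :=
    abs_pos.1 (lt_of_lt_of_le (abs_pos.2 hf₀) (hmax f₀ (mem_univ _)))
  refine ⟨f, fun w hw e => ?_⟩
  obtain ⟨A, hA⟩ : ∃ A, A = M.submatrix f id := ⟨_, rfl⟩
  rw [← hA] at hdet hmax
  obtain ⟨t, ht⟩ : ∃ t : Fin d → ℝ, ∑ l, t l • A l = M e := by
    have hu : IsUnit A := (Matrix.isUnit_iff_isUnit_det A).2 (isUnit_iff_ne_zero.2 hdet)
    obtain ⟨t, ht⟩ := Matrix.vecMul_surjective_iff_isUnit.2 hu (M e)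
    refine ⟨t, ?_⟩
    rw [← ht]
    funext l
    simp [Matrix.vecMul, dotProduct, Finset.sum_apply]
  have ht1 : ∀ l, |t l| ≤ 1 := fun l => by
    have h1 := Matrix.det_updateRow_sum A l t
    rw [ht] at h1
    have h2 : A.updateRow l (M e) = M.submatrix (Function.update f l e) id := by
      refine Matrix.ext fun i k => ?_
      by_cases hi : i = l
      · subst hi; simp
      · simp [hi, hA]
    have h3 := hmax (Function.update f l e) (mem_univ _)
    rw [← h2, h1, smul_eq_mul, abs_mul] at h3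
    exact le_of_mul_le_mul_right (by rwa [one_mul]) (abs_pos.2 hdet)
  obtain ⟨s, hs⟩ : ∃ s : Fin d → ℝ, ∑ l, s l • B l = (⟨w, hw⟩ : W) := ⟨_, B.sum_repr _⟩
  have hw' : ∀ a, w a = M.mulVec s a := fun a => by rw [hMv, hs]
  have hwe : w e = ∑ l, t l * w (f l) := by
    rw [hw' e, Matrix.mulVec, dotProduct, ← ht]
    simp only [Finset.sum_apply, Pi.smul_apply, smul_eq_mul, sum_mul, hw', Matrix.mulVec,
      dotProduct, mul_sum]
    rw [sum_comm]
    exact sum_congr rfl fun l _ => sum_congr rfl fun k _ => by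
      rw [hA, Matrix.submatrix_apply, id_eq]; ring
  rw [hwe]
  refine (abs_sum_le_sum_abs _ _).trans (sum_le_sum fun l _ => ?_)
  rw [abs_mul]
  exact mul_le_of_le_one_left (abs_nonneg _) (ht1 l)

/-- The rotation of the symplectic form. -/
def rotation : (Fin n ⊕ Fin n → ℝ) →ₗ[ℝ] (Fin n ⊕ Fin n → ℝ) where
  toFun w := Sum.elim (fun i => w (Sum.inr i)) fun i => -w (Sum.inl i)
  map_add' u v := by
    funext i
    cases i <;> simp [add_comm]
  map_smul' a v := by
    funext i
    cases i <;> simp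

theorem finrank_le_of_isotropic (S : Set (Fin n ⊕ Fin n → ℝ))
    (h : ∀ v ∈ S, ∀ w ∈ S, dotProduct v (rotation w) = 0) :
    Module.finrank ℝ (Submodule.span ℝ S) ≤ n := by
  obtain ⟨W, hW⟩ : ∃ W, W = Submodule.span ℝ S := ⟨_, rfl⟩
  rw [← hW]
  have hperp : ∀ v ∈ W, ∀ w ∈ W, dotProduct v (rotation w) = 0 := by
    intro v hv w hw
    rw [hW] at hv hw
    induction hv, hw using Submodule.span_induction₂ with
    | mem_mem x y hx hy => exact h x hx y hy
    | zero_left y _ => simp
    | zero_right x _ => simp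
    | add_left x y z _ _ _ h1 h2 => simp [h1, h2]
    | add_right x y z _ _ _ h1 h2 => simp [h1, h2]
    | smul_left r x y _ _ h1 => simp [h1]
    | smul_right r x y _ _ h1 => simp [h1]
  have hinj : Function.Injective (rotation (n := n)) := fun u v e => funext fun i => by
    cases i with
    | inl i => simpa [rotation] using congrFun e (Sum.inr i)
    | inr i => simpa [rotation] using congrFun e (Sum.inl i)
  have hinf : W ⊓ W.map rotation = ⊥ := (Submodule.eq_bot_iff _).2 fun v hv => by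
    obtain ⟨w, hw, rfl⟩ := hv.2
    exact dotProduct_self_eq_zero.1 (hperp _ hv.1 w hw)
  have h1 := Submodule.finrank_sup_add_finrank_inf_eq W (W.map rotation)
  rw [hinf, finrank_bot, add_zero,
    ← (Submodule.equivMapOfInjective rotation hinj W).finrank_eq] at h1
  have h2 := Submodule.finrank_le (W ⊔ W.map rotation)
  rw [Module.finrank_fintype_fun_eq_card, Fintype.card_sum, Fintype.card_fin] at h2
  omega

/-- **Davenport's lemma.** -/
theorem card_nearSet_le (L : Matrix (Fin n) (Fin n) ℝ) (hL : L.IsSymm) {G R : ℕ} (hR : 1 ≤ R)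
    (hRG : R ≤ G) {θ : ℝ} (hθ : 0 < θ) (hθG : 2 * n * G * θ < 1) :
    ((nearSet L G θ).card : ℝ) ≤
      (2 * n + 5 : ℝ) ^ n * ((G : ℝ) / R) ^ n * (nearSet L R (θ * R / G)).card := by
  classical
  have hG0 : (0 : ℝ) < G := by exact_mod_cast (show 0 < G by omega)
  have hR0 : (0 : ℝ) < R := by exact_mod_cast (show 0 < R by omega)
  obtain ⟨y, hy⟩ : ∃ y : (Fin n → ℤ) → Fin n → ℝ, y = fun u i =>
      ∑ j, L i j * (u j : ℝ) - round (∑ j, L i j * (u j : ℝ)) := ⟨_, rfl⟩
  obtain ⟨v, hv⟩ : ∃ v : (Fin n → ℤ) → Fin n ⊕ Fin n → ℝ,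
      v = fun u => Sum.elim (fun i => (u i : ℝ) / G) fun i => y u i / θ := ⟨_, rfl⟩
  have hmem : ∀ u ∈ nearSet L G θ, ∀ e, |v u e| ≤ 1 := by
    intro u hu e
    obtain ⟨h1, h2⟩ := mem_filter.1 hu
    rw [hv]
    cases e with
    | inl i =>
      simp only [Sum.elim_inl]
      rw [abs_div, abs_of_pos hG0, div_le_one hG0]
      exact_mod_cast mem_cbox.1 h1 i
    | inr i =>
      simp only [Sum.elim_inr]
      rw [abs_div, abs_of_pos hθ, div_le_one hθ, hy]
      exact h2 i
  have horth : ∀ u ∈ nearSet L G θ, ∀ u' ∈ nearSet L G θ,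
      dotProduct (v u) (rotation (v u')) = 0 := by
    intro u hu u' hu'
    obtain ⟨z, hz⟩ : ∃ z : ℤ, ∑ i, ((u i : ℝ) * y u' i - (u' i : ℝ) * y u i) = z := by
      refine ⟨∑ i, (u' i * round (∑ j, L i j * (u j : ℝ)) -
        u i * round (∑ j, L i j * (u' j : ℝ))), ?_⟩
      have hsw : ∑ i, (u i : ℝ) * ∑ j, L i j * (u' j : ℝ) =
          ∑ i, (u' i : ℝ) * ∑ j, L i j * (u j : ℝ) := by
        simp only [mul_sum]
        rw [sum_comm]
        exact sum_congr rfl fun i _ => sum_congr rfl fun j _ => by rw [hL.apply i j]; ring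
      simp only [hy, mul_sub, sum_sub_distrib]
      push_cast
      linear_combination hsw
    have hdot : dotProduct (v u) (rotation (v u')) = (z : ℝ) / (G * θ) := by
      rw [← hz, dotProduct, Fintype.sum_sum_type, sum_div, ← sum_add_distrib]
      refine sum_congr rfl fun i _ => ?_
      simp only [rotation, LinearMap.coe_mk, AddHom.coe_mk, hv, Sum.elim_inl, Sum.elim_inr]
      field_simp
      ring
    have hlt : |(z : ℝ)| < 1 := by
      refine lt_of_le_of_lt ?_ hθG
      rw [← hz]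
      refine (abs_sum_le_sum_abs _ _).trans ((sum_le_card_nsmul _ _ (2 * G * θ) fun i _ => ?_).trans
        (le_of_eq (by rw [nsmul_eq_mul, card_univ, Fintype.card_fin]; ring)))
      refine (abs_sub _ _).trans ?_
      rw [abs_mul, abs_mul]
      have a1 : |(u i : ℝ)| ≤ G := by exact_mod_cast mem_cbox.1 (mem_filter.1 hu).1 i
      have a2 : |(u' i : ℝ)| ≤ G := by exact_mod_cast mem_cbox.1 (mem_filter.1 hu').1 i
      have b1 : |y u i| ≤ θ := hy ▸ (mem_filter.1 hu).2 i
      have b2 : |y u' i| ≤ θ := hy ▸ (mem_filter.1 hu').2 i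
      have := mul_le_mul a1 b2 (abs_nonneg _) hG0.le
      have := mul_le_mul a2 b1 (abs_nonneg _) hG0.le
      linarith
    have : z = 0 := by
      rw [← Int.cast_abs, ← Int.cast_one, Int.cast_lt] at hlt
      exact Int.abs_lt_one_iff.1 hlt
    rw [hdot, this, Int.cast_zero, zero_div]
  obtain ⟨W, hW⟩ : ∃ W, W = Submodule.span ℝ (v '' ↑(nearSet L G θ)) := ⟨_, rfl⟩
  have hdim : Module.finrank ℝ W ≤ n := hW ▸ finrank_le_of_isotropic _ (by
    rintro _ ⟨u, hu, rfl⟩ _ ⟨u', hu', rfl⟩
    exact horth u hu u' hu')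
  obtain ⟨f, hf⟩ := exists_coords_le W
  obtain ⟨δ, hδ⟩ : ∃ δ : ℝ, δ = (R : ℝ) / G / (n + 1) := ⟨_, rfl⟩
  have hδ0 : 0 < δ := hδ ▸ by positivity
  obtain ⟨K, hK⟩ : ∃ K, K = ⌈1 / δ⌉₊ := ⟨_, rfl⟩
  obtain ⟨key, hkey⟩ : ∃ key : (Fin n → ℤ) → Fin (Module.finrank ℝ W) → ℤ,
      key = fun u l => ⌊v u (f l) / δ⌋ := ⟨_, rfl⟩
  have himg : ∀ u ∈ nearSet L G θ, key u ∈ cbox (Module.finrank ℝ W) K := by
    refine fun u hu => mem_cbox.2 fun l => abs_le.2 ?_
    obtain ⟨h1, h2⟩ := abs_le.1 (hmem u hu (f l))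
    have hK1 : (1 : ℝ) / δ ≤ K := hK ▸ Nat.le_ceil _
    rw [hkey]
    constructor
    · rw [Int.le_floor]
      have : -1 / δ ≤ v u (f l) / δ := by gcongr
      push_cast
      rw [neg_div] at this
      linarith
    · rw [Int.floor_le_iff]
      have : v u (f l) / δ ≤ 1 / δ := by gcongr
      push_cast
      linarith
  have hfib : ∀ k, ((nearSet L G θ).filter fun u => key u = k).card ≤
      (nearSet L R (θ * R / G)).card := by
    intro k
    obtain ⟨T, hT⟩ : ∃ T, T = (nearSet L G θ).filter fun u => key u = k := ⟨_, rfl⟩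
    rcases T.eq_empty_or_nonempty with h0 | ⟨u₀, hu₀⟩
    · rw [← hT, h0, card_empty]; exact Nat.zero_le _
    rw [← hT]
    refine card_le_card_of_injOn (fun u => u - u₀) (fun u hu => ?_) fun u _ u' _ e => by
      simpa using e
    have hu₀' := hT ▸ hu₀
    have hu' := hT ▸ (mem_coe.1 hu)
    obtain ⟨hu1, hu2⟩ := mem_filter.1 hu'
    obtain ⟨hv1, hv2⟩ := mem_filter.1 hu₀'
    have hclose : ∀ e, |v u e - v u₀ e| ≤ (R : ℝ) / G := by
      intro e
      refine (hf (v u - v u₀) (hW ▸ sub_mem (Submodule.subset_span ⟨u, hu1, rfl⟩)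
        (Submodule.subset_span ⟨u₀, hv1, rfl⟩)) e).trans ?_
      refine (sum_le_card_nsmul _ _ δ fun l _ => ?_).trans ?_
      · have hl := congrFun (hu2.trans hv2.symm) l
        simp only [hkey] at hl
        have := Int.abs_sub_lt_one_of_floor_eq_floor hl
        rw [← sub_div, abs_div, abs_of_pos hδ0, div_lt_one hδ0] at this
        exact this.le
      · rw [nsmul_eq_mul, card_univ, Fintype.card_fin, hδ, ← mul_div_assoc,
          div_le_iff₀ (by positivity), mul_comm]
        gcongr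
        exact_mod_cast hdim.trans (Nat.le_succ n)
    refine mem_coe.2 (mem_filter.2 ⟨mem_cbox.2 fun i => ?_, fun i => ?_⟩)
    · have := hclose (Sum.inl i)
      simp only [hv, Sum.elim_inl, ← sub_div, abs_div, abs_of_pos hG0] at this
      rw [div_le_div_iff_of_pos_right hG0] at this
      simp only [Pi.sub_apply]
      exact_mod_cast this
    · have := hclose (Sum.inr i)
      simp only [hv, Sum.elim_inr, ← sub_div, abs_div, abs_of_pos hθ] at this
      rw [div_le_iff₀ hθ, show (R : ℝ) / G * θ = θ * R / G by ring] at this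
      refine le_trans ((round_le _ (round (∑ j, L i j * (u j : ℝ)) -
        round (∑ j, L i j * (u₀ j : ℝ)))).trans (le_of_eq ?_)) this
      congr 1
      simp only [hy, Pi.sub_apply]
      push_cast
      simp only [mul_sub, sum_sub_distrib]
      ring
  have hsum := card_le_mul_card_image_of_maps_to himg (nearSet L R (θ * R / G)).card
    fun k _ => hfib k
  have hbox : ((cbox (Module.finrank ℝ W) K).card : ℝ) ≤
      (2 * n + 5 : ℝ) ^ n * ((G : ℝ) / R) ^ n := by
    rw [cbox, Fintype.card_piFinset, prod_const, card_univ, Fintype.card_fin, Int.card_Icc,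
      show ((K : ℤ) + 1 - -(K : ℤ)).toNat = 2 * K + 1 by omega, Nat.cast_pow, ← mul_pow]
    refine (pow_le_pow_right₀ (by push_cast; linarith [(Nat.cast_nonneg K : (0 : ℝ) ≤ K)])
      hdim).trans (pow_le_pow_left₀ (Nat.cast_nonneg _) ?_ n)
    have h1 : (K : ℝ) < 1 / δ + 1 := hK ▸ Nat.ceil_lt_add_one (by positivity)
    have h2 : 1 / δ = (n + 1) * ((G : ℝ) / R) := by rw [hδ]; field_simp
    have h3 : (1 : ℝ) ≤ (G : ℝ) / R := by rw [le_div_iff₀ hR0, one_mul]; exact_mod_cast hRG
    push_cast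
    nlinarith
  calc ((nearSet L G θ).card : ℝ)
      ≤ (((nearSet L R (θ * R / G)).card * (cbox (Module.finrank ℝ W) K).card : ℕ) : ℝ) :=
        Nat.cast_le.2 hsum
    _ ≤ _ := by
        push_cast
        rw [mul_comm]
        exact mul_le_mul_of_nonneg_right hbox (Nat.cast_nonneg _)

end FA.CubicForms
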