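import Mathlib.RingTheory.MvPolynomial.Homogeneous
import Mathlib.Algebra.MvPolynomial.Basic
import Mathlib.Data.Finsupp.Multiset

/-!
# Cubic forms as tensors

A cubic form is given by a tensor `c`, not assumed symmetrical, as
`cubic c x = ∑ c i j k * x i * x j * x k`. Its two polarisations are `polar c x y`, quadratic in `x`
and linear in `y`, and the symmetrical trilinear `tri c x y z`, with
`cubic (x + y) = cubic x + polar x y + polar y x + cubic y`.
-/

set_option autoImplicit false

noncomputable section

namespace FA.CubicForms

open Finset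

variable {ι R S : Type*} [Fintype ι] [CommRing R] [CommRing S]

/-- The cubic form of a tensor. -/
def cubic (c : ι → ι → ι → R) (x : ι → R) : R := ∑ i, ∑ j, ∑ k, c i j k * (x i * x j * x k)

/-- The part of `cubic (x + y)` of degree one in `y`. -/
def polar (c : ι → ι → ι → R) (x y : ι → R) : R :=
  ∑ i, ∑ j, ∑ k, c i j k * (y i * x j * x k + x i * y j * x k + x i * x j * y k)

/-- The trilinear form. -/
def tri (c : ι → ι → ι → R) (x y z : ι → R) : R :=
  ∑ i, ∑ j, ∑ k, c i j k * (x i * y j * z k + x i * z j * y k + y i * x j * z k + y i * z j * x k +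
    z i * x j * y k + z i * y j * x k)

/-- Change of the ring of coefficients. -/
def tmap (f : R → S) (c : ι → ι → ι → R) : ι → ι → ι → S := fun i j k => f (c i j k)

variable (c : ι → ι → ι → R) (x y z w : ι → R) (t : R)

theorem cubic_add : cubic c (x + y) = cubic c x + polar c x y + polar c y x + cubic c y := by
  simp only [cubic, polar, Pi.add_apply, ← sum_add_distrib]
  exact sum_congr rfl fun i _ => sum_congr rfl fun j _ => sum_congr rfl fun k _ => by ring

theorem polar_add_left : polar c (x + y) z = polar c x z + polar c y z + tri c x y z := by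
  simp only [tri, polar, Pi.add_apply, ← sum_add_distrib]
  exact sum_congr rfl fun i _ => sum_congr rfl fun j _ => sum_congr rfl fun k _ => by ring

theorem polar_add_right : polar c x (y + z) = polar c x y + polar c x z := by
  simp only [polar, Pi.add_apply, ← sum_add_distrib]
  exact sum_congr rfl fun i _ => sum_congr rfl fun j _ => sum_congr rfl fun k _ => by ring

theorem tri_add_left : tri c (x + y) z w = tri c x z w + tri c y z w := by
  simp only [tri, Pi.add_apply, ← sum_add_distrib]
  exact sum_congr rfl fun i _ => sum_congr rfl fun j _ => sum_congr rfl fun k _ => by ring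

theorem tri_comm : tri c x y z = tri c y x z := by
  simp only [tri]
  exact sum_congr rfl fun i _ => sum_congr rfl fun j _ => sum_congr rfl fun k _ => by ring

theorem tri_comm' : tri c x y z = tri c x z y := by
  simp only [tri]
  exact sum_congr rfl fun i _ => sum_congr rfl fun j _ => sum_congr rfl fun k _ => by ring

theorem tri_rotate : tri c x y z = tri c y z x := by
  rw [tri_comm, tri_comm']

theorem tri_add_mid : tri c z (x + y) w = tri c z x w + tri c z y w := by
  rw [tri_comm, tri_add_left, tri_comm c x, tri_comm c y]

theorem tri_add_right : tri c z w (x + y) = tri c z w x + tri c z w y := by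
  rw [tri_comm', tri_add_mid, tri_comm' c z x, tri_comm' c z y]

theorem cubic_smul : cubic c (t • x) = t ^ 3 * cubic c x := by
  simp only [cubic, mul_sum, Pi.smul_apply, smul_eq_mul]
  exact sum_congr rfl fun i _ => sum_congr rfl fun j _ => sum_congr rfl fun k _ => by ring

theorem polar_smul_left : polar c (t • x) y = t ^ 2 * polar c x y := by
  simp only [polar, mul_sum, Pi.smul_apply, smul_eq_mul]
  exact sum_congr rfl fun i _ => sum_congr rfl fun j _ => sum_congr rfl fun k _ => by ring

theorem polar_smul_right : polar c x (t • y) = t * polar c x y := by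
  simp only [polar, mul_sum, Pi.smul_apply, smul_eq_mul]
  exact sum_congr rfl fun i _ => sum_congr rfl fun j _ => sum_congr rfl fun k _ => by ring

theorem tri_smul_left : tri c (t • x) y z = t * tri c x y z := by
  simp only [tri, mul_sum, Pi.smul_apply, smul_eq_mul]
  exact sum_congr rfl fun i _ => sum_congr rfl fun j _ => sum_congr rfl fun k _ => by ring

theorem tri_smul_mid : tri c x (t • y) z = t * tri c x y z := by
  rw [tri_comm, tri_smul_left, tri_comm]

theorem tri_smul_right : tri c x y (t • z) = t * tri c x y z := by
  rw [tri_comm', tri_smul_mid, tri_comm']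

theorem cubic_zero : cubic c 0 = 0 := by simp [cubic]

theorem polar_zero_left : polar c 0 y = 0 := by simp [polar]

theorem polar_zero_right : polar c x 0 = 0 := by simp [polar]

theorem tri_zero_left : tri c 0 y z = 0 := by simp [tri]

theorem cubic_neg : cubic c (-x) = -cubic c x := by
  rw [← neg_one_smul R x, cubic_smul]; ring

theorem tri_self : tri c x x x = 6 * cubic c x := by
  simp only [tri, cubic, mul_sum]
  exact sum_congr rfl fun i _ => sum_congr rfl fun j _ => sum_congr rfl fun k _ => by ring

theorem tri_self_left : tri c x x y = 2 * polar c x y := by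
  simp only [tri, polar, mul_sum]
  exact sum_congr rfl fun i _ => sum_congr rfl fun j _ => sum_congr rfl fun k _ => by ring

theorem cubic_map (f : R →+* S) : cubic (tmap f c) (fun i => f (x i)) = f (cubic c x) := by
  simp [cubic, tmap, map_sum, map_mul]

theorem polar_map (f : R →+* S) :
    polar (tmap f c) (fun i => f (x i)) (fun i => f (y i)) = f (polar c x y) := by
  simp [polar, tmap, map_sum, map_mul, map_add]

theorem tri_map (f : R →+* S) : tri (tmap f c) (fun i => f (x i)) (fun i => f (y i))
    (fun i => f (z i)) = f (tri c x y z) := by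
  simp [tri, tmap, map_sum, map_mul, map_add]

theorem cubic_add_tensor (c' : ι → ι → ι → R) :
    cubic (c + c') x = cubic c x + cubic c' x := by
  simp only [cubic, Pi.add_apply, add_mul, ← sum_add_distrib]

theorem cubic_mul_tensor (a : R) : cubic (fun i j k => a * c i j k) x = a * cubic c x := by
  simp only [cubic, mul_sum, mul_assoc]

/-- **Every cubic form is given by a tensor.** -/
theorem exists_tensor {K : Type*} [CommRing K] (F : MvPolynomial ι K) (hF : F.IsHomogeneous 3) :
    ∃ c : ι → ι → ι → K, ∀ x : ι → K, cubic c x = MvPolynomial.eval x F := by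
  classical
  rw [F.as_sum]
  refine Finset.sum_induction (M := MvPolynomial ι K) _
    (fun G => ∃ c : ι → ι → ι → K, ∀ x : ι → K, cubic c x = MvPolynomial.eval x G)
    (fun G H ⟨a, ha⟩ ⟨b, hb⟩ => ⟨a + b, fun x => by rw [cubic_add_tensor, ha, hb, map_add]⟩)
    ⟨0, fun x => by simp [cubic]⟩ fun s hs => ?_
  have hcard : (Finsupp.toMultiset s).card = 3 := by
    rw [Finsupp.card_toMultiset]
    have := hF (MvPolynomial.mem_support_iff.1 hs)
    simpa [Finsupp.weight_apply, Finsupp.sum] using this
  obtain ⟨a, b, d, hm⟩ := Multiset.card_eq_three.1 hcard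
  refine ⟨fun i j k => if i = a ∧ j = b ∧ k = d then MvPolynomial.coeff s F else 0, fun x => ?_⟩
  have hprod : s.prod (fun i e => x i ^ e) = x a * x b * x d := by
    have h1 : ((Finsupp.toMultiset s).map x).prod = s.prod fun i e => x i ^ e := by
      rw [Finset.prod_multiset_map_count, Finsupp.toFinset_toMultiset]
      simp only [Finsupp.count_toMultiset]
      rfl
    rw [← h1, hm]
    simp [mul_assoc]
  rw [MvPolynomial.eval_monomial, hprod, cubic,
    sum_eq_single a (fun i _ hi => by simp [hi]) (fun h => absurd (mem_univ a) h),
    sum_eq_single b (fun j _ hj => by simp [hj]) (fun h => absurd (mem_univ b) h),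
    sum_eq_single d (fun k _ hk => by simp [hk]) (fun h => absurd (mem_univ d) h)]
  simp

end FA.CubicForms
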