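import Fermat.Agent.CubicForms.Shrink
import Fermat.Agent.WaringAsymptotic.WeylMeanValue

/-!
# Weyl's inequality for cubic forms

The fourth power of `∑_{|x| ≤ P} e (α C x)` is bounded through two differences by the number of
pairs `h, g` with every `α B_j (h, g)` near an integer, and by Davenport's lemma, applied first
to `g` and then to `h`, by `P ^ (4 n + ε) R ^ (-2 n)` times the pairs of size `R` with
`α B_j (h, g)` within `R ^ 2 / P ^ 3` of an integer, `B_j (h, g) = tri h g e_j`.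
-/

set_option autoImplicit false

noncomputable section

namespace FA.CubicForms

open Finset FA.ThreePrimes FA.WaringAsymptotic
open scoped ComplexConjugate

variable {n : ℕ}

/-- A box. -/
def ibox (a b : Fin n → ℤ) : Finset (Fin n → ℤ) := Fintype.piFinset fun i => Icc (a i) (b i)

theorem ibox_filter_shift (a b h : Fin n → ℤ) :
    (ibox a b).filter (fun x => x + h ∈ ibox a b) =
      ibox (fun i => max (a i) (a i - h i)) fun i => min (b i) (b i - h i) := by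
  ext x
  simp only [ibox, mem_filter, Fintype.mem_piFinset, mem_Icc, Pi.add_apply, max_le_iff, le_min_iff]
  constructor
  · intro hx i
    have := hx.1 i
    have := hx.2 i
    omega
  · intro hx
    exact ⟨fun i => by have := hx i; omega, fun i => by have := hx i; omega⟩

/-- **Squaring.** -/
theorem norm_sq_ibox_le (a b : Fin n → ℤ) {P : ℕ} (hP : ∀ i, b i - a i ≤ 2 * (P : ℤ))
    (φ : (Fin n → ℤ) → ℝ) : ‖∑ x ∈ ibox a b, eAdd (φ x)‖ ^ 2 ≤ ∑ h ∈ cbox n (2 * P),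
      ‖∑ x ∈ ibox (fun i => max (a i) (a i - h i)) (fun i => min (b i) (b i - h i)),
        eAdd (φ (x + h) - φ x)‖ := by
  rw [← Real.norm_of_nonneg (sq_nonneg _), ← Complex.norm_real]
  push_cast
  rw [← Complex.mul_conj', map_sum, sum_mul_sum, sum_comm]
  have e : ∀ x ∈ ibox a b, ∑ y ∈ ibox a b, eAdd (φ y) * conj (eAdd (φ x)) =
      ∑ h ∈ cbox n (2 * P), if x + h ∈ ibox a b then eAdd (φ (x + h) - φ x) else 0 := by
    intro x hx
    rw [← sum_filter]
    refine sum_nbij' (fun y => y - x) (fun h => x + h) (fun y hy => ?_)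
      (fun h hh => (mem_filter.1 hh).2) (fun y _ => by simp) (fun h _ => by simp) fun y _ => ?_
    · rw [mem_filter, mem_cbox, add_sub_cancel]
      refine ⟨fun i => ?_, hy⟩
      have hy' := mem_Icc.1 (Fintype.mem_piFinset.1 hy i)
      have hx' := mem_Icc.1 (Fintype.mem_piFinset.1 hx i)
      have := hP i
      rw [Pi.sub_apply, abs_le]
      push_cast
      omega
    · rw [add_sub_cancel, conj_eAdd, ← eAdd_add]
      ring_nf
  rw [sum_congr rfl e, sum_comm]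
  refine (norm_sum_le _ _).trans (le_of_eq (sum_congr rfl fun h _ => ?_))
  rw [← sum_filter, ibox_filter_shift]

theorem norm_sum_Icc_int_le (x : ℝ) {a b : ℤ} {N : ℕ} (h : b + 1 - a ≤ N) :
    ‖∑ m ∈ Icc a b, eAdd (m * x)‖ ≤ clip (N : ℝ) x := by
  have hmap : Icc a b = (Ioc 0 (b + 1 - a).toNat).map
      ⟨fun k : ℕ => a - 1 + (k : ℤ), fun k l e => by simpa using e⟩ := by
    ext y
    simp only [mem_map, mem_Icc, mem_Ioc, Function.Embedding.coeFn_mk]
    exact ⟨fun hy => ⟨(y + 1 - a).toNat, by omega, by omega⟩, fun ⟨k, hk, e⟩ => by omega⟩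
  rw [hmap, sum_map]
  have he : ∀ k : ℕ, eAdd (((a - 1 + (k : ℤ) : ℤ) : ℝ) * x) =
      eAdd (((a - 1 : ℤ) : ℝ) * x) * eAdd (k * x) := fun k => by
    rw [← eAdd_add]
    push_cast
    ring_nf
  simp only [Function.Embedding.coeFn_mk, he, ← mul_sum, norm_mul, norm_eAdd, one_mul]
  refine (norm_geom_le x 0 _).trans (clip_mono ?_ _)
  exact_mod_cast (show (b + 1 - a).toNat - 0 ≤ N by omega)

/-- A linear sum over a box. -/
theorem norm_linear_ibox_le (a b : Fin n → ℤ) {N : ℕ} (hN : ∀ i, b i + 1 - a i ≤ N)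
    (t : Fin n → ℝ) (t₀ : ℝ) :
    ‖∑ x ∈ ibox a b, eAdd (t₀ + ∑ i, (x i : ℝ) * t i)‖ ≤ ∏ i, clip (N : ℝ) (t i) := by
  simp only [eAdd_add, ← mul_sum, norm_mul, norm_eAdd, one_mul, ibox]
  rw [← sum_congr rfl fun x _ => prod_eAdd_eq univ fun i => (x i : ℝ) * t i]
  rw [← prod_univ_sum (fun i => Icc (a i) (b i)) fun i m => eAdd ((m : ℝ) * t i), norm_prod]
  exact prod_le_prod (fun i _ => norm_nonneg _) fun i _ => norm_sum_Icc_int_le _ (hN i)

variable (c : Fin n → Fin n → Fin n → ℤ)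

/-- The exponential sum. -/
def cubicSum (P : ℕ) (α : ℝ) : ℂ := ∑ x ∈ cbox n P, eAdd (α * (cubic c x : ℤ))

/-- The pairs of Weyl's inequality. -/
def weylPairs (α : ℝ) (R : ℕ) (η : ℝ) : Finset ((Fin n → ℤ) × (Fin n → ℤ)) :=
  (cbox n R ×ˢ cbox n R).filter fun z =>
    ∀ j, nearDist (α * (tri c z.1 z.2 (Pi.single j 1) : ℤ)) ≤ η

theorem norm_cubicSum_pow_le (P : ℕ) (α : ℝ) :
    ‖cubicSum c P α‖ ^ 4 ≤ (4 * (P : ℝ) + 1) ^ n * ∑ h ∈ cbox n (2 * P),
      ∑ g ∈ cbox n (2 * P),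
        ∏ j, clip ((2 * P + 1 : ℕ) : ℝ) (α * (tri c h g (Pi.single j 1) : ℤ)) := by
  obtain ⟨a, ha⟩ : ∃ a : Fin n → ℤ, a = fun _ => -(P : ℤ) := ⟨_, rfl⟩
  obtain ⟨b, hb⟩ : ∃ b : Fin n → ℤ, b = fun _ => (P : ℤ) := ⟨_, rfl⟩
  have hbox : cbox n P = ibox a b := by rw [ha, hb]; rfl
  have h1 := norm_sq_ibox_le a b (P := P) (fun i => by simp only [ha, hb]; omega)
    fun x => α * (cubic c x : ℤ)
  rw [← hbox] at h1
  rw [show 4 = 2 * 2 from rfl, pow_mul]
  refine (pow_le_pow_left₀ (sq_nonneg _) h1 2).trans (sq_sum_le_card_mul_sum_sq.trans ?_)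
  refine mul_le_mul (le_of_eq ?_) (sum_le_sum fun h hh => ?_) (sum_nonneg fun _ _ => sq_nonneg _)
    (by positivity)
  · rw [cbox, Fintype.card_piFinset, prod_const, card_univ, Fintype.card_fin, Int.card_Icc,
      show ((2 * P : ℕ) : ℤ) + 1 - -((2 * P : ℕ) : ℤ) = ((4 * P + 1 : ℕ) : ℤ) by push_cast; ring,
      Int.toNat_natCast]
    push_cast
    rfl
  refine (norm_sq_ibox_le _ _ (P := P) (fun i => ?_) _).trans (sum_le_sum fun g _ => ?_)
  · simp only [ha, hb]; omega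
  have e : ∀ x : Fin n → ℤ,
      α * (cubic c (x + g + h) : ℤ) - α * (cubic c (x + g) : ℤ) -
        (α * (cubic c (x + h) : ℤ) - α * (cubic c x : ℤ)) =
      α * ((polar c g h + polar c h g : ℤ) : ℝ) +
        ∑ i, (x i : ℝ) * (α * (tri c h g (Pi.single i 1) : ℤ)) := fun x => by
    have h2 : tri c h g x = ∑ i, x i * tri c h g (Pi.single i 1) := by
      conv_lhs => rw [eq_sum_single x]
      exact tri_sum_right c h g univ x _
    have h3 : cubic c (x + g + h) - cubic c (x + g) - (cubic c (x + h) - cubic c x) =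
        polar c g h + polar c h g + ∑ i, x i * tri c h g (Pi.single i 1) := by
      rw [← h2, cubic_add c (x + g), cubic_add c x h, polar_add_left, polar_add_right,
        show tri c x g h = tri c h g x by rw [tri_rotate, tri_comm]]
      ring
    have h4 := congrArg (fun z : ℤ => α * (z : ℝ)) h3
    push_cast at h4 ⊢
    rw [mul_add, mul_sum] at h4
    rw [sum_congr rfl fun i _ => show (x i : ℝ) * (α * (tri c h g (Pi.single i 1) : ℤ)) =
      α * ((x i : ℝ) * (tri c h g (Pi.single i 1) : ℤ)) by ring]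
    linear_combination h4
  simp only [e]
  exact norm_linear_ibox_le _ _ (fun i => by simp only [ha, hb]; omega) _ _

/-- The matrix of `g ↦ α B (h, g)`. -/
def weylMatrix (α : ℝ) (h : Fin n → ℤ) : Matrix (Fin n) (Fin n) ℝ :=
  Matrix.of fun i j => α * (tri c h (Pi.single j 1) (Pi.single i 1) : ℤ)

theorem weylMatrix_isSymm (α : ℝ) (h : Fin n → ℤ) : (weylMatrix c α h).IsSymm := by
  refine Matrix.IsSymm.ext fun i j => ?_
  simp only [weylMatrix, Matrix.of_apply]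
  rw [tri_comm']

theorem weylMatrix_apply (α : ℝ) (h g : Fin n → ℤ) (i : Fin n) :
    ∑ j, weylMatrix c α h i j * (g j : ℝ) = α * (tri c h g (Pi.single i 1) : ℤ) := by
  conv_rhs => rw [eq_sum_single g, tri_comm', tri_sum_right]
  push_cast
  rw [mul_sum]
  refine sum_congr rfl fun j _ => ?_
  simp only [weylMatrix, Matrix.of_apply]
  rw [tri_comm' c h (Pi.single i 1)]
  ring

theorem nearSet_weylMatrix (α : ℝ) (h : Fin n → ℤ) (G : ℕ) (θ : ℝ) :
    nearSet (weylMatrix c α h) G θ =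
      (cbox n G).filter fun g => ∀ j, nearDist (α * (tri c h g (Pi.single j 1) : ℤ)) ≤ θ := by
  simp only [nearSet, weylMatrix_apply, nearDist]

/-- **The cells.** -/
theorem sum_prod_clip_le (L : Matrix (Fin n) (Fin n) ℝ) {P Q₀ : ℕ} (hQ : 5 * P ≤ Q₀) (hP : 1 ≤ P) :
    ∑ g ∈ cbox n (2 * P), ∏ j, clip ((2 * P + 1 : ℕ) : ℝ) (∑ i, L j i * (g i : ℝ)) ≤
      (2 * (Q₀ : ℝ) * (1 + Real.log Q₀)) ^ n * (nearSet L (4 * P) (1 / (Q₀ : ℝ))).card := by
  classical
  have hQ0 : (0 : ℝ) < Q₀ := by exact_mod_cast (show 0 < Q₀ by omega)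
  obtain ⟨t, ht⟩ : ∃ t : (Fin n → ℤ) → Fin n → ℝ, t = fun g j => ∑ i, L j i * (g i : ℝ) := ⟨_, rfl⟩
  obtain ⟨key, hkey⟩ : ∃ key : (Fin n → ℤ) → Fin n → ℕ,
      key = fun g j => ⌊Int.fract (t g j) * Q₀⌋₊ := ⟨_, rfl⟩
  obtain ⟨w, hw⟩ : ∃ w : ℕ → ℝ,
      w = fun k : ℕ => (Q₀ : ℝ) * (1 / (k + 1 : ℝ) + 1 / ((Q₀ - k : ℕ) : ℝ)) := ⟨_, rfl⟩
  have hw0 : ∀ k, 0 ≤ w k := fun k => hw ▸ by positivity
  have hlt : ∀ g j, key g j < Q₀ := fun g j => by
    rw [hkey]
    exact (Nat.floor_lt (by positivity [Int.fract_nonneg (t g j)])).2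
      (mul_lt_of_lt_one_left hQ0 (Int.fract_lt_one _))
  have hclip : ∀ g j, clip ((2 * P + 1 : ℕ) : ℝ) (t g j) ≤ w (key g j) := by
    intro g j
    obtain ⟨k, hk⟩ : ∃ k, k = key g j := ⟨_, rfl⟩
    have hkQ : k < Q₀ := hk ▸ hlt g j
    rw [← hk]
    have hf0 : (0 : ℝ) ≤ Int.fract (t g j) * Q₀ := by positivity [Int.fract_nonneg (t g j)]
    have hk1 : (k : ℝ) ≤ Int.fract (t g j) * Q₀ := by rw [hk, hkey]; exact Nat.floor_le hf0
    have hk2 : Int.fract (t g j) * Q₀ < k + 1 := by rw [hk, hkey]; exact Nat.lt_floor_add_one _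
    obtain ⟨m, hm⟩ : ∃ m, m = min k (Q₀ - 1 - k) := ⟨_, rfl⟩
    have hwm : (Q₀ : ℝ) / (m + 1) ≤ w k := by
      rw [hw, div_eq_mul_one_div]
      refine mul_le_mul_of_nonneg_left ?_ hQ0.le
      rcases le_total k (Q₀ - 1 - k) with h | h
      · rw [hm, min_eq_left h]
        exact le_add_of_nonneg_right (by positivity)
      · rw [hm, min_eq_right h]
        refine le_add_of_nonneg_of_le (by positivity) (le_of_eq ?_)
        congr 1
        rw [show Q₀ - k = Q₀ - 1 - k + 1 by omega]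
        push_cast
        ring
    refine le_trans ?_ hwm
    rcases Nat.eq_zero_or_pos m with h0 | h0
    · rw [h0, Nat.cast_zero, zero_add, div_one]
      exact (clip_le _ _).trans (by exact_mod_cast (show 2 * P + 1 ≤ Q₀ by omega))
    have hd : (m : ℝ) / Q₀ ≤ nearDist (t g j) := by
      have hk3 : (k : ℝ) + ((Q₀ - 1 - k : ℕ) : ℝ) + 1 = Q₀ := by
        exact_mod_cast (show k + (Q₀ - 1 - k) + 1 = Q₀ by omega)
      have hm1 : (m : ℝ) ≤ k := by exact_mod_cast (show m ≤ k by omega)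
      have hm2 : (m : ℝ) ≤ ((Q₀ - 1 - k : ℕ) : ℝ) := by
        exact_mod_cast (show m ≤ Q₀ - 1 - k by omega)
      rw [nearDist, abs_sub_round_eq_min, le_min_iff, div_le_iff₀ hQ0, div_le_iff₀ hQ0]
      constructor <;> linarith
    refine (clip_le_inv (by positivity) hd).trans ?_
    have hm3 : (1 : ℝ) ≤ m := by exact_mod_cast h0
    rw [show (1 : ℝ) / (2 * ((m : ℝ) / Q₀)) = Q₀ / (2 * m) by field_simp]
    gcongr
    linarith
  have hfib : ∀ k, ((cbox n (2 * P)).filter fun g => key g = k).card ≤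
      (nearSet L (4 * P) (1 / (Q₀ : ℝ))).card := by
    intro k
    obtain ⟨T, hT⟩ : ∃ T, T = (cbox n (2 * P)).filter fun g => key g = k := ⟨_, rfl⟩
    rcases T.eq_empty_or_nonempty with h0 | ⟨g₀, hg₀⟩
    · rw [← hT, h0, card_empty]; exact Nat.zero_le _
    rw [← hT]
    refine card_le_card_of_injOn (fun g => g - g₀) (fun g hg => ?_) fun g _ g' _ e => by
      simpa using e
    obtain ⟨h1, h2⟩ := mem_filter.1 (hT ▸ (mem_coe.1 hg))
    obtain ⟨h1', h2'⟩ := mem_filter.1 (hT ▸ hg₀)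
    refine mem_coe.2 (mem_filter.2 ⟨mem_cbox.2 fun i => ?_, fun i => ?_⟩)
    · have a1 := mem_cbox.1 h1 i
      have a2 := mem_cbox.1 h1' i
      simp only [Pi.sub_apply]
      push_cast at a1 a2 ⊢
      exact (abs_sub _ _).trans (by linarith)
    have e : ∑ j, L i j * (((g - g₀) j : ℤ) : ℝ) = t g i - t g₀ i := by
      simp only [ht, Pi.sub_apply, Int.cast_sub, mul_sub, sum_sub_distrib]
    refine le_of_le_of_eq ?_ rfl
    rw [e]
    refine (round_le _ (⌊t g i⌋ - ⌊t g₀ i⌋)).trans ?_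
    rw [Int.cast_sub, show t g i - t g₀ i - ((⌊t g i⌋ : ℝ) - (⌊t g₀ i⌋ : ℝ)) =
      Int.fract (t g i) - Int.fract (t g₀ i) by rw [Int.fract, Int.fract]; ring,
      le_div_iff₀ hQ0, ← abs_of_pos hQ0, ← abs_mul, sub_mul]
    have hkk := congrFun (h2.trans h2'.symm) i
    simp only [hkey] at hkk
    have l1 := Nat.floor_le (show 0 ≤ Int.fract (t g i) * (Q₀ : ℝ) by
      positivity [Int.fract_nonneg (t g i)])
    have l2 := Nat.lt_floor_add_one (Int.fract (t g i) * (Q₀ : ℝ))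
    have l3 := Nat.floor_le (show 0 ≤ Int.fract (t g₀ i) * (Q₀ : ℝ) by
      positivity [Int.fract_nonneg (t g₀ i)])
    have l4 := Nat.lt_floor_add_one (Int.fract (t g₀ i) * (Q₀ : ℝ))
    rw [hkk] at l1 l2
    rw [abs_le]
    constructor <;> linarith
  obtain ⟨N, hN⟩ : ∃ N, N = (nearSet L (4 * P) (1 / (Q₀ : ℝ))).card := ⟨_, rfl⟩
  rw [← hN] at hfib ⊢
  calc ∑ g ∈ cbox n (2 * P), ∏ j, clip ((2 * P + 1 : ℕ) : ℝ) (∑ i, L j i * (g i : ℝ))
      ≤ ∑ g ∈ cbox n (2 * P), ∏ j, w (key g j) :=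
        sum_le_sum fun g _ => prod_le_prod (fun j _ => clip_nonneg (Nat.cast_nonneg _) _)
          fun j _ => by simpa [ht] using hclip g j
    _ = ∑ k ∈ Fintype.piFinset fun _ : Fin n => range Q₀,
          ∑ g ∈ (cbox n (2 * P)).filter (fun g => key g = k), ∏ j, w (key g j) :=
        (sum_fiberwise_of_maps_to (fun g _ => Fintype.mem_piFinset.2 fun j =>
          mem_range.2 (hlt g j)) _).symm
    _ ≤ ∑ k ∈ Fintype.piFinset fun _ : Fin n => range Q₀, (N : ℝ) * ∏ j, w (k j) := by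
        refine sum_le_sum fun k _ => ?_
        rw [sum_congr rfl fun g hg => by rw [(mem_filter.1 hg).2], sum_const, nsmul_eq_mul]
        exact mul_le_mul_of_nonneg_right (Nat.cast_le.2 (hfib k)) (prod_nonneg fun j _ => hw0 _)
    _ = (∑ k ∈ range Q₀, w k) ^ n * N := by
        rw [← mul_sum, ← prod_univ_sum (fun _ : Fin n => range Q₀) (fun _ k => w k), prod_const,
          card_univ, Fintype.card_fin, mul_comm]
    _ ≤ _ := by
        refine mul_le_mul_of_nonneg_right (pow_le_pow_left₀ (sum_nonneg fun k _ => hw0 k) ?_ n)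
          (Nat.cast_nonneg _)
        have hsum : ∑ k ∈ range Q₀, w k = 2 * (Q₀ : ℝ) * (harmonic Q₀ : ℝ) := by
          have hr : ∑ k ∈ range Q₀, (1 : ℝ) / ((Q₀ - k : ℕ) : ℝ) =
              ∑ k ∈ range Q₀, (1 : ℝ) / (k + 1 : ℝ) := by
            rw [← sum_range_reflect]
            refine sum_congr rfl fun k hk => ?_
            rw [mem_range] at hk
            rw [show Q₀ - (Q₀ - 1 - k) = k + 1 by omega]
            push_cast
            ring
          simp only [hw]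
          rw [← mul_sum, sum_add_distrib, hr, harmonic]
          push_cast
          simp only [one_div]
          ring
        rw [hsum]
        exact mul_le_mul_of_nonneg_left (harmonic_le_one_add_log Q₀) (by positivity)

theorem sum_nearSet_swap (α : ℝ) (G R : ℕ) (θ : ℝ) :
    ∑ h ∈ cbox n G, (nearSet (weylMatrix c α h) R θ).card =
      ∑ g ∈ cbox n R, (nearSet (weylMatrix c α g) G θ).card := by
  simp only [nearSet_weylMatrix, card_filter]
  rw [sum_comm]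
  refine sum_congr rfl fun g _ => sum_congr rfl fun h _ => ?_
  simp only [tri_comm c h g]

/-- **Weyl's inequality with Davenport's shrinking.** -/
theorem exists_weyl_shrink : ∃ C : ℝ, 0 < C ∧ ∀ (P R : ℕ) (α : ℝ), 1 ≤ R → R ≤ P →
    ‖cubicSum c P α‖ ^ 4 * (R : ℝ) ^ (2 * n) ≤ C * (P : ℝ) ^ (4 * n) * (1 + Real.log P) ^ n *
      (weylPairs c α R ((R : ℝ) ^ 2 / (P : ℝ) ^ 3)).card := by
  obtain ⟨A, hA⟩ : ∃ A : ℕ, A = 8 * n + 5 := ⟨_, rfl⟩
  have hlA : (0 : ℝ) ≤ Real.log A := Real.log_natCast_nonneg A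
  refine ⟨5 ^ n * (2 * A * (1 + Real.log A)) ^ n * ((2 * n + 5 : ℝ) ^ n * 4 ^ n) ^ 2,
    by rw [hA] at hlA ⊢; positivity, fun P R α hR hRP => ?_⟩
  have hP0 : (1 : ℝ) ≤ P := by exact_mod_cast hR.trans hRP
  have hR0 : (1 : ℝ) ≤ R := by exact_mod_cast hR
  obtain ⟨θ, hθ⟩ : ∃ θ : ℝ, θ = 1 / ((A * P : ℕ) : ℝ) := ⟨_, rfl⟩
  have hA5 : (5 : ℝ) ≤ A := by exact_mod_cast (show 5 ≤ A by omega)
  have hθ0 : 0 < θ := by rw [hθ]; push_cast; positivity
  have hθn : 2 * (n : ℝ) * ((4 * P : ℕ) : ℝ) * θ < 1 := by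
    rw [hθ, mul_one_div, div_lt_one (by push_cast; positivity)]
    push_cast
    rw [hA]
    push_cast
    nlinarith
  have hratio : (R : ℝ) / ((4 * P : ℕ) : ℝ) ≤ 1 := by
    rw [div_le_one (by push_cast; positivity)]
    exact_mod_cast (show R ≤ 4 * P by omega)
  obtain ⟨θ', hθ'⟩ : ∃ θ', θ' = θ * R / ((4 * P : ℕ) : ℝ) := ⟨_, rfl⟩
  have hθ'0 : 0 < θ' := by rw [hθ']; push_cast; positivity
  have hθ'n : 2 * (n : ℝ) * ((4 * P : ℕ) : ℝ) * θ' < 1 := by
    refine lt_of_le_of_lt (mul_le_mul_of_nonneg_left ?_ (by positivity)) hθn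
    rw [hθ', mul_div_assoc]
    exact mul_le_of_le_one_right hθ0.le hratio
  obtain ⟨K, hK⟩ : ∃ K : ℝ, K = (2 * n + 5 : ℝ) ^ n * (((4 * P : ℕ) : ℝ) / R) ^ n := ⟨_, rfl⟩
  have hK0 : 0 ≤ K := hK ▸ by positivity
  obtain ⟨η, hη⟩ : ∃ η : ℝ, η = (R : ℝ) ^ 2 / (P : ℝ) ^ 3 := ⟨_, rfl⟩
  have hη' : θ' * R / ((4 * P : ℕ) : ℝ) ≤ η := by
    rw [hθ', hθ, hη]
    push_cast
    rw [show 1 / ((A : ℝ) * P) * R / (4 * P) * R / (4 * P) = (R : ℝ) ^ 2 / (A * 16 * P ^ 3) by
      field_simp; ring]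
    gcongr
    nlinarith [pow_le_pow_left₀ (by norm_num : (0 : ℝ) ≤ 1) hP0 3]
  have hswap : ∑ h ∈ cbox n (4 * P), ((nearSet (weylMatrix c α h) R θ').card : ℝ) ≤
      K * (weylPairs c α R η).card := by
    rw [← Nat.cast_sum, sum_nearSet_swap, Nat.cast_sum]
    refine (sum_le_sum fun g _ => card_nearSet_le _ (weylMatrix_isSymm c α g) hR (by omega)
      hθ'0 hθ'n).trans ?_
    rw [← hK, ← mul_sum, ← Nat.cast_sum]
    refine mul_le_mul_of_nonneg_left (Nat.cast_le.2 ?_) hK0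
    rw [weylPairs, card_filter, sum_product]
    refine sum_le_sum fun g _ => ?_
    rw [nearSet_weylMatrix, card_filter]
    refine sum_le_sum fun h _ => ?_
    by_cases hh : ∀ j, nearDist (α * (tri c g h (Pi.single j 1) : ℤ)) ≤
        θ' * R / ((4 * P : ℕ) : ℝ)
    · rw [if_pos hh, if_pos fun j => (hh j).trans hη']
    · rw [if_neg hh]; exact Nat.zero_le _
  obtain ⟨W, hW⟩ : ∃ W : ℝ, W = (2 * ((A * P : ℕ) : ℝ) * (1 + Real.log (A * P : ℕ))) ^ n :=
    ⟨_, rfl⟩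
  have hW0 : 0 ≤ W := hW ▸ by positivity [Real.log_natCast_nonneg (A * P)]
  have hmain : ‖cubicSum c P α‖ ^ 4 ≤ (5 * (P : ℝ)) ^ n * (W * (K * (K *
      (weylPairs c α R η).card))) := by
    refine (norm_cubicSum_pow_le c P α).trans (mul_le_mul (pow_le_pow_left₀ (by positivity)
      (by linarith) n) ?_ (sum_nonneg fun h _ => sum_nonneg fun g _ => prod_nonneg fun j _ =>
        clip_nonneg (Nat.cast_nonneg _) _) (by positivity))
    refine le_trans (sum_le_sum (g := fun h =>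
      W * ((nearSet (weylMatrix c α h) (4 * P) θ).card : ℝ)) fun h _ => ?_)
      (le_trans ?_ (mul_le_mul_of_nonneg_left
      (mul_le_mul_of_nonneg_left hswap hK0) hW0))
    · have h1 := sum_prod_clip_le (weylMatrix c α h) (P := P) (Q₀ := A * P)
        (Nat.mul_le_mul_right P (by omega)) (hR.trans hRP)
      simp only [weylMatrix_apply, ← hθ, ← hW] at h1
      exact h1
    rw [← mul_sum, mul_sum _ _ K]
    refine mul_le_mul_of_nonneg_left ((sum_le_sum fun h _ => ?_).trans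
      (sum_le_sum_of_subset_of_nonneg (fun h hh => mem_cbox.2 fun i =>
        (mem_cbox.1 hh i).trans (by exact_mod_cast (show 2 * P ≤ 4 * P by omega)))
        fun h _ _ => by positivity)) hW0
    rw [hθ', hK]
    exact card_nearSet_le _ (weylMatrix_isSymm c α h) hR (by omega) hθ0 hθn
  have hWle : W ≤ (2 * A * (1 + Real.log A)) ^ n * (P : ℝ) ^ n * (1 + Real.log P) ^ n := by
    rw [hW, ← mul_pow, ← mul_pow]
    refine pow_le_pow_left₀ (by positivity [Real.log_natCast_nonneg (A * P)]) ?_ n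
    push_cast
    rw [Real.log_mul (by positivity) (by positivity)]
    have h1 : 0 ≤ Real.log P := Real.log_nonneg hP0
    have h2 : 1 + (Real.log A + Real.log P) ≤ (1 + Real.log A) * (1 + Real.log P) := by
      nlinarith
    exact (mul_le_mul_of_nonneg_left h2 (by positivity)).trans (le_of_eq (by ring))
  rw [← hη]
  obtain ⟨N, hN⟩ : ∃ N : ℝ, N = ((weylPairs c α R η).card : ℝ) := ⟨_, rfl⟩
  rw [← hN] at hmain ⊢
  have hN0 : 0 ≤ N := hN ▸ Nat.cast_nonneg _
  calc ‖cubicSum c P α‖ ^ 4 * (R : ℝ) ^ (2 * n)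
      ≤ (5 * (P : ℝ)) ^ n * (W * (K * (K * N))) * (R : ℝ) ^ (2 * n) :=
        mul_le_mul_of_nonneg_right hmain (by positivity)
    _ = 5 ^ n * W * ((2 * n + 5 : ℝ) ^ n * 4 ^ n) ^ 2 * (P : ℝ) ^ (3 * n) * N := by
        rw [hK, Nat.cast_mul, Nat.cast_ofNat, mul_pow, div_pow, mul_pow]
        field_simp
        ring
    _ ≤ 5 ^ n * ((2 * A * (1 + Real.log A)) ^ n * (P : ℝ) ^ n * (1 + Real.log P) ^ n) *
          ((2 * n + 5 : ℝ) ^ n * 4 ^ n) ^ 2 * (P : ℝ) ^ (3 * n) * N := by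
        gcongr
    _ = _ := by ring

end FA.CubicForms
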